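/-
GATE-N / S48-P5 (helper69): the mod `M` cyclotomic character of `G_ℚ` for an ARBITRARY modulus
`M ≠ 0`, in the prelude's language (`ValuationSubring (AlgebraicClosure ℚ)`, `LiesOverPrime`,
`IsFrobeniusAt`, `inertiaSubgroupIn`), and the Galois character attached to a Dirichlet-type
character `χ : (ZMod M)ˣ →* k0ˣ`.

* `cycM M : G_ℚ →* (ZMod M)ˣ`, `cycM_spec`, `cycM_eq_of_forall`;
* `cycM_finiteLevel`, `cycM_frob` (value `ℓ` at Frobenius lifts at `ℓ ∤ M`), `cycM_inertia`;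
* `dirChar χ := χ ∘ cycM M`, `dirChar_finiteLevel`, `dirChar_frob`, `dirChar_inertia`.

Template: helper22 `GJ/CycChar.lean` (prime modulus); input: helper8 `GJ/Cyc/FrobCyc.lean`
(`frob_rootOfUnity`, `inertia_rootOfUnity`, valid for every order prime to `ℓ`).
-/
import Mathlib
import Fermat.Prelude.Def_GaloisRep_Residual
import Fermat.Prelude.Def_ExtCitation_AdmissibleExtension
import Fermat.Agent.GJ.Cyc.FrobCyc

set_option autoImplicit false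

namespace Fermat.Agent.DS.P5

/-- `ℚ̄`. -/
local notation "Qb" => AlgebraicClosure ℚ
/-- `G_ℚ`. -/
local notation "GQ" => (AlgebraicClosure ℚ ≃ₐ[ℚ] AlgebraicClosure ℚ)

section CycM

variable (M : ℕ) [NeZero M]

theorem card_rootsOfUnity_Qb : Nat.card (rootsOfUnity M Qb) = M :=
  IsAlgClosed.card_rootsOfUnity_eq Qb M

/-- The mod `M` cyclotomic character of `G_ℚ`. -/
noncomputable def cycM : GQ →* (ZMod M)ˣ :=
  MonoidHom.mk'
    (fun σ => modularCyclotomicCharacter Qb (card_rootsOfUnity_Qb M) (σ : Qb ≃+* Qb))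
    (fun a b => by rw [← map_mul]; congr 1)

theorem cycM_apply (σ : GQ) :
    cycM M σ = modularCyclotomicCharacter Qb (card_rootsOfUnity_Qb M) (σ : Qb ≃+* Qb) := rfl

variable {M}

/-- The defining property of `cycM`. -/
theorem cycM_spec (σ : GQ) (ζ : Qb) (hζ : ζ ^ M = 1) :
    σ ζ = ζ ^ ((cycM M σ : (ZMod M)ˣ) : ZMod M).val := by
  have hζ0 : ζ ≠ 0 := by
    rintro rfl
    rw [zero_pow (NeZero.ne M)] at hζ
    exact zero_ne_one hζ
  have hmem : Units.mk0 ζ hζ0 ∈ rootsOfUnity M Qb := by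
    rw [mem_rootsOfUnity]
    ext
    simpa using hζ
  have h := modularCyclotomicCharacter.spec Qb (card_rootsOfUnity_Qb M)
    (σ : Qb ≃+* Qb) hmem
  rw [cycM_apply]
  simpa using h

/-- Uniqueness: if `σ ζ = ζ ^ c` for all `M`-th roots of unity then `cycM M σ = c`. -/
theorem cycM_eq_of_forall (σ : GQ) (c : ℕ) (h : ∀ ζ : Qb, ζ ^ M = 1 → σ ζ = ζ ^ c) :
    ((cycM M σ : (ZMod M)ˣ) : ZMod M) = (c : ZMod M) := by
  have hu := modularCyclotomicCharacter.unique Qb (card_rootsOfUnity_Qb M)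
    (σ : Qb ≃+* Qb) (c := (c : ZMod M)) ?_
  · rw [cycM_apply]
    exact hu.symm
  · intro t ht
    have ht' : (t : Qb) ^ M = 1 := by
      have := (mem_rootsOfUnity _ _).mp ht
      rw [← Units.val_pow_eq_pow_val, this, Units.val_one]
    have h1 := h (t : Qb) ht'
    have h2 : (t : Qb) ^ (c : ZMod M).val = (t : Qb) ^ c := by
      rw [ZMod.val_natCast]
      conv_rhs => rw [← Nat.mod_add_div c M]
      rw [pow_add, pow_mul, ht', one_pow, mul_one]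
    rw [h2]
    exact h1

theorem cycM_eq_one_of_forall (σ : GQ) (h : ∀ ζ : Qb, ζ ^ M = 1 → σ ζ = ζ) : cycM M σ = 1 := by
  have h1 : ((cycM M σ : (ZMod M)ˣ) : ZMod M) = ((1 : ℕ) : ZMod M) :=
    cycM_eq_of_forall σ 1 fun ζ hζ => by rw [pow_one]; exact h ζ hζ
  ext
  simpa using h1

variable (M)

/-- Finite level: `cycM M` is trivial on the automorphisms fixing `ℚ(ζ_M)`. -/
theorem cycM_finiteLevel : GaloisFactorsThroughFiniteLevel (cycM M) := by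
  obtain ⟨ζ, hζ⟩ : ∃ ζ : Qb, IsPrimitiveRoot ζ M := by
    have : NeZero (M : Qb) := ⟨Nat.cast_ne_zero.mpr (NeZero.ne M)⟩
    exact HasEnoughRootsOfUnity.exists_primitiveRoot Qb M
  have hint : IsIntegral ℚ ζ := (hζ.isIntegral (NeZero.pos M)).tower_top (R := ℤ)
  refine ⟨IntermediateField.adjoin ℚ {ζ}, IntermediateField.adjoin.finiteDimensional hint,
    fun σ hσ => ?_⟩
  refine cycM_eq_one_of_forall σ fun η hη => ?_
  obtain ⟨i, -, rfl⟩ := hζ.eq_pow_of_pow_eq_one hη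
  rw [map_pow, hσ ζ (IntermediateField.mem_adjoin_simple_self ℚ ζ)]

variable {M}

/-- `cycM M` has the value `ℓ` at every Frobenius lift at a prime `ℓ ∤ M`. -/
theorem cycM_frob {ℓ : ℕ} (hℓ : ℓ.Prime) (hℓM : ¬ ℓ ∣ M) {A : ValuationSubring Qb}
    (hA : A.LiesOverPrime ℓ) {τ : GQ} (hτ : A.IsFrobeniusAt τ ℓ) :
    ((cycM M τ : (ZMod M)ˣ) : ZMod M) = (ℓ : ZMod M) :=
  cycM_eq_of_forall τ ℓ fun ζ hζ =>
    Fermat.Agent.GJ.Cyc.frob_rootOfUnity A ℓ hℓ hA τ hτ M hℓM ζ hζ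

/-- `cycM M` is trivial on inertia at every prime `ℓ ∤ M`. -/
theorem cycM_inertia {ℓ : ℕ} (hℓ : ℓ.Prime) (hℓM : ¬ ℓ ∣ M) {A : ValuationSubring Qb}
    (hA : A.LiesOverPrime ℓ) {σ : GQ} (hσ : σ ∈ A.inertiaSubgroupIn ℚ) : cycM M σ = 1 :=
  cycM_eq_one_of_forall σ fun ζ hζ =>
    Fermat.Agent.GJ.Cyc.inertia_rootOfUnity A ℓ hℓ hA σ hσ M hℓM ζ hζ

/-- The unit of `ZMod M` attached to a prime `ℓ ∤ M`. -/
noncomputable def unitOfPrime {ℓ : ℕ} (hℓ : ℓ.Prime) (hℓM : ¬ ℓ ∣ M) : (ZMod M)ˣ :=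
  ZMod.unitOfCoprime ℓ ((Nat.Prime.coprime_iff_not_dvd hℓ).mpr hℓM)

omit [NeZero M] in
@[simp] theorem coe_unitOfPrime {ℓ : ℕ} (hℓ : ℓ.Prime) (hℓM : ¬ ℓ ∣ M) :
    ((unitOfPrime hℓ hℓM : (ZMod M)ˣ) : ZMod M) = (ℓ : ZMod M) :=
  ZMod.coe_unitOfCoprime ℓ _

theorem cycM_frob_unit {ℓ : ℕ} (hℓ : ℓ.Prime) (hℓM : ¬ ℓ ∣ M) {A : ValuationSubring Qb}
    (hA : A.LiesOverPrime ℓ) {τ : GQ} (hτ : A.IsFrobeniusAt τ ℓ) :
    cycM M τ = unitOfPrime hℓ hℓM := by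
  ext
  rw [cycM_frob hℓ hℓM hA hτ, coe_unitOfPrime]

end CycM

section DirChar

variable {M : ℕ} [NeZero M] {k0 : Type} [Field k0] (χ : (ZMod M)ˣ →* k0ˣ)

/-- The Galois character of a Dirichlet-type character `χ : (ZMod M)ˣ →* k0ˣ`. -/
noncomputable def dirChar : GQ →* k0ˣ := χ.comp (cycM M)

theorem dirChar_apply (σ : GQ) : dirChar χ σ = χ (cycM M σ) := rfl

theorem dirChar_finiteLevel : GaloisFactorsThroughFiniteLevel (dirChar χ) := by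
  obtain ⟨L, hL, h⟩ := cycM_finiteLevel M
  exact ⟨L, hL, fun σ hσ => by rw [dirChar_apply, h σ hσ, map_one]⟩

theorem dirChar_frob {ℓ : ℕ} (hℓ : ℓ.Prime) (hℓM : ¬ ℓ ∣ M) {A : ValuationSubring Qb}
    (hA : A.LiesOverPrime ℓ) {τ : GQ} (hτ : A.IsFrobeniusAt τ ℓ) :
    dirChar χ τ = χ (unitOfPrime hℓ hℓM) := by
  rw [dirChar_apply, cycM_frob_unit hℓ hℓM hA hτ]

theorem dirChar_inertia {ℓ : ℕ} (hℓ : ℓ.Prime) (hℓM : ¬ ℓ ∣ M) {A : ValuationSubring Qb}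
    (hA : A.LiesOverPrime ℓ) {σ : GQ} (hσ : σ ∈ A.inertiaSubgroupIn ℚ) : dirChar χ σ = 1 := by
  rw [dirChar_apply, cycM_inertia hℓ hℓM hA hσ, map_one]

end DirChar

end Fermat.Agent.DS.P5
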