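/-
GATE-N / S48-P5 (helper69): hypothesis-form ASSEMBLY of the `Γ₁(M)`/nebentypus port of GATE-J
(the twin of helper31's `GJ/J4/{S29Asm,ESModule}`).

* `HasESModuleD Mp k0 a d` : a nonzero finite-level `k0[G_ℚ]`-module, unramified outside `Mp`, on
  which every Frobenius lift `τ` at `ℓ ∤ Mp` satisfies `τ² - a ℓ • τ + d τ = 0`, for an ARBITRARY
  determinant character `d : G_ℚ →* k0ˣ`.
* `exists_rep_of_esModuleD` : (ESM) + (ALG) + [`d` of finite level, unramified outside `Mp`]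
  ⟹ `ρ : G_ℚ →* GL (Fin 2) k0` of finite level, unramified outside `Mp`, with
  `tr ρ τ = a ℓ`, `det ρ τ = d τ` at every Frobenius lift `τ` at `ℓ ∤ Mp`.
* `KumModel1 M p` : the abstract Kummer model of `J₁(M)[p]` — `𝔽_p`-space `K`, Galois action, Hecke
  operators `T ℓ`, diamond operators `D : (ZMod M)ˣ →* End K`, and the Eichler–Shimura relation
  `τ² - T_ℓ τ + ℓ ⟨ℓ⟩ = 0`; `KumModel1.HasEigen1 k0 a χ` : a simultaneous eigenvector in `k0 ⊗ K`.
* `KumModel1.exists_rep` : the output consumed by GateModL.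
-/
import Mathlib
import Fermat.Agent.DS.P5.CycM
import Fermat.Agent.GJ.J4.S29Asm
import Fermat.Agent.GJ.J4.ESModule
import Fermat.Agent.GJ.Alg.RepTwoStmt
import Fermat.Agent.GJ.FrobLiftMain
import Fermat.Agent.GJ.CycCharInst

set_option autoImplicit false
set_option linter.style.haveILetI false

open Polynomial
open scoped TensorProduct MatrixGroups

namespace Fermat.Agent.DS.P5

/-- `ℚ̄`. -/
local notation "Qb" => AlgebraicClosure ℚ
/-- `G_ℚ`. -/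
local notation "GQ" => (AlgebraicClosure ℚ ≃ₐ[ℚ] AlgebraicClosure ℚ)

open Fermat.Agent.GJ Fermat.Agent.GJ.J4Asm Fermat.Agent.GJ.FiniteLevel

/-! ### (ESM) with an arbitrary determinant character -/

/-- (ESM) with determinant character `d`: a nonzero finite-dimensional `k0`-representation of
`G_ℚ` of finite level, unramified outside `B`, on which every Frobenius lift `τ` at a prime
`ℓ ∤ B` satisfies `τ² - a ℓ • τ + d τ = 0`. -/
def HasESModuleD (B : ℕ) (k0 : Type) [Field k0] (a : ℕ → k0) (d : GQ →* k0ˣ) : Prop :=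
  ∃ (V : Type) (_ : AddCommGroup V) (_ : Module k0 V) (r : GQ →* Module.End k0 V),
    Module.Finite k0 V ∧ Nontrivial V ∧ GaloisFactorsThroughFiniteLevel r ∧
    (∀ ℓ : ℕ, ℓ.Prime → ¬ ℓ ∣ B → ∀ A : ValuationSubring Qb, A.LiesOverPrime ℓ →
      ∀ σ ∈ A.inertiaSubgroupIn ℚ, r σ = 1) ∧
    (∀ ℓ : ℕ, ℓ.Prime → ¬ ℓ ∣ B → ∀ A : ValuationSubring Qb, A.LiesOverPrime ℓ →
      ∀ τ : GQ, A.IsFrobeniusAt τ ℓ →
        r τ * r τ - a ℓ • r τ + ((d τ : k0ˣ) : k0) • 1 = 0)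

/-- The determinant character is of finite level and unramified outside `B`. -/
def IsGoodDet (B : ℕ) {k0 : Type} [Field k0] (d : GQ →* k0ˣ) : Prop :=
  GaloisFactorsThroughFiniteLevel d ∧
    ∀ ℓ : ℕ, ℓ.Prime → ¬ ℓ ∣ B → ∀ A : ValuationSubring Qb, A.LiesOverPrime ℓ →
      ∀ σ ∈ A.inertiaSubgroupIn ℚ, d σ = 1

/-- The output shape: a two-dimensional representation over `k0` of finite level, unramified
outside `B`, with prescribed trace `a ℓ` and determinant `d τ` at Frobenius lifts. -/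
def RepOut (B : ℕ) (k0 : Type) [Field k0] (a : ℕ → k0) (d : GQ →* k0ˣ) : Prop :=
  ∃ ρ : GQ →* GL (Fin 2) k0, GaloisFactorsThroughFiniteLevel ρ ∧
    ∀ ℓ : ℕ, ℓ.Prime → ¬ ℓ ∣ B → ∀ A : ValuationSubring Qb, A.LiesOverPrime ℓ →
      (∀ σ ∈ A.inertiaSubgroupIn ℚ, ρ σ = 1) ∧
      ∀ τ : GQ, A.IsFrobeniusAt τ ℓ →
        ((ρ τ : GL (Fin 2) k0) : Matrix (Fin 2) (Fin 2) k0).trace = a ℓ ∧
        ((ρ τ : GL (Fin 2) k0) : Matrix (Fin 2) (Fin 2) k0).det = ((d τ : k0ˣ) : k0)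

theorem trace_det_of_charpoly {k0 : Type} [Field k0] (m : Matrix (Fin 2) (Fin 2) k0) (t e : k0)
    (h : m.charpoly = X ^ 2 - C t * X + C e) : m.trace = t ∧ m.det = e := by
  rw [Matrix.charpoly_fin_two] at h
  have h0 := congrArg (fun q => Polynomial.coeff q 0) h
  have h1 := congrArg (fun q => Polynomial.coeff q 1) h
  simp only [coeff_add, coeff_sub, coeff_X_pow, coeff_C_mul, coeff_X_zero, coeff_C_zero,
    coeff_X_one, coeff_C_succ] at h0 h1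
  constructor
  · simpa using h1
  · simpa using h0

/-- **(ESM) ⟹ two-dimensional representation**, with an arbitrary determinant character. -/
theorem exists_rep_of_esModuleD {B : ℕ} (hB : B ≠ 0) {k0 : Type} [Field k0]
    (hALG : RepTwoStmt k0) (a : ℕ → k0) (d : GQ →* k0ˣ) (hd : IsGoodDet B d)
    (h : HasESModuleD B k0 a d) : RepOut B k0 a d := by
  classical
  obtain ⟨V, _, _, r, hfin, hnt, hlev, hunr, hfrob⟩ := h
  obtain ⟨hdlev, hdunr⟩ := hd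
  have hlevprod := factorsThroughFiniteLevel_prod r d hlev hdlev
  have hquad : ∀ g, ∃ a' : k0, r g * r g - a' • r g + ((d g : k0ˣ) : k0) • 1 = 0 := by
    intro g
    obtain ⟨ℓ, A, τ, j, hℓ, hℓB, hA, hτ, hg⟩ :=
      FrobLift.exists_isFrobeniusAt_pow' (r.prod d) hlevprod B.primeFactors g
    have hℓB' : ¬ ℓ ∣ B := fun hdvd => hℓB (Nat.mem_primeFactors.mpr ⟨hℓ, hdvd, hB⟩)
    have h1 := hfrob ℓ hℓ hℓB' A hA τ hτ
    rw [MonoidHom.prod_apply, MonoidHom.prod_apply, Prod.pow_mk, Prod.mk.injEq] at hg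
    obtain ⟨hg1, hg2⟩ := hg
    obtain ⟨v, hv⟩ := J4.pow_quadratic (r τ) (a ℓ) ((d τ : k0ˣ) : k0) h1 j
    refine ⟨v, ?_⟩
    rw [hg1, hg2, Units.val_pow_eq_pow_val]
    exact hv
  obtain ⟨rho2, hker, hchar⟩ := hALG V r d hquad
  have hlev2 : GaloisFactorsThroughFiniteLevel rho2.toHomUnits := by
    obtain ⟨L, hL, h1⟩ := hlevprod
    refine ⟨L, hL, fun σ hσ => ?_⟩
    have h2 := h1 σ hσ
    rw [MonoidHom.prod_apply, Prod.mk_eq_one] at h2
    ext1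
    rw [MonoidHom.coe_toHomUnits]
    exact hker σ h2.1 h2.2
  refine ⟨rho2.toHomUnits, hlev2, fun ℓ hℓ hℓB A hA => ⟨fun σ hσ => ?_, fun τ hτ => ?_⟩⟩
  · ext1
    rw [MonoidHom.coe_toHomUnits]
    exact hker σ (hunr ℓ hℓ hℓB A hA σ hσ) (hdunr ℓ hℓ hℓB A hA σ hσ)
  · have h1 := hfrob ℓ hℓ hℓB A hA τ hτ
    exact trace_det_of_charpoly _ _ _ (hchar τ (a ℓ) h1)

/-! ### The abstract Kummer model with diamond operators -/

theorem not_dvd_left_of_not_dvd_mul {ℓ M p : ℕ} (h : ¬ ℓ ∣ M * p) : ¬ ℓ ∣ M :=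
  fun h' => h (Dvd.dvd.mul_right h' p)

theorem ne_of_not_dvd_mul {ℓ M p : ℕ} (h : ¬ ℓ ∣ M * p) : ℓ ≠ p :=
  fun h' => h (h' ▸ dvd_mul_left ℓ M)

/-- The abstract Kummer model of `J₁(M)[p]`: an `𝔽_p`-vector space with a `G_ℚ`-action, Hecke
operators `T ℓ`, diamond operators `D u`, pointwise finite level, trivial inertia outside `Mp` and
the Eichler–Shimura relation `τ² - T_ℓ τ + ℓ ⟨ℓ⟩ = 0` for Frobenius lifts `τ` at `ℓ ∤ Mp`. -/
structure KumModel1 (M p : ℕ) [NeZero M] where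
  /-- the `𝔽_p`-vector space `Kum_p(F₁(M))` -/
  K : Type
  [instAddCommGroup : AddCommGroup K]
  [instModule : Module (ZMod p) K]
  /-- the Galois action -/
  gal : GQ →* Module.End (ZMod p) K
  /-- the Hecke operators (junk unless `ℓ` is a prime not dividing `M`) -/
  T : ℕ → Module.End (ZMod p) K
  /-- the diamond operators -/
  D : (ZMod M)ˣ →* Module.End (ZMod p) K
  T_comm_gal : ∀ (ℓ : ℕ) (σ : GQ), T ℓ * gal σ = gal σ * T ℓ
  D_comm_gal : ∀ (u : (ZMod M)ˣ) (σ : GQ), D u * gal σ = gal σ * D u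
  level : ∀ x : K, HasLevel (fun σ => gal σ x = x)
  inertia : ∀ ℓ : ℕ, ℓ.Prime → ¬ ℓ ∣ M * p → ∀ A : ValuationSubring Qb, A.LiesOverPrime ℓ →
    ∀ σ ∈ A.inertiaSubgroupIn ℚ, gal σ = 1
  frob : ∀ (ℓ : ℕ) (hℓ : ℓ.Prime) (hℓMp : ¬ ℓ ∣ M * p) (A : ValuationSubring Qb),
    A.LiesOverPrime ℓ → ∀ τ : GQ, A.IsFrobeniusAt τ ℓ →
      gal τ * gal τ - T ℓ * gal τ +
        (ℓ : ZMod p) • D (unitOfPrime hℓ (not_dvd_left_of_not_dvd_mul hℓMp)) = 0

attribute [instance] KumModel1.instAddCommGroup KumModel1.instModule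

namespace KumModel1

variable {M p : ℕ} [NeZero M] (Mod : KumModel1 M p)

/-- (EIG) for the model: a nonzero vector of `k0 ⊗ K` on which `T ℓ` acts through `a ℓ` (for all
primes `ℓ ∤ Mp`) and `D u` through `χ u`. -/
def HasEigen1 (k0 : Type) [Field k0] [Algebra (ZMod p) k0] (a : ℕ → k0)
    (χ : (ZMod M)ˣ →* k0ˣ) : Prop :=
  ∃ v : k0 ⊗[ZMod p] Mod.K, v ≠ 0 ∧
    (∀ ℓ : ℕ, ℓ.Prime → ¬ ℓ ∣ M * p → (Mod.T ℓ).baseChange k0 v = a ℓ • v) ∧
    ∀ u : (ZMod M)ˣ, (Mod.D u).baseChange k0 v = ((χ u : k0ˣ) : k0) • v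

variable (k0 : Type) [Field k0] [Algebra (ZMod p) k0]

/-- The base-changed Galois action on `k0 ⊗ K`. -/
noncomputable def galB : GQ →* Module.End k0 (k0 ⊗[ZMod p] Mod.K) :=
  ((Module.End.baseChangeHom (ZMod p) k0 Mod.K : Module.End (ZMod p) Mod.K →ₐ[ZMod p] _) :
    Module.End (ZMod p) Mod.K →* _).comp Mod.gal

theorem galB_apply (σ : GQ) : Mod.galB k0 σ = (Mod.gal σ).baseChange k0 := rfl

theorem galB_tmul (σ : GQ) (c : k0) (x : Mod.K) :
    Mod.galB k0 σ (c ⊗ₜ x) = c ⊗ₜ Mod.gal σ x := by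
  rw [galB_apply, LinearMap.baseChange_tmul]

/-- Every vector of `k0 ⊗ K` has a finite-level stabiliser. -/
theorem hasLevel_galB (w : k0 ⊗[ZMod p] Mod.K) : HasLevel (fun σ => Mod.galB k0 σ w = w) := by
  induction w using TensorProduct.induction_on with
  | zero => exact hasLevel_of_forall fun σ => map_zero _
  | tmul c x =>
    refine (Mod.level x).mono fun σ hσ => ?_
    rw [galB_tmul, hσ]
  | add w₁ w₂ h₁ h₂ =>
    refine (h₁.and h₂).mono fun σ hσ => ?_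
    rw [map_add, hσ.1, hσ.2]

/-- The orbit span of `v`. -/
noncomputable def orbitSpan (v : k0 ⊗[ZMod p] Mod.K) : Submodule k0 (k0 ⊗[ZMod p] Mod.K) :=
  Submodule.span k0 (Set.range fun σ : GQ => Mod.galB k0 σ v)

theorem mem_orbitSpan_self (v : k0 ⊗[ZMod p] Mod.K) : v ∈ Mod.orbitSpan k0 v :=
  Submodule.subset_span ⟨1, by
    show Mod.galB k0 1 v = v
    rw [map_one]; rfl⟩

theorem galB_mem_orbitSpan (v : k0 ⊗[ZMod p] Mod.K) (τ : GQ) {w : k0 ⊗[ZMod p] Mod.K}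
    (hw : w ∈ Mod.orbitSpan k0 v) : Mod.galB k0 τ w ∈ Mod.orbitSpan k0 v := by
  have h : (Mod.orbitSpan k0 v).map (Mod.galB k0 τ) ≤ Mod.orbitSpan k0 v := by
    rw [orbitSpan, Submodule.map_span, Submodule.span_le]
    rintro _ ⟨_, ⟨σ, rfl⟩, rfl⟩
    refine Submodule.subset_span ⟨τ * σ, ?_⟩
    show Mod.galB k0 (τ * σ) v = Mod.galB k0 τ (Mod.galB k0 σ v)
    rw [map_mul]
    rfl
  exact h (Submodule.mem_map_of_mem hw)

/-- The representation on the orbit span. -/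
noncomputable def orbitRep (v : k0 ⊗[ZMod p] Mod.K) :
    GQ →* Module.End k0 (Mod.orbitSpan k0 v) where
  toFun σ := (Mod.galB k0 σ).restrict fun _ hw => Mod.galB_mem_orbitSpan k0 v σ hw
  map_one' := by
    ext w
    show Mod.galB k0 1 (w : k0 ⊗[ZMod p] Mod.K) = w
    rw [map_one]
    rfl
  map_mul' σ τ := by
    ext w
    show Mod.galB k0 (σ * τ) (w : k0 ⊗[ZMod p] Mod.K) = Mod.galB k0 σ (Mod.galB k0 τ w)
    rw [map_mul]
    rfl

theorem coe_orbitRep_apply (v : k0 ⊗[ZMod p] Mod.K) (σ : GQ) (w : Mod.orbitSpan k0 v) :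
    ((Mod.orbitRep k0 v σ w : Mod.orbitSpan k0 v) : k0 ⊗[ZMod p] Mod.K) = Mod.galB k0 σ w := rfl

/-- A base-changed operator commuting with Galois acts on the orbit span of an eigenvector by the
eigenvalue. -/
theorem baseChange_eq_smul (S : Module.End (ZMod p) Mod.K)
    (hS : ∀ σ : GQ, S * Mod.gal σ = Mod.gal σ * S) (v : k0 ⊗[ZMod p] Mod.K) (c : k0)
    (hv : S.baseChange k0 v = c • v) {w : k0 ⊗[ZMod p] Mod.K}
    (hw : w ∈ Mod.orbitSpan k0 v) : S.baseChange k0 w = c • w := by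
  induction hw using Submodule.span_induction with
  | mem w hw =>
    obtain ⟨σ, rfl⟩ := hw
    have hcomm : S.baseChange k0 * Mod.galB k0 σ = Mod.galB k0 σ * S.baseChange k0 := by
      rw [galB_apply, ← LinearMap.baseChange_mul, ← LinearMap.baseChange_mul, hS]
    show (S.baseChange k0 * Mod.galB k0 σ) v = c • Mod.galB k0 σ v
    rw [hcomm]
    show Mod.galB k0 σ (S.baseChange k0 v) = c • Mod.galB k0 σ v
    rw [hv, map_smul]
  | zero => rw [map_zero, smul_zero]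
  | add w₁ w₂ _ _ h₁ h₂ => rw [map_add, h₁, h₂, smul_add]
  | smul b w _ h => rw [map_smul, h, smul_comm]

/-- The Eichler–Shimura relation, base-changed to `k0 ⊗ K`. -/
theorem frobB (ℓ : ℕ) (hℓ : ℓ.Prime) (hℓMp : ¬ ℓ ∣ M * p) (A : ValuationSubring Qb)
    (hA : A.LiesOverPrime ℓ) (τ : GQ) (hτ : A.IsFrobeniusAt τ ℓ) (w : k0 ⊗[ZMod p] Mod.K) :
    Mod.galB k0 τ (Mod.galB k0 τ w) - (Mod.T ℓ).baseChange k0 (Mod.galB k0 τ w) +
      (ℓ : k0) • (Mod.D (unitOfPrime hℓ (not_dvd_left_of_not_dvd_mul hℓMp))).baseChange k0 w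
        = 0 := by
  have h := Mod.frob ℓ hℓ hℓMp A hA τ hτ
  have h2 := congrArg
    (fun f => (LinearMap.baseChange k0 f : Module.End k0 (k0 ⊗[ZMod p] Mod.K))) h
  simp only [LinearMap.baseChange_add, LinearMap.baseChange_sub, LinearMap.baseChange_mul,
    LinearMap.baseChange_smul, LinearMap.baseChange_zero] at h2
  have h3 := LinearMap.congr_fun h2 w
  simp only [LinearMap.add_apply, LinearMap.sub_apply, Module.End.mul_apply, LinearMap.smul_apply,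
    LinearMap.zero_apply] at h3
  rw [← h3, galB_apply]
  congr 1
  rw [← algebraMap_smul k0 ((ℓ : ZMod p)), map_natCast]

/-- The determinant character of the eigensystem `(a, χ)`: mod `p` cyclotomic character times the
Galois character of `χ`. -/
noncomputable def detChar [CharP k0 p] [Fact p.Prime] (χ : (ZMod M)ˣ →* k0ˣ) : GQ →* k0ˣ :=
  CycChar.cycK p k0 * dirChar χ

omit [Algebra (ZMod p) k0] in
theorem detChar_frob [CharP k0 p] [Fact p.Prime] (χ : (ZMod M)ˣ →* k0ˣ) {ℓ : ℕ} (hℓ : ℓ.Prime)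
    (hℓMp : ¬ ℓ ∣ M * p) {A : ValuationSubring Qb} (hA : A.LiesOverPrime ℓ) {τ : GQ}
    (hτ : A.IsFrobeniusAt τ ℓ) :
    ((detChar k0 χ τ : k0ˣ) : k0) =
      (ℓ : k0) * ((χ (unitOfPrime hℓ (not_dvd_left_of_not_dvd_mul hℓMp)) : k0ˣ) : k0) := by
  rw [detChar, MonoidHom.mul_apply, Units.val_mul,
    CycChar.cycK_frob p k0 hℓ (ne_of_not_dvd_mul hℓMp) hA hτ,
    dirChar_frob χ hℓ (not_dvd_left_of_not_dvd_mul hℓMp) hA hτ]

omit [Algebra (ZMod p) k0] in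
theorem isGoodDet_detChar [CharP k0 p] [Fact p.Prime] (χ : (ZMod M)ˣ →* k0ˣ) :
    IsGoodDet (M * p) (detChar k0 χ) := by
  refine ⟨?_, fun ℓ hℓ hℓMp A hA σ hσ => ?_⟩
  · obtain ⟨L, hL, h1⟩ := CycChar.cycK_finiteLevel p k0
    obtain ⟨L', hL', h1'⟩ := dirChar_finiteLevel χ
    have : FiniteDimensional ℚ L := hL
    have : FiniteDimensional ℚ L' := hL'
    refine ⟨L ⊔ L', IntermediateField.finiteDimensional_sup L L', fun σ hσ => ?_⟩
    rw [detChar, MonoidHom.mul_apply,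
      h1 σ fun x hx => hσ x ((le_sup_left : L ≤ L ⊔ L') hx),
      h1' σ fun x hx => hσ x ((le_sup_right : L' ≤ L ⊔ L') hx), one_mul]
  · rw [detChar, MonoidHom.mul_apply,
      CycChar.cycK_inertia p k0 hℓ (ne_of_not_dvd_mul hℓMp) hA hσ,
      dirChar_inertia χ hℓ (not_dvd_left_of_not_dvd_mul hℓMp) hA hσ, one_mul]

/-- **(ESM) from a Kummer model with diamond operators and a simultaneous eigenvector.** -/
theorem hasESModuleD [CharP k0 p] [Fact p.Prime] (a : ℕ → k0) (χ : (ZMod M)ˣ →* k0ˣ)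
    (h : Mod.HasEigen1 k0 a χ) : HasESModuleD (M * p) k0 a (detChar k0 χ) := by
  obtain ⟨v, hv0, hvT, hvD⟩ := h
  have hfinite : (Set.range fun σ : GQ => Mod.galB k0 σ v).Finite :=
    KumModel.finite_orbit k0 (Mod.galB k0) v (Mod.hasLevel_galB k0 v)
  have hfin : Module.Finite k0 (Mod.orbitSpan k0 v) := FiniteDimensional.span_of_finite k0 hfinite
  refine ⟨Mod.orbitSpan k0 v, inferInstance, inferInstance, Mod.orbitRep k0 v, hfin, ?_, ?_, ?_, ?_⟩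
  · exact ⟨⟨⟨v, Mod.mem_orbitSpan_self k0 v⟩, 0, fun h0 => hv0 (congrArg Subtype.val h0)⟩⟩
  · refine factorsThroughFiniteLevel_of_pointwise (Mod.orbitRep k0 v) fun w => ?_
    refine (Mod.hasLevel_galB k0 (w : k0 ⊗[ZMod p] Mod.K)).mono fun σ hσ => ?_
    exact Subtype.ext hσ
  · intro ℓ hℓ hℓMp A hA σ hσ
    ext w
    rw [coe_orbitRep_apply, galB_apply, Mod.inertia ℓ hℓ hℓMp A hA σ hσ, LinearMap.baseChange_one]
    rfl
  · intro ℓ hℓ hℓMp A hA τ hτ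
    ext w
    have h1 := Mod.frobB k0 ℓ hℓ hℓMp A hA τ hτ (w : k0 ⊗[ZMod p] Mod.K)
    rw [Mod.baseChange_eq_smul k0 (Mod.T ℓ) (Mod.T_comm_gal ℓ) v (a ℓ) (hvT ℓ hℓ hℓMp)
        (Mod.galB_mem_orbitSpan k0 v τ w.2),
      Mod.baseChange_eq_smul k0 (Mod.D _) (Mod.D_comm_gal _) v _ (hvD _) w.2, smul_smul,
      ← detChar_frob k0 χ hℓ hℓMp hA hτ] at h1
    exact h1

/-- **The output of the port** (standard Eichler–Shimura convention): a Kummer model with diamond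
operators and a simultaneous eigenvector `(a, χ)` over a FINITE field `k0` gives
`ρ̄ : G_ℚ →* GL₂(k0)` of finite level, unramified outside `Mp`, with `tr ρ̄(Frob_ℓ) = a ℓ` and
`det ρ̄(Frob_ℓ) = ℓ · χ(ℓ)` at every Frobenius lift at every prime `ℓ ∤ Mp`. -/
theorem exists_rep [Finite k0] [CharP k0 p] [Fact p.Prime] (a : ℕ → k0)
    (χ : (ZMod M)ˣ →* k0ˣ) (h : Mod.HasEigen1 k0 a χ) :
    ∃ ρ : GQ →* GL (Fin 2) k0, GaloisFactorsThroughFiniteLevel ρ ∧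
      ∀ (ℓ : ℕ) (hℓ : ℓ.Prime) (hℓMp : ¬ ℓ ∣ M * p) (A : ValuationSubring Qb),
        A.LiesOverPrime ℓ →
        (∀ σ ∈ A.inertiaSubgroupIn ℚ, ρ σ = 1) ∧
        ∀ τ : GQ, A.IsFrobeniusAt τ ℓ →
          ((ρ τ : GL (Fin 2) k0) : Matrix (Fin 2) (Fin 2) k0).trace = a ℓ ∧
          ((ρ τ : GL (Fin 2) k0) : Matrix (Fin 2) (Fin 2) k0).det =
            (ℓ : k0) * ((χ (unitOfPrime hℓ (not_dvd_left_of_not_dvd_mul hℓMp)) : k0ˣ) : k0) := by
  have hMp : M * p ≠ 0 := Nat.mul_ne_zero (NeZero.ne M) (Fact.out : p.Prime).ne_zero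
  obtain ⟨ρ, hlev, hρ⟩ := exists_rep_of_esModuleD hMp (Alg.repTwoStmt_of_finite k0) a
    (detChar k0 χ) (isGoodDet_detChar k0 χ) (Mod.hasESModuleD k0 a χ h)
  refine ⟨ρ, hlev, fun ℓ hℓ hℓMp A hA => ⟨(hρ ℓ hℓ hℓMp A hA).1, fun τ hτ => ?_⟩⟩
  obtain ⟨h1, h2⟩ := (hρ ℓ hℓ hℓMp A hA).2 τ hτ
  exact ⟨h1, by rw [h2, detChar_frob k0 χ hℓ hℓMp hA hτ]⟩

end KumModel1

end Fermat.Agent.DS.P5
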