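/-
GATE-N / S48-P5 (helper69): the DUAL Eichler–Shimura convention WITHOUT the commutation
`T_ℓ ⟨u⟩ = ⟨u⟩ T_ℓ` on the Kummer module.

`KumModel1Dual` (`DS/P5/Twist.lean`) twists the Galois action on the whole Kummer module and
therefore needs `T_comm_D`.  Here the twist is done on the orbit span of the eigenvector, where
`T_ℓ` and `⟨u⟩` are scalars, so no commutation between Hecke and diamond operators is required:

* `GalMod` : generic orbit-span machinery for a pointwise-finite-level `𝔽_p[G_ℚ]`-module;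
* `HasESModuleDual B k0 a c e` : `c τ • τ² - a ℓ • τ + e τ = 0` at Frobenius lifts, for characters
  `c e : G_ℚ →* k0ˣ`; `hasESModuleD_of_dual` : twisting by `c` gives `HasESModuleD B k0 a (c * e)`;
* `KumModel1DualW` : the weak dual Kummer model; `KumModel1DualW.exists_rep` : same conclusion
  as `KumModel1.exists_rep`.
-/
import Mathlib
import Fermat.Agent.DS.P5.Asm

set_option autoImplicit false
set_option linter.style.haveILetI false

open scoped TensorProduct MatrixGroups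

namespace Fermat.Agent.DS.P5

/-- `ℚ̄`. -/
local notation "Qb" => AlgebraicClosure ℚ
/-- `G_ℚ`. -/
local notation "GQ" => (AlgebraicClosure ℚ ≃ₐ[ℚ] AlgebraicClosure ℚ)

open Fermat.Agent.GJ Fermat.Agent.GJ.J4Asm Fermat.Agent.GJ.FiniteLevel

/-! ### Twisting (ESM) -/

/-- (ESM), dual form: `c τ • τ² - a ℓ • τ + e τ = 0` at Frobenius lifts, for two characters
`c`, `e` of `G_ℚ`. -/
def HasESModuleDual (B : ℕ) (k0 : Type) [Field k0] (a : ℕ → k0) (c e : GQ →* k0ˣ) : Prop :=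
  ∃ (V : Type) (_ : AddCommGroup V) (_ : Module k0 V) (r : GQ →* Module.End k0 V),
    Module.Finite k0 V ∧ Nontrivial V ∧ GaloisFactorsThroughFiniteLevel r ∧
    (∀ ℓ : ℕ, ℓ.Prime → ¬ ℓ ∣ B → ∀ A : ValuationSubring Qb, A.LiesOverPrime ℓ →
      ∀ σ ∈ A.inertiaSubgroupIn ℚ, r σ = 1) ∧
    (∀ ℓ : ℕ, ℓ.Prime → ¬ ℓ ∣ B → ∀ A : ValuationSubring Qb, A.LiesOverPrime ℓ →
      ∀ τ : GQ, A.IsFrobeniusAt τ ℓ →
        ((c τ : k0ˣ) : k0) • (r τ * r τ) - a ℓ • r τ + ((e τ : k0ˣ) : k0) • 1 = 0)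

/-- The twist of a representation by a character. -/
noncomputable def twistRep {k0 V : Type} [Field k0] [AddCommGroup V] [Module k0 V]
    (c : GQ →* k0ˣ) (r : GQ →* Module.End k0 V) : GQ →* Module.End k0 V where
  toFun σ := ((c σ : k0ˣ) : k0) • r σ
  map_one' := by rw [map_one, map_one, Units.val_one, one_smul]
  map_mul' σ τ := by
    rw [map_mul, map_mul, Units.val_mul, smul_mul_smul_comm]

theorem twistRep_apply {k0 V : Type} [Field k0] [AddCommGroup V] [Module k0 V]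
    (c : GQ →* k0ˣ) (r : GQ →* Module.End k0 V) (σ : GQ) :
    twistRep c r σ = ((c σ : k0ˣ) : k0) • r σ := rfl

/-- **Twisting the dual (ESM) by `c` gives the standard (ESM) with determinant `c * e`.** -/
theorem hasESModuleD_of_dual {B : ℕ} {k0 : Type} [Field k0] {a : ℕ → k0} {c e : GQ →* k0ˣ}
    (hc : IsGoodDet B c) (h : HasESModuleDual B k0 a c e) : HasESModuleD B k0 a (c * e) := by
  obtain ⟨V, _, _, r, hfin, hnt, hlev, hunr, hfrob⟩ := h
  obtain ⟨hclev, hcunr⟩ := hc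
  refine ⟨V, inferInstance, inferInstance, twistRep c r, hfin, hnt, ?_, ?_, ?_⟩
  · obtain ⟨L, hL, h1⟩ := factorsThroughFiniteLevel_prod r c hlev hclev
    refine ⟨L, hL, fun σ hσ => ?_⟩
    have h2 := h1 σ hσ
    rw [MonoidHom.prod_apply, Prod.mk_eq_one] at h2
    rw [twistRep_apply, h2.1, h2.2, Units.val_one, one_smul]
  · intro ℓ hℓ hℓB A hA σ hσ
    rw [twistRep_apply, hunr ℓ hℓ hℓB A hA σ hσ, hcunr ℓ hℓ hℓB A hA σ hσ, Units.val_one,
      one_smul]
  · intro ℓ hℓ hℓB A hA τ hτ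
    have h1 := hfrob ℓ hℓ hℓB A hA τ hτ
    rw [twistRep_apply, MonoidHom.mul_apply, Units.val_mul]
    set x : k0 := ((c τ : k0ˣ) : k0)
    set y : k0 := ((e τ : k0ˣ) : k0)
    have e1 : x • r τ * x • r τ - a ℓ • x • r τ + (x * y) • (1 : Module.End k0 V)
        = x • (x • (r τ * r τ) - a ℓ • r τ + y • 1) := by
      rw [smul_mul_smul_comm, smul_add, smul_sub, smul_smul, smul_smul, smul_smul, smul_smul,
        mul_comm (a ℓ) x]
    rw [e1, h1, smul_zero]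

/-! ### Generic orbit-span machinery -/

/-- A pointwise-finite-level `𝔽_p[G_ℚ]`-module. -/
structure GalMod (p : ℕ) where
  /-- the underlying `𝔽_p`-vector space -/
  K : Type
  [instAddCommGroup : AddCommGroup K]
  [instModule : Module (ZMod p) K]
  /-- the Galois action -/
  gal : GQ →* Module.End (ZMod p) K
  level : ∀ x : K, HasLevel (fun σ => gal σ x = x)

attribute [instance] GalMod.instAddCommGroup GalMod.instModule

namespace GalMod

variable {p : ℕ} (G : GalMod p) (k0 : Type) [Field k0] [Algebra (ZMod p) k0]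

/-- The base-changed Galois action on `k0 ⊗ K`. -/
noncomputable def galB : GQ →* Module.End k0 (k0 ⊗[ZMod p] G.K) :=
  ((Module.End.baseChangeHom (ZMod p) k0 G.K : Module.End (ZMod p) G.K →ₐ[ZMod p] _) :
    Module.End (ZMod p) G.K →* _).comp G.gal

theorem galB_apply (σ : GQ) : G.galB k0 σ = (G.gal σ).baseChange k0 := rfl

theorem galB_tmul (σ : GQ) (c : k0) (x : G.K) : G.galB k0 σ (c ⊗ₜ x) = c ⊗ₜ G.gal σ x := by
  rw [galB_apply, LinearMap.baseChange_tmul]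

theorem hasLevel_galB (w : k0 ⊗[ZMod p] G.K) : HasLevel (fun σ => G.galB k0 σ w = w) := by
  induction w using TensorProduct.induction_on with
  | zero => exact hasLevel_of_forall fun σ => map_zero _
  | tmul c x =>
    refine (G.level x).mono fun σ hσ => ?_
    rw [galB_tmul, hσ]
  | add w₁ w₂ h₁ h₂ =>
    refine (h₁.and h₂).mono fun σ hσ => ?_
    rw [map_add, hσ.1, hσ.2]

/-- The orbit span of `v`. -/
noncomputable def orbitSpan (v : k0 ⊗[ZMod p] G.K) : Submodule k0 (k0 ⊗[ZMod p] G.K) :=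
  Submodule.span k0 (Set.range fun σ : GQ => G.galB k0 σ v)

theorem mem_orbitSpan_self (v : k0 ⊗[ZMod p] G.K) : v ∈ G.orbitSpan k0 v :=
  Submodule.subset_span ⟨1, by
    show G.galB k0 1 v = v
    rw [map_one]; rfl⟩

theorem galB_mem_orbitSpan (v : k0 ⊗[ZMod p] G.K) (τ : GQ) {w : k0 ⊗[ZMod p] G.K}
    (hw : w ∈ G.orbitSpan k0 v) : G.galB k0 τ w ∈ G.orbitSpan k0 v := by
  have h : (G.orbitSpan k0 v).map (G.galB k0 τ) ≤ G.orbitSpan k0 v := by
    rw [orbitSpan, Submodule.map_span, Submodule.span_le]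
    rintro _ ⟨_, ⟨σ, rfl⟩, rfl⟩
    refine Submodule.subset_span ⟨τ * σ, ?_⟩
    show G.galB k0 (τ * σ) v = G.galB k0 τ (G.galB k0 σ v)
    rw [map_mul]
    rfl
  exact h (Submodule.mem_map_of_mem hw)

/-- The representation on the orbit span. -/
noncomputable def orbitRep (v : k0 ⊗[ZMod p] G.K) : GQ →* Module.End k0 (G.orbitSpan k0 v) where
  toFun σ := (G.galB k0 σ).restrict fun _ hw => G.galB_mem_orbitSpan k0 v σ hw
  map_one' := by
    ext w
    show G.galB k0 1 (w : k0 ⊗[ZMod p] G.K) = w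
    rw [map_one]
    rfl
  map_mul' σ τ := by
    ext w
    show G.galB k0 (σ * τ) (w : k0 ⊗[ZMod p] G.K) = G.galB k0 σ (G.galB k0 τ w)
    rw [map_mul]
    rfl

theorem coe_orbitRep_apply (v : k0 ⊗[ZMod p] G.K) (σ : GQ) (w : G.orbitSpan k0 v) :
    ((G.orbitRep k0 v σ w : G.orbitSpan k0 v) : k0 ⊗[ZMod p] G.K) = G.galB k0 σ w := rfl

theorem orbitRep_mul_apply (v : k0 ⊗[ZMod p] G.K) (σ τ : GQ) (w : G.orbitSpan k0 v) :
    (((G.orbitRep k0 v σ * G.orbitRep k0 v τ) w : G.orbitSpan k0 v) : k0 ⊗[ZMod p] G.K) =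
      G.galB k0 σ (G.galB k0 τ w) := rfl

/-- A base-changed operator commuting with Galois acts on the orbit span of an eigenvector by the
eigenvalue. -/
theorem baseChange_eq_smul (S : Module.End (ZMod p) G.K)
    (hS : ∀ σ : GQ, S * G.gal σ = G.gal σ * S) (v : k0 ⊗[ZMod p] G.K) (c : k0)
    (hv : S.baseChange k0 v = c • v) {w : k0 ⊗[ZMod p] G.K}
    (hw : w ∈ G.orbitSpan k0 v) : S.baseChange k0 w = c • w := by
  induction hw using Submodule.span_induction with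
  | mem w hw =>
    obtain ⟨σ, rfl⟩ := hw
    have hcomm : S.baseChange k0 * G.galB k0 σ = G.galB k0 σ * S.baseChange k0 := by
      rw [galB_apply, ← LinearMap.baseChange_mul, ← LinearMap.baseChange_mul, hS]
    show (S.baseChange k0 * G.galB k0 σ) v = c • G.galB k0 σ v
    rw [hcomm]
    show G.galB k0 σ (S.baseChange k0 v) = c • G.galB k0 σ v
    rw [hv, map_smul]
  | zero => rw [map_zero, smul_zero]
  | add w₁ w₂ _ _ h₁ h₂ => rw [map_add, h₁, h₂, smul_add]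
  | smul b w _ h => rw [map_smul, h, smul_comm]

theorem finite_orbitSpan (v : k0 ⊗[ZMod p] G.K) : Module.Finite k0 (G.orbitSpan k0 v) := by
  have hfinite : (Set.range fun σ : GQ => G.galB k0 σ v).Finite :=
    KumModel.finite_orbit k0 (G.galB k0) v (G.hasLevel_galB k0 v)
  have hfin : Module.Finite k0 (G.orbitSpan k0 v) := FiniteDimensional.span_of_finite k0 hfinite
  exact hfin

theorem nontrivial_orbitSpan {v : k0 ⊗[ZMod p] G.K} (hv : v ≠ 0) :
    Nontrivial (G.orbitSpan k0 v) :=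
  ⟨⟨⟨v, G.mem_orbitSpan_self k0 v⟩, 0, fun h0 => hv (congrArg Subtype.val h0)⟩⟩

theorem finiteLevel_orbitRep (v : k0 ⊗[ZMod p] G.K) :
    GaloisFactorsThroughFiniteLevel (G.orbitRep k0 v) := by
  haveI := G.finite_orbitSpan k0 v
  refine factorsThroughFiniteLevel_of_pointwise (G.orbitRep k0 v) fun w => ?_
  refine (G.hasLevel_galB k0 (w : k0 ⊗[ZMod p] G.K)).mono fun σ hσ => ?_
  exact Subtype.ext hσ

theorem orbitRep_eq_one (v : k0 ⊗[ZMod p] G.K) {σ : GQ} (hσ : G.gal σ = 1) :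
    G.orbitRep k0 v σ = 1 := by
  ext w
  rw [coe_orbitRep_apply, galB_apply, hσ, LinearMap.baseChange_one]
  rfl

end GalMod

/-! ### The weak dual Kummer model -/

/-- The abstract Kummer model of `J₁(M)[p]` with the DUAL Eichler–Shimura relation
`⟨ℓ⟩ τ² - T_ℓ τ + ℓ = 0`, WITHOUT any commutation between `T` and `D`. -/
structure KumModel1DualW (M p : ℕ) [NeZero M] where
  /-- the `𝔽_p`-vector space -/
  K : Type
  [instAddCommGroup : AddCommGroup K]
  [instModule : Module (ZMod p) K]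
  /-- the Galois action -/
  gal : GQ →* Module.End (ZMod p) K
  /-- the Hecke operators -/
  T : ℕ → Module.End (ZMod p) K
  /-- the diamond operators -/
  D : (ZMod M)ˣ → Module.End (ZMod p) K
  T_comm_gal : ∀ (ℓ : ℕ) (σ : GQ), T ℓ * gal σ = gal σ * T ℓ
  D_comm_gal : ∀ (u : (ZMod M)ˣ) (σ : GQ), D u * gal σ = gal σ * D u
  level : ∀ x : K, HasLevel (fun σ => gal σ x = x)
  inertia : ∀ ℓ : ℕ, ℓ.Prime → ¬ ℓ ∣ M * p → ∀ A : ValuationSubring Qb, A.LiesOverPrime ℓ →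
    ∀ σ ∈ A.inertiaSubgroupIn ℚ, gal σ = 1
  frob : ∀ (ℓ : ℕ) (hℓ : ℓ.Prime) (hℓMp : ¬ ℓ ∣ M * p) (A : ValuationSubring Qb),
    A.LiesOverPrime ℓ → ∀ τ : GQ, A.IsFrobeniusAt τ ℓ →
      D (unitOfPrime hℓ (not_dvd_left_of_not_dvd_mul hℓMp)) * (gal τ * gal τ) - T ℓ * gal τ +
        (ℓ : ZMod p) • 1 = 0

attribute [instance] KumModel1DualW.instAddCommGroup KumModel1DualW.instModule

namespace KumModel1DualW

variable {M p : ℕ} [NeZero M] (Mod : KumModel1DualW M p)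

/-- The underlying Galois module. -/
@[reducible] def toGalMod : GalMod p where
  K := Mod.K
  gal := Mod.gal
  level := Mod.level

/-- (EIG) for a weak dual model: `D` need not be multiplicative here, only the eigenvalues
`χ u` are. -/
def HasEigen1 (k0 : Type) [Field k0] [Algebra (ZMod p) k0] (a : ℕ → k0)
    (χ : (ZMod M)ˣ →* k0ˣ) : Prop :=
  ∃ v : k0 ⊗[ZMod p] Mod.K, v ≠ 0 ∧
    (∀ ℓ : ℕ, ℓ.Prime → ¬ ℓ ∣ M * p → (Mod.T ℓ).baseChange k0 v = a ℓ • v) ∧
    ∀ u : (ZMod M)ˣ, (Mod.D u).baseChange k0 v = ((χ u : k0ˣ) : k0) • v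

variable (k0 : Type) [Field k0] [Algebra (ZMod p) k0]

/-- The Eichler–Shimura relation, base-changed to `k0 ⊗ K`. -/
theorem frobB (ℓ : ℕ) (hℓ : ℓ.Prime) (hℓMp : ¬ ℓ ∣ M * p) (A : ValuationSubring Qb)
    (hA : A.LiesOverPrime ℓ) (τ : GQ) (hτ : A.IsFrobeniusAt τ ℓ) (w : k0 ⊗[ZMod p] Mod.K) :
    (Mod.D (unitOfPrime hℓ (not_dvd_left_of_not_dvd_mul hℓMp))).baseChange k0
        (Mod.toGalMod.galB k0 τ (Mod.toGalMod.galB k0 τ w)) -
      (Mod.T ℓ).baseChange k0 (Mod.toGalMod.galB k0 τ w) + (ℓ : k0) • w = 0 := by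
  have h := Mod.frob ℓ hℓ hℓMp A hA τ hτ
  have h2 := congrArg
    (fun f => (LinearMap.baseChange k0 f : Module.End k0 (k0 ⊗[ZMod p] Mod.K))) h
  simp only [LinearMap.baseChange_add, LinearMap.baseChange_sub, LinearMap.baseChange_mul,
    LinearMap.baseChange_smul, LinearMap.baseChange_zero, LinearMap.baseChange_one] at h2
  have h3 := LinearMap.congr_fun h2 w
  simp only [LinearMap.add_apply, LinearMap.sub_apply, Module.End.mul_apply, LinearMap.smul_apply,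
    Module.End.one_apply, LinearMap.zero_apply] at h3
  rw [← h3]
  show _ - _ + (ℓ : k0) • w = _ - _ + (ℓ : ZMod p) • w
  congr 1
  rw [← algebraMap_smul k0 ((ℓ : ZMod p)) w, map_natCast]

/-- **Dual (ESM) from a weak dual Kummer model with a simultaneous eigenvector.** -/
theorem hasESModuleDual [CharP k0 p] [Fact p.Prime] (a : ℕ → k0) (χ : (ZMod M)ˣ →* k0ˣ)
    (h : Mod.HasEigen1 k0 a χ) :
    HasESModuleDual (M * p) k0 a (dirChar χ) (CycChar.cycK p k0) := by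
  obtain ⟨v, hv0, hvT, hvD⟩ := h
  refine ⟨Mod.toGalMod.orbitSpan k0 v, inferInstance, inferInstance, Mod.toGalMod.orbitRep k0 v,
    Mod.toGalMod.finite_orbitSpan k0 v, Mod.toGalMod.nontrivial_orbitSpan k0 hv0,
    Mod.toGalMod.finiteLevel_orbitRep k0 v, ?_, ?_⟩
  · intro ℓ hℓ hℓMp A hA σ hσ
    exact Mod.toGalMod.orbitRep_eq_one k0 v (Mod.inertia ℓ hℓ hℓMp A hA σ hσ)
  · intro ℓ hℓ hℓMp A hA τ hτ
    ext w
    have h1 := Mod.frobB k0 ℓ hℓ hℓMp A hA τ hτ (w : k0 ⊗[ZMod p] Mod.toGalMod.K)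
    have hw1 : Mod.toGalMod.galB k0 τ (w : k0 ⊗[ZMod p] Mod.toGalMod.K) ∈
        Mod.toGalMod.orbitSpan k0 v :=
      Mod.toGalMod.galB_mem_orbitSpan k0 v τ w.2
    have hw2 : Mod.toGalMod.galB k0 τ (Mod.toGalMod.galB k0 τ
        (w : k0 ⊗[ZMod p] Mod.toGalMod.K)) ∈ Mod.toGalMod.orbitSpan k0 v :=
      Mod.toGalMod.galB_mem_orbitSpan k0 v τ hw1
    rw [Mod.toGalMod.baseChange_eq_smul k0 (Mod.T ℓ) (Mod.T_comm_gal ℓ) v (a ℓ)
        (hvT ℓ hℓ hℓMp) hw1,
      Mod.toGalMod.baseChange_eq_smul k0 (Mod.D _) (Mod.D_comm_gal _) v _ (hvD _) hw2] at h1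
    rw [dirChar_frob χ hℓ (not_dvd_left_of_not_dvd_mul hℓMp) hA hτ,
      CycChar.cycK_frob p k0 hℓ (ne_of_not_dvd_mul hℓMp) hA hτ]
    exact h1

omit [Algebra (ZMod p) k0] in
theorem isGoodDet_dirChar (χ : (ZMod M)ˣ →* k0ˣ) : IsGoodDet (M * p) (dirChar χ) :=
  ⟨dirChar_finiteLevel χ, fun _ hℓ hℓMp _ hA _ hσ =>
    dirChar_inertia χ hℓ (not_dvd_left_of_not_dvd_mul hℓMp) hA hσ⟩

omit [Algebra (ZMod p) k0] in
theorem dirChar_mul_cycK [CharP k0 p] [Fact p.Prime] (χ : (ZMod M)ˣ →* k0ˣ) :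
    dirChar χ * CycChar.cycK p k0 = KumModel1.detChar k0 χ := by
  refine MonoidHom.ext fun σ => ?_
  rw [KumModel1.detChar, MonoidHom.mul_apply, MonoidHom.mul_apply, mul_comm]

/-- **The output of the port, weak dual convention**: same conclusion as
`KumModel1.exists_rep`. -/
theorem exists_rep [Finite k0] [CharP k0 p] [Fact p.Prime] (a : ℕ → k0)
    (χ : (ZMod M)ˣ →* k0ˣ) (h : Mod.HasEigen1 k0 a χ) :
    ∃ ρ : GQ →* GL (Fin 2) k0, GaloisFactorsThroughFiniteLevel ρ ∧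
      ∀ (ℓ : ℕ) (hℓ : ℓ.Prime) (hℓMp : ¬ ℓ ∣ M * p) (A : ValuationSubring Qb),
        A.LiesOverPrime ℓ →
        (∀ σ ∈ A.inertiaSubgroupIn ℚ, ρ σ = 1) ∧
        ∀ τ : GQ, A.IsFrobeniusAt τ ℓ →
          ((ρ τ : GL (Fin 2) k0) : Matrix (Fin 2) (Fin 2) k0).trace = a ℓ ∧
          ((ρ τ : GL (Fin 2) k0) : Matrix (Fin 2) (Fin 2) k0).det =
            (ℓ : k0) * ((χ (unitOfPrime hℓ (not_dvd_left_of_not_dvd_mul hℓMp)) : k0ˣ) : k0) := by
  have hMp : M * p ≠ 0 := Nat.mul_ne_zero (NeZero.ne M) (Fact.out : p.Prime).ne_zero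
  have hESM : HasESModuleD (M * p) k0 a (KumModel1.detChar k0 χ) := by
    rw [← dirChar_mul_cycK]
    exact hasESModuleD_of_dual (isGoodDet_dirChar k0 χ) (Mod.hasESModuleDual k0 a χ h)
  obtain ⟨ρ, hlev, hρ⟩ := exists_rep_of_esModuleD hMp (Alg.repTwoStmt_of_finite k0) a
    (KumModel1.detChar k0 χ) (KumModel1.isGoodDet_detChar k0 χ) hESM
  refine ⟨ρ, hlev, fun ℓ hℓ hℓMp A hA => ⟨(hρ ℓ hℓ hℓMp A hA).1, fun τ hτ => ?_⟩⟩
  obtain ⟨h1, h2⟩ := (hρ ℓ hℓ hℓMp A hA).2 τ hτ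
  exact ⟨h1, by rw [h2, KumModel1.detChar_frob k0 χ hℓ hℓMp hA hτ]⟩

end KumModel1DualW

end Fermat.Agent.DS.P5
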