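/-
GATE-N / S48-P5 (helper69): the CONCRETE weak dual Kummer model of the `Γ₁(M)` port, GENERIC in the
function field `F₀ ⊂ ℚ((q))` (twin of helper42's `GJ/Kum/KumType.lean`).

`FL := laurentBaseChange ℚ̄ F₀`, `K := Additive (Kum ℚ̄ FL p)`, Galois action coefficientwise,
diamond operators `D u` induced by a family `dia u : FL ≃ₐ[ℚ̄] FL` commuting with the Galois action,
Hecke operators `T ℓ` induced by the multiplicative Hecke operator WITH NEBENTYPUS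
`hn1Series ℓ (dia_ℓ) u = u(q^ℓ) · N_ℓ(⟨ℓ⟩ u)` (helper17, board 3348).

Inputs, all in hypothesis form: `HNMem1`, `HNDiv1` (the Hecke norm stays in `FL` and preserves
`p ∣ div`), `ESInertia1` (= GJ `ESInertiaHyp` for `F₀`), `ESFrob1` (= helper17's `ES1`:
`s(s(⟨ℓ⟩u)) · u^ℓ = HN1_ℓ(s u) · v^p`).  Output: `kumModel1 … : KumModel1DualW M p` and the
relational adapter `hasEigen1_of_rel` for P3's (EIG1).
-/
import Mathlib
import Fermat.Agent.GJ.J2.EigIface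
import Fermat.Agent.GJ.Kum.KumType
import Fermat.Agent.GJ.Kum.GalDiv
import Fermat.Agent.GJ.Kum.EigAdapter
import Fermat.Agent.DS.P5.DualW

set_option autoImplicit false
set_option linter.style.haveILetI false

noncomputable section

namespace Fermat.Agent.DS.P5.KumType1

open AlgebraicCurve ModularCurve Fermat.Agent.GJ.KumGroup Fermat.Agent.GJ.Kum
  Fermat.Agent.GJ.Kum.KumType TensorProduct

/-- `G_ℚ`. -/
local notation "GQ" => (AlgebraicClosure ℚ ≃ₐ[ℚ] AlgebraicClosure ℚ)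

variable (F₀ : IntermediateField ℚ (LaurentSeries ℚ))

/-- The function field `ℚ̄ · F₀` inside `ℚ̄((q))`. -/
abbrev FL : Type := ↥(laurentBaseChange Kb F₀)

/-! ### The Galois action -/

section Galois

variable (p : ℕ)

/-- the coefficientwise Galois action on the units of `FL` -/
def galUnits (σ : GQ) : (FL F₀)ˣ →* (FL F₀)ˣ :=
  Units.map ((arithmeticRingAut F₀ σ : FL F₀ ≃+* FL F₀) : FL F₀ →* FL F₀)

@[simp]
theorem coe_galUnits (σ : GQ) (u : (FL F₀)ˣ) :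
    ((galUnits F₀ σ u : (FL F₀)ˣ) : FL F₀) = arithmeticRingAut F₀ σ u := rfl

theorem galUnits_mem (σ : GQ) (u : (FL F₀)ˣ) (hu : u ∈ pDivUnits Kb (FL F₀) p) :
    galUnits F₀ σ u ∈ pDivUnits Kb (FL F₀) p :=
  GalDiv.dvd_ord_arithmeticRingAut F₀ σ (p : ℤ) hu

theorem arithmeticRingAut_mul_apply (σ τ : GQ) (x : FL F₀) :
    arithmeticRingAut F₀ (σ * τ) x = arithmeticRingAut F₀ σ (arithmeticRingAut F₀ τ x) := by
  refine Subtype.ext ?_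
  show coeffMap ((σ * τ : GQ) : Kb →+* Kb) (x : LaurentSeries Kb)
      = coeffMap (σ : Kb →+* Kb) (coeffMap (τ : Kb →+* Kb) (x : LaurentSeries Kb))
  rw [coeffMap_coeffMap]
  exact coeffMap_congr (RingHom.ext fun _ => rfl) _

theorem arithmeticRingAut_one_apply (x : FL F₀) : arithmeticRingAut F₀ (1 : GQ) x = x := by
  refine Subtype.ext ?_
  show coeffMap ((1 : GQ) : Kb →+* Kb) (x : LaurentSeries Kb) = (x : LaurentSeries Kb)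
  rw [show ((1 : GQ) : Kb →+* Kb) = RingHom.id Kb from RingHom.ext fun _ => rfl, coeffMap_id]

/-- **the Galois action on the Kummer group** -/
def gal : GQ →* Module.End (ZMod p) (Additive (Kum Kb (FL F₀) p)) where
  toFun σ := kumEnd (galUnits F₀ σ) (galUnits_mem F₀ p σ)
  map_one' := by
    rw [← kumEnd_id]
    refine kumEnd_congr _ _ fun u _ => Units.ext ?_
    exact arithmeticRingAut_one_apply F₀ u
  map_mul' σ τ := by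
    rw [kumEnd_mul]
    refine kumEnd_congr _ _ fun u _ => Units.ext ?_
    exact arithmeticRingAut_mul_apply F₀ σ τ u

theorem gal_mk (σ : GQ) (u : pDivUnits Kb (FL F₀) p) :
    gal F₀ p σ (Additive.ofMul (Kum.mk u)) =
      Additive.ofMul (Kum.mk ⟨galUnits F₀ σ u, galUnits_mem F₀ p σ u u.2⟩) := rfl

/-- every class has a finite-level stabiliser -/
theorem gal_level (x : Additive (Kum Kb (FL F₀) p)) :
    Fermat.Agent.GJ.FiniteLevel.HasLevel (fun σ => gal F₀ p σ x = x) := by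
  obtain ⟨u, rfl⟩ := exists_rep x
  refine (Fermat.Agent.GJ.FiniteLevel.hasLevel_arithmeticRingAut_eq F₀
    ((u : (FL F₀)ˣ) : FL F₀)).mono fun σ hσ => ?_
  rw [gal_mk]
  exact congrArg (fun v => Additive.ofMul (Kum.mk v)) (Subtype.ext (Units.ext hσ))

end Galois

/-! ### The diamond operators -/

section Diamond

variable {F₀} (p : ℕ)

/-- a `ℚ̄`-automorphism of `FL` on units -/
def diaUnits (δ : FL F₀ ≃ₐ[Kb] FL F₀) : (FL F₀)ˣ →* (FL F₀)ˣ :=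
  Units.map ((δ : FL F₀ ≃+* FL F₀) : FL F₀ →* FL F₀)

@[simp]
theorem coe_diaUnits (δ : FL F₀ ≃ₐ[Kb] FL F₀) (u : (FL F₀)ˣ) :
    ((diaUnits δ u : (FL F₀)ˣ) : FL F₀) = δ u := rfl

theorem diaUnits_mem (δ : FL F₀ ≃ₐ[Kb] FL F₀) (u : (FL F₀)ˣ)
    (hu : u ∈ pDivUnits Kb (FL F₀) p) : diaUnits δ u ∈ pDivUnits Kb (FL F₀) p :=
  GalDiv.dvd_ord_smul (SemilinearAut.ofAlgAut δ) (p : ℤ) hu

/-- the diamond operator on the Kummer group induced by `δ` -/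
def DEnd (δ : FL F₀ ≃ₐ[Kb] FL F₀) : Module.End (ZMod p) (Additive (Kum Kb (FL F₀) p)) :=
  kumEnd (diaUnits δ) (diaUnits_mem p δ)

theorem DEnd_mk (δ : FL F₀ ≃ₐ[Kb] FL F₀) (u : pDivUnits Kb (FL F₀) p) :
    DEnd p δ (Additive.ofMul (Kum.mk u)) =
      Additive.ofMul (Kum.mk ⟨diaUnits δ u, diaUnits_mem p δ u u.2⟩) := rfl

/-- `δ` is defined over `ℚ`: it commutes with the coefficientwise Galois action. -/
def DiaComm (δ : FL F₀ ≃ₐ[Kb] FL F₀) : Prop :=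
  ∀ (σ : GQ) (x : FL F₀), δ (arithmeticRingAut F₀ σ x) = arithmeticRingAut F₀ σ (δ x)

theorem DEnd_comm_gal {δ : FL F₀ ≃ₐ[Kb] FL F₀} (hδ : DiaComm δ) (σ : GQ) :
    DEnd p δ * gal F₀ p σ = gal F₀ p σ * DEnd p δ := by
  show kumEnd _ _ * kumEnd _ _ = kumEnd _ _ * kumEnd _ _
  rw [kumEnd_mul, kumEnd_mul]
  exact kumEnd_congr _ _ fun u _ => Units.ext (hδ σ u)

end Diamond

/-! ### The Hecke operators with nebentypus -/

section Hecke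

variable {F₀}

/-- the multiplicative Hecke operator with nebentypus on series:
`u ↦ u(q^ℓ) · N_ℓ(δ u)`, `δ = ⟨ℓ⟩` -/
def hn1Series (ℓ : ℕ) [NeZero ℓ] (δ : FL F₀ ≃ₐ[Kb] FL F₀) (u : FL F₀) : LaurentSeries Kb :=
  qExpand Kb ℓ (u : LaurentSeries Kb) * normL ℓ ((δ u : FL F₀) : LaurentSeries Kb)

theorem hn1Series_one (ℓ : ℕ) [NeZero ℓ] (δ : FL F₀ ≃ₐ[Kb] FL F₀) :
    hn1Series ℓ δ (1 : FL F₀) = 1 := by
  show qExpand Kb ℓ ((1 : FL F₀) : LaurentSeries Kb) * normL ℓ ((δ 1 : FL F₀) : LaurentSeries Kb)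
    = 1
  rw [map_one δ]
  show qExpand Kb ℓ (1 : LaurentSeries Kb) * normL ℓ (1 : LaurentSeries Kb) = 1
  rw [map_one, normL_one, one_mul]

theorem hn1Series_mul (ℓ : ℕ) [NeZero ℓ] (δ : FL F₀ ≃ₐ[Kb] FL F₀) (u v : FL F₀) :
    hn1Series ℓ δ (u * v) = hn1Series ℓ δ u * hn1Series ℓ δ v := by
  show qExpand Kb ℓ ((u * v : FL F₀) : LaurentSeries Kb) *
      normL ℓ ((δ (u * v) : FL F₀) : LaurentSeries Kb) = _
  rw [map_mul δ]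
  show qExpand Kb ℓ ((u : LaurentSeries Kb) * (v : LaurentSeries Kb)) *
      normL ℓ (((δ u : FL F₀) : LaurentSeries Kb) * ((δ v : FL F₀) : LaurentSeries Kb)) = _
  rw [map_mul, normL_mul, hn1Series, hn1Series]
  ring

/-- (HN1) the Hecke norm with nebentypus of a function of `FL` is one -/
def HNMem1 (ℓ : ℕ) (δ : FL F₀ ≃ₐ[Kb] FL F₀) : Prop :=
  ∀ [NeZero ℓ] (u : FL F₀), hn1Series ℓ δ u ∈ laurentBaseChange Kb F₀

/-- (HN2) the Hecke norm with nebentypus preserves "`p` divides the divisor" -/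
def HNDiv1 (p ℓ : ℕ) (δ : FL F₀ ≃ₐ[Kb] FL F₀) : Prop :=
  ∀ [NeZero ℓ] (u x : FL F₀), u ≠ 0 → (x : LaurentSeries Kb) = hn1Series ℓ δ u →
    (∀ P : Place Kb (FL F₀), (p : ℤ) ∣ P.ord u) → ∀ P : Place Kb (FL F₀), (p : ℤ) ∣ P.ord x

variable {ℓ : ℕ} [NeZero ℓ] {δ : FL F₀ ≃ₐ[Kb] FL F₀}

/-- the Hecke norm with nebentypus as a monoid endomorphism of `FL` -/
def heckeHom1 (hM : HNMem1 ℓ δ) : FL F₀ →* FL F₀ where
  toFun x := ⟨hn1Series ℓ δ x, hM x⟩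
  map_one' := Subtype.ext (hn1Series_one ℓ δ)
  map_mul' x y := Subtype.ext (hn1Series_mul ℓ δ x y)

@[simp]
theorem coe_heckeHom1 (hM : HNMem1 ℓ δ) (x : FL F₀) :
    ((heckeHom1 hM x : FL F₀) : LaurentSeries Kb) = hn1Series ℓ δ x := rfl

/-- the Hecke norm with nebentypus on the units of `FL` -/
def heckeUnits1 (hM : HNMem1 ℓ δ) : (FL F₀)ˣ →* (FL F₀)ˣ := Units.map (heckeHom1 hM)

@[simp]
theorem coe_heckeUnits1 (hM : HNMem1 ℓ δ) (u : (FL F₀)ˣ) :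
    (((heckeUnits1 hM u : (FL F₀)ˣ) : FL F₀) : LaurentSeries Kb) =
      hn1Series ℓ δ ((u : (FL F₀)ˣ) : FL F₀) := rfl

variable {p : ℕ}

theorem heckeUnits1_mem (hM : HNMem1 ℓ δ) (hD : HNDiv1 p ℓ δ) (u : (FL F₀)ˣ)
    (hu : u ∈ pDivUnits Kb (FL F₀) p) : heckeUnits1 hM u ∈ pDivUnits Kb (FL F₀) p :=
  hD (u : FL F₀) _ u.ne_zero rfl hu

/-- the Hecke operator on the Kummer group -/
def TEnd1 (hM : HNMem1 ℓ δ) (hD : HNDiv1 p ℓ δ) :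
    Module.End (ZMod p) (Additive (Kum Kb (FL F₀) p)) :=
  kumEnd (heckeUnits1 hM) (heckeUnits1_mem hM hD)

theorem TEnd1_mk (hM : HNMem1 ℓ δ) (hD : HNDiv1 p ℓ δ) (u : pDivUnits Kb (FL F₀) p) :
    TEnd1 hM hD (Additive.ofMul (Kum.mk u)) =
      Additive.ofMul (Kum.mk ⟨heckeUnits1 hM u, heckeUnits1_mem hM hD u u.2⟩) := rfl

/-- the Hecke norm with nebentypus commutes with the coefficientwise Galois action -/
theorem hn1Series_arithmeticRingAut (hδ : DiaComm δ) (σ : GQ) (u : FL F₀) :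
    hn1Series ℓ δ (arithmeticRingAut F₀ σ u) =
      coeffMap (σ : Kb →+* Kb) (hn1Series ℓ δ u) := by
  show qExpand Kb ℓ ((arithmeticRingAut F₀ σ u : FL F₀) : LaurentSeries Kb) *
      normL ℓ ((δ (arithmeticRingAut F₀ σ u) : FL F₀) : LaurentSeries Kb) = _
  rw [hδ σ u, hn1Series, map_mul, coeffMap_qExpand, coeffMap_normL]
  rfl

theorem heckeUnits1_galUnits (hδ : DiaComm δ) (hM : HNMem1 ℓ δ) (σ : GQ) (u : (FL F₀)ˣ) :
    heckeUnits1 hM (galUnits F₀ σ u) = galUnits F₀ σ (heckeUnits1 hM u) :=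
  Units.ext (Subtype.ext (hn1Series_arithmeticRingAut hδ σ u))

theorem TEnd1_comm_gal (hδ : DiaComm δ) (hM : HNMem1 ℓ δ) (hD : HNDiv1 p ℓ δ) (σ : GQ) :
    TEnd1 hM hD * gal F₀ p σ = gal F₀ p σ * TEnd1 hM hD := by
  show kumEnd _ _ * kumEnd _ _ = kumEnd _ _ * kumEnd _ _
  rw [kumEnd_mul, kumEnd_mul]
  exact kumEnd_congr _ _ fun u _ => heckeUnits1_galUnits hδ hM σ u

end Hecke

/-! ### The Eichler–Shimura inputs (element level) and the model -/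

section Model

variable {F₀}

/-- (ES-inertia) inertia at `ℓ` moves a `p`-divisible unit by a `p`-th power -/
def ESInertia1 (F₀ : IntermediateField ℚ (LaurentSeries ℚ)) (p ℓ : ℕ) : Prop :=
  ∀ A : ValuationSubring Kb, A.LiesOverPrime ℓ → ∀ s ∈ A.inertiaSubgroupIn ℚ,
    ∀ u : FL F₀, u ≠ 0 → (∀ P : Place Kb (FL F₀), (p : ℤ) ∣ P.ord u) →
      ∃ v : FL F₀, v ≠ 0 ∧ arithmeticRingAut F₀ s u = u * v ^ p

/-- (ES-Frobenius with nebentypus, helper17's `ES1`) `s(s(⟨ℓ⟩u)) · u^ℓ = HN1_ℓ(s u) · v^p` -/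
def ESFrob1 (p ℓ : ℕ) (δ : FL F₀ ≃ₐ[Kb] FL F₀) : Prop :=
  ∀ [NeZero ℓ] (A : ValuationSubring Kb), A.LiesOverPrime ℓ → ∀ s : GQ, A.IsFrobeniusAt s ℓ →
    ∀ u : FL F₀, u ≠ 0 → (∀ P : Place Kb (FL F₀), (p : ℤ) ∣ P.ord u) →
      ∃ v : FL F₀, v ≠ 0 ∧
        (((arithmeticRingAut F₀ s (arithmeticRingAut F₀ s (δ u)) * u ^ ℓ : FL F₀)) :
            LaurentSeries Kb) =
          hn1Series ℓ δ (arithmeticRingAut F₀ s u) * (v : LaurentSeries Kb) ^ p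

variable {M : ℕ} [NeZero M] (p : ℕ) (dia : (ZMod M)ˣ → (FL F₀ ≃ₐ[Kb] FL F₀))

/-- the diamond automorphism attached to a prime `ℓ ∤ M` -/
def diaP {ℓ : ℕ} (hℓ : ℓ.Prime) (hℓM : ¬ ℓ ∣ M) : FL F₀ ≃ₐ[Kb] FL F₀ := dia (unitOfPrime hℓ hℓM)

open Classical in
/-- the family of Hecke operators: `TEnd1` at the primes `ℓ ∤ M`, `0` elsewhere -/
def TFam1 (hM : ∀ (ℓ : ℕ) (hℓ : ℓ.Prime) (hℓM : ¬ ℓ ∣ M), HNMem1 ℓ (diaP dia hℓ hℓM))
    (hD : ∀ (ℓ : ℕ) (hℓ : ℓ.Prime) (hℓM : ¬ ℓ ∣ M), HNDiv1 p ℓ (diaP dia hℓ hℓM)) (ℓ : ℕ) :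
    Module.End (ZMod p) (Additive (Kum Kb (FL F₀) p)) :=
  if h : ℓ.Prime ∧ ¬ ℓ ∣ M then
    @TEnd1 F₀ ℓ ⟨h.1.ne_zero⟩ _ p (hM ℓ h.1 h.2) (hD ℓ h.1 h.2)
  else 0

omit [NeZero M] in
theorem TFam1_of_prime (hM : ∀ (ℓ : ℕ) (hℓ : ℓ.Prime) (hℓM : ¬ ℓ ∣ M), HNMem1 ℓ (diaP dia hℓ hℓM))
    (hD : ∀ (ℓ : ℕ) (hℓ : ℓ.Prime) (hℓM : ¬ ℓ ∣ M), HNDiv1 p ℓ (diaP dia hℓ hℓM)) {ℓ : ℕ}
    (hℓ : ℓ.Prime) (hℓM : ¬ ℓ ∣ M) :
    TFam1 p dia hM hD ℓ = @TEnd1 F₀ ℓ ⟨hℓ.ne_zero⟩ _ p (hM ℓ hℓ hℓM) (hD ℓ hℓ hℓM) := by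
  unfold TFam1
  rw [dif_pos ⟨hℓ, hℓM⟩]

omit [NeZero M] in
theorem TFam1_of_not (hM : ∀ (ℓ : ℕ) (hℓ : ℓ.Prime) (hℓM : ¬ ℓ ∣ M), HNMem1 ℓ (diaP dia hℓ hℓM))
    (hD : ∀ (ℓ : ℕ) (hℓ : ℓ.Prime) (hℓM : ¬ ℓ ∣ M), HNDiv1 p ℓ (diaP dia hℓ hℓM)) {ℓ : ℕ}
    (h : ¬ (ℓ.Prime ∧ ¬ ℓ ∣ M)) : TFam1 p dia hM hD ℓ = 0 := by
  unfold TFam1
  rw [dif_neg h]

theorem TFam1_comm_gal (hδ : ∀ u, DiaComm (dia u))
    (hM : ∀ (ℓ : ℕ) (hℓ : ℓ.Prime) (hℓM : ¬ ℓ ∣ M), HNMem1 ℓ (diaP dia hℓ hℓM))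
    (hD : ∀ (ℓ : ℕ) (hℓ : ℓ.Prime) (hℓM : ¬ ℓ ∣ M), HNDiv1 p ℓ (diaP dia hℓ hℓM)) (ℓ : ℕ)
    (σ : GQ) : TFam1 p dia hM hD ℓ * gal F₀ p σ = gal F₀ p σ * TFam1 p dia hM hD ℓ := by
  by_cases h : ℓ.Prime ∧ ¬ ℓ ∣ M
  · rw [TFam1_of_prime p dia hM hD h.1 h.2]
    exact @TEnd1_comm_gal F₀ ℓ ⟨h.1.ne_zero⟩ _ p (hδ _) _ _ σ
  · rw [TFam1_of_not p dia hM hD h, zero_mul, mul_zero]

/-- inertia acts trivially -/
theorem gal_eq_one_of_inertia {ℓ : ℕ} (hI : ESInertia1 F₀ p ℓ) (A : ValuationSubring Kb)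
    (hA : A.LiesOverPrime ℓ) (σ : GQ) (hσ : σ ∈ A.inertiaSubgroupIn ℚ) : gal F₀ p σ = 1 := by
  refine LinearMap.ext fun x => ?_
  obtain ⟨u, rfl⟩ := exists_rep x
  obtain ⟨v, hv, huv⟩ := hI A hA σ hσ ((u : (FL F₀)ˣ) : FL F₀) (u : (FL F₀)ˣ).ne_zero u.2
  rw [gal_mk]
  refine (ofMul_mk_eq_of (Units.mk0 v hv) ?_).symm
  refine Units.ext ?_
  show arithmeticRingAut F₀ σ ((u : (FL F₀)ˣ) : FL F₀) = _
  rw [huv]
  simp

/-- the Eichler–Shimura relation with nebentypus on the Kummer group -/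
theorem gal_frob1 {ℓ : ℕ} (hℓ : ℓ.Prime) {δ : FL F₀ ≃ₐ[Kb] FL F₀} (hδ : DiaComm δ)
    (hM : HNMem1 ℓ δ) (hD : HNDiv1 p ℓ δ) (hF : ESFrob1 p ℓ δ)
    (A : ValuationSubring Kb) (hA : A.LiesOverPrime ℓ) (τ : GQ) (hτ : A.IsFrobeniusAt τ ℓ) :
    DEnd p δ * (gal F₀ p τ * gal F₀ p τ) - @TEnd1 F₀ ℓ ⟨hℓ.ne_zero⟩ δ p hM hD * gal F₀ p τ
      + (ℓ : ZMod p) • (1 : Module.End (ZMod p) (Additive (Kum Kb (FL F₀) p))) = 0 := by
  have : NeZero ℓ := ⟨hℓ.ne_zero⟩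
  refine LinearMap.ext fun x => ?_
  obtain ⟨u, rfl⟩ := exists_rep x
  obtain ⟨v, hv, huv⟩ := hF A hA τ hτ ((u : (FL F₀)ˣ) : FL F₀) (u : (FL F₀)ˣ).ne_zero u.2
  set a : pDivUnits Kb (FL F₀) p :=
    ⟨diaUnits δ (galUnits F₀ τ (galUnits F₀ τ u)),
      diaUnits_mem p δ _ (galUnits_mem F₀ p τ _ (galUnits_mem F₀ p τ u u.2))⟩ with ha
  set b : pDivUnits Kb (FL F₀) p :=
    ⟨heckeUnits1 hM (galUnits F₀ τ u),
      heckeUnits1_mem hM hD _ (galUnits_mem F₀ p τ u u.2)⟩ with hb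
  have key : (Additive.ofMul (Kum.mk b) : Additive (Kum Kb (FL F₀) p)) =
      Additive.ofMul (Kum.mk (a * u ^ ℓ)) := by
    refine ofMul_mk_eq_of (Units.mk0 v hv) ?_
    refine Units.ext (Subtype.ext ?_)
    have h1 : ((((a * u ^ ℓ : pDivUnits Kb (FL F₀) p) : (FL F₀)ˣ) : FL F₀) : LaurentSeries Kb) =
        ((arithmeticRingAut F₀ τ (arithmeticRingAut F₀ τ (δ ((u : (FL F₀)ˣ) : FL F₀))) *
            ((u : (FL F₀)ˣ) : FL F₀) ^ ℓ : FL F₀) : LaurentSeries Kb) := by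
      have h2 : δ (arithmeticRingAut F₀ τ (arithmeticRingAut F₀ τ ((u : (FL F₀)ˣ) : FL F₀))) =
          arithmeticRingAut F₀ τ (arithmeticRingAut F₀ τ (δ ((u : (FL F₀)ˣ) : FL F₀))) := by
        rw [hδ, hδ]
      simp [ha, h2]
    rw [h1, huv]
    simp [hb]
  have h2 : (Additive.ofMul (Kum.mk (a * u ^ ℓ)) : Additive (Kum Kb (FL F₀) p)) =
      Additive.ofMul (Kum.mk a) + ℓ • Additive.ofMul (Kum.mk u) := by
    rw [map_mul, map_pow, ofMul_mul, ofMul_pow]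
  show DEnd p δ (gal F₀ p τ (gal F₀ p τ (Additive.ofMul (Kum.mk u))))
      - TEnd1 hM hD (gal F₀ p τ (Additive.ofMul (Kum.mk u)))
      + (ℓ : ZMod p) • Additive.ofMul (Kum.mk u) = 0
  rw [gal_mk, gal_mk, TEnd1_mk, DEnd_mk, Nat.cast_smul_eq_nsmul]
  show Additive.ofMul (Kum.mk a) - Additive.ofMul (Kum.mk b) + ℓ • Additive.ofMul (Kum.mk u) = 0
  rw [key, h2]
  abel

/-- **the weak dual Kummer model of the `Γ₁(M)` port** -/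
def kumModel1 (hδ : ∀ u, DiaComm (dia u))
    (hM : ∀ (ℓ : ℕ) (hℓ : ℓ.Prime) (hℓM : ¬ ℓ ∣ M), HNMem1 ℓ (diaP dia hℓ hℓM))
    (hD : ∀ (ℓ : ℕ) (hℓ : ℓ.Prime) (hℓM : ¬ ℓ ∣ M), HNDiv1 p ℓ (diaP dia hℓ hℓM))
    (hI : ∀ ℓ : ℕ, ℓ.Prime → ¬ ℓ ∣ M * p → ESInertia1 F₀ p ℓ)
    (hF : ∀ (ℓ : ℕ) (hℓ : ℓ.Prime) (hℓMp : ¬ ℓ ∣ M * p),
      ESFrob1 p ℓ (diaP dia hℓ (not_dvd_left_of_not_dvd_mul hℓMp))) : KumModel1DualW M p where
  K := Additive (Kum Kb (FL F₀) p)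
  gal := gal F₀ p
  T := TFam1 p dia hM hD
  D := fun u => DEnd p (dia u)
  T_comm_gal := TFam1_comm_gal p dia hδ hM hD
  D_comm_gal := fun u σ => DEnd_comm_gal p (hδ u) σ
  level := gal_level F₀ p
  inertia := fun ℓ hℓ hℓMp A hA σ hσ => gal_eq_one_of_inertia p (hI ℓ hℓ hℓMp) A hA σ hσ
  frob := fun ℓ hℓ hℓMp A hA τ hτ => by
    have hℓM : ¬ ℓ ∣ M := not_dvd_left_of_not_dvd_mul hℓMp
    rw [TFam1_of_prime p dia hM hD hℓ hℓM]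
    exact gal_frob1 p hℓ (hδ _) (hM ℓ hℓ hℓM) (hD ℓ hℓ hℓM) (hF ℓ hℓ hℓMp) A hA τ hτ

/-! ### API for the consumers (P3 adapter, final assembly) -/

section API

variable {p dia}
variable (hδ : ∀ u, DiaComm (dia u))
  (hM : ∀ (ℓ : ℕ) (hℓ : ℓ.Prime) (hℓM : ¬ ℓ ∣ M), HNMem1 ℓ (diaP dia hℓ hℓM))
  (hD : ∀ (ℓ : ℕ) (hℓ : ℓ.Prime) (hℓM : ¬ ℓ ∣ M), HNDiv1 p ℓ (diaP dia hℓ hℓM))
  (hI : ∀ ℓ : ℕ, ℓ.Prime → ¬ ℓ ∣ M * p → ESInertia1 F₀ p ℓ)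
  (hF : ∀ (ℓ : ℕ) (hℓ : ℓ.Prime) (hℓMp : ¬ ℓ ∣ M * p),
    ESFrob1 p ℓ (diaP dia hℓ (not_dvd_left_of_not_dvd_mul hℓMp)))

/-- the class of a `p`-divisible unit, as an element of the model -/
def cls (u : pDivUnits Kb (FL F₀) p) : (kumModel1 p dia hδ hM hD hI hF).K :=
  Additive.ofMul (Kum.mk u)

theorem cls_surjective : Function.Surjective (cls hδ hM hD hI hF) := fun x => by
  obtain ⟨u, rfl⟩ := exists_rep (K := Kb) (F := FL F₀) (p := p) x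
  exact ⟨u, rfl⟩

theorem kumModel1_gal_cls (σ : GQ) (u : pDivUnits Kb (FL F₀) p) :
    (kumModel1 p dia hδ hM hD hI hF).gal σ (cls hδ hM hD hI hF u) =
      cls hδ hM hD hI hF ⟨galUnits F₀ σ u, galUnits_mem F₀ p σ u u.2⟩ := rfl

/-- **`T_mk`, relational form**: if the series of `u'` is the Hecke norm with nebentypus of `u`,
then `T ℓ [u] = [u']`. -/
theorem kumModel1_T_cls_of_eq {ℓ : ℕ} (hℓ : ℓ.Prime) (hℓM : ¬ ℓ ∣ M)
    (u u' : pDivUnits Kb (FL F₀) p)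
    (h : ((((u' : pDivUnits Kb (FL F₀) p) : (FL F₀)ˣ) : FL F₀) : LaurentSeries Kb) =
      @hn1Series F₀ ℓ ⟨hℓ.ne_zero⟩ (diaP dia hℓ hℓM)
        (((u : pDivUnits Kb (FL F₀) p) : (FL F₀)ˣ) : FL F₀)) :
    (kumModel1 p dia hδ hM hD hI hF).T ℓ (cls hδ hM hD hI hF u) = cls hδ hM hD hI hF u' := by
  have : NeZero ℓ := ⟨hℓ.ne_zero⟩
  show TFam1 p dia hM hD ℓ (Additive.ofMul (Kum.mk u)) = Additive.ofMul (Kum.mk u')
  rw [TFam1_of_prime p dia hM hD hℓ hℓM, TEnd1_mk]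
  refine congrArg (fun v => Additive.ofMul (Kum.mk v)) (Subtype.ext (Units.ext (Subtype.ext ?_)))
  exact h.symm

/-- **`D_mk`, relational form**: if `u' = dia d u` then `D d [u] = [u']`. -/
theorem kumModel1_D_cls_of_eq (d : (ZMod M)ˣ) (u u' : pDivUnits Kb (FL F₀) p)
    (h : (((u' : pDivUnits Kb (FL F₀) p) : (FL F₀)ˣ) : FL F₀) =
      dia d (((u : pDivUnits Kb (FL F₀) p) : (FL F₀)ˣ) : FL F₀)) :
    (kumModel1 p dia hδ hM hD hI hF).D d (cls hδ hM hD hI hF u) = cls hδ hM hD hI hF u' := by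
  show DEnd p (dia d) (Additive.ofMul (Kum.mk u)) = Additive.ofMul (Kum.mk u')
  rw [DEnd_mk]
  refine congrArg (fun v => Additive.ofMul (Kum.mk v)) (Subtype.ext (Units.ext ?_))
  exact h.symm

/-- **(EIG1), relational form, for an eigensystem `(a, χ)`**: finitely many `p`-divisible units
`u i` and coefficients `c i ∈ k0` with `∑ c i ⊗ [u i] ≠ 0` in `k0 ⊗ Kum`, on which the Hecke norms
with nebentypus act through `a ℓ` and the diamond automorphisms through `χ d`.  This is the export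
of P3 for `a ℓ := θ (T_ℓ)`, `χ d := θ ⟨d⟩`. -/
def EIG1Rel (F₀ : IntermediateField ℚ (LaurentSeries ℚ)) {M : ℕ} [NeZero M] (p : ℕ)
    (dia : (ZMod M)ˣ → (FL F₀ ≃ₐ[Kb] FL F₀)) (k0 : Type) [Field k0] (a : ℕ → k0)
    (χ : (ZMod M)ˣ →* k0ˣ) : Prop :=
  ∃ (n : ℕ) (c : Fin n → k0) (u : Fin n → pDivUnits Kb (FL F₀) p),
    tens c u ≠ 0 ∧
    (∀ (ℓ : ℕ) (hℓ : ℓ.Prime) (hℓMp : ¬ ℓ ∣ M * p),
      ∃ u' : Fin n → pDivUnits Kb (FL F₀) p,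
        (∀ i, ((((u' i : pDivUnits Kb (FL F₀) p) : (FL F₀)ˣ) : FL F₀) : LaurentSeries Kb) =
          @hn1Series F₀ ℓ ⟨hℓ.ne_zero⟩ (diaP dia hℓ (not_dvd_left_of_not_dvd_mul hℓMp))
            (((u i : pDivUnits Kb (FL F₀) p) : (FL F₀)ˣ) : FL F₀)) ∧
        tens c u' = a ℓ • tens c u) ∧
    ∀ d : (ZMod M)ˣ, ∃ u' : Fin n → pDivUnits Kb (FL F₀) p,
      (∀ i, (((u' i : pDivUnits Kb (FL F₀) p) : (FL F₀)ˣ) : FL F₀) =
        dia d (((u i : pDivUnits Kb (FL F₀) p) : (FL F₀)ˣ) : FL F₀)) ∧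
      tens c u' = ((χ d : k0ˣ) : k0) • tens c u

/-- **The (EIG1) → `HasEigen1` adapter.** -/
theorem hasEigen1_of_rel (k0 : Type) [Field k0] [Algebra (ZMod p) k0] (a : ℕ → k0)
    (χ : (ZMod M)ˣ →* k0ˣ) (h : EIG1Rel F₀ p dia k0 a χ) :
    (kumModel1 p dia hδ hM hD hI hF).HasEigen1 k0 a χ := by
  obtain ⟨n, c, u, hne, hT, hDia⟩ := h
  refine ⟨∑ i, c i ⊗ₜ[ZMod p] cls hδ hM hD hI hF (u i),
    EigAdapter.sum_tmul_ne_zero p k0 _ c (fun i => cls hδ hM hD hI hF (u i)) hne, ?_, ?_⟩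
  · intro ℓ hℓ hℓMp
    obtain ⟨u', hu', hrel⟩ := hT ℓ hℓ hℓMp
    refine EigAdapter.baseChange_eq_smul_of_rel p k0 _ _ (a ℓ) c
      (fun i => cls hδ hM hD hI hF (u i)) ?_
    have h1 : ∀ i, (kumModel1 p dia hδ hM hD hI hF).T ℓ (cls hδ hM hD hI hF (u i)) =
        cls hδ hM hD hI hF (u' i) := fun i =>
      kumModel1_T_cls_of_eq hδ hM hD hI hF hℓ (not_dvd_left_of_not_dvd_mul hℓMp) (u i) (u' i)
        (hu' i)
    simp only [h1]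
    exact hrel
  · intro d
    obtain ⟨u', hu', hrel⟩ := hDia d
    refine EigAdapter.baseChange_eq_smul_of_rel p k0 _ _ _ c
      (fun i => cls hδ hM hD hI hF (u i)) ?_
    have h1 : ∀ i, (kumModel1 p dia hδ hM hD hI hF).D d (cls hδ hM hD hI hF (u i)) =
        cls hδ hM hD hI hF (u' i) := fun i =>
      kumModel1_D_cls_of_eq hδ hM hD hI hF d (u i) (u' i) (hu' i)
    simp only [h1]
    exact hrel

include hδ hM hD hI hF in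
/-- **P5, concrete form**: the inputs of the port in hypothesis form give the mod-`p`
representation attached to every eigensystem `(a, χ)` occurring in `k0 ⊗ Kum_p(FL)`. -/
theorem exists_rep_of_rel (k0 : Type) [Field k0] [Algebra (ZMod p) k0] [Finite k0] [CharP k0 p]
    [Fact p.Prime] (a : ℕ → k0) (χ : (ZMod M)ˣ →* k0ˣ) (h : EIG1Rel F₀ p dia k0 a χ) :
    ∃ ρ : GQ →* Matrix.GeneralLinearGroup (Fin 2) k0, GaloisFactorsThroughFiniteLevel ρ ∧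
      ∀ (ℓ : ℕ) (hℓ : ℓ.Prime) (hℓMp : ¬ ℓ ∣ M * p) (A : ValuationSubring Kb),
        A.LiesOverPrime ℓ →
        (∀ σ ∈ A.inertiaSubgroupIn ℚ, ρ σ = 1) ∧
        ∀ τ : GQ, A.IsFrobeniusAt τ ℓ →
          ((ρ τ : Matrix.GeneralLinearGroup (Fin 2) k0) : Matrix (Fin 2) (Fin 2) k0).trace = a ℓ ∧
          ((ρ τ : Matrix.GeneralLinearGroup (Fin 2) k0) : Matrix (Fin 2) (Fin 2) k0).det =
            (ℓ : k0) * ((χ (unitOfPrime hℓ (not_dvd_left_of_not_dvd_mul hℓMp)) : k0ˣ) : k0) :=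
  (kumModel1 p dia hδ hM hD hI hF).exists_rep k0 a χ (hasEigen1_of_rel hδ hM hD hI hF k0 a χ h)

end API

end Model

end Fermat.Agent.DS.P5.KumType1
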