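/-
GATE-N / S48-P5 (helper69): the KUM1 interface of the `Γ₁(M)` port, in terms of helper18's Hecke
algebra `heckeAlgebra1 M 2 S` (twin of helper22's `GJ/J4/S29Final.KUM`).

For a ring hom `θ : heckeAlgebra1 M 2 S →+* k0` (`k0` a finite field of characteristic `p`):
`aOf θ ℓ := θ (T_ℓ)`, `chiOf θ d := θ ⟨d⟩`.  If P3 exports (EIG1) for every such `θ`
(`EIG1All`), and P0/P1/P2/P4 export the element-level inputs of `KumType1.kumModel1`, then every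
`θ` has a mod-`p` Galois representation `ρ : G_ℚ →* GL₂(k0)` of finite level, unramified outside
`Mp`, with `tr ρ(Frob_ℓ) = θ (T_ℓ)` and `det ρ(Frob_ℓ) = ℓ · θ ⟨ℓ⟩`  (`exists_rep_of_theta`).
-/
import Mathlib
import Fermat.Agent.DS.Hecke.HeckeAlgebra1
import Fermat.Agent.DS.P5.KumType1

set_option autoImplicit false
set_option linter.style.haveILetI false

noncomputable section

namespace Fermat.Agent.DS.P5.Final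

open Fermat.Agent.DS.Hecke Fermat.Agent.DS.P5.KumType1 Fermat.Agent.GJ.KumGroup

/-- `G_ℚ`. -/
local notation "GQ" => (AlgebraicClosure ℚ ≃ₐ[ℚ] AlgebraicClosure ℚ)

variable {M : ℕ} [NeZero M] {S : Set ℕ}

/-- The eigenvalue function `ℓ ↦ θ (T_ℓ)` (junk `0` unless `ℓ` is a prime with `ℓ ∤ M`,
`ℓ ∉ S`). -/
def aOf {k0 : Type} [Field k0] (θ : heckeAlgebra1 M 2 S →+* k0) (ℓ : ℕ) : k0 := by
  classical
  exact if h : ℓ.Prime ∧ ¬ ℓ ∣ M ∧ ℓ ∉ S then θ (heckeAlgebra1.T h.1 h.2.1 h.2.2) else 0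

theorem aOf_eq {k0 : Type} [Field k0] (θ : heckeAlgebra1 M 2 S →+* k0) {ℓ : ℕ} (hℓ : ℓ.Prime)
    (hℓM : ¬ ℓ ∣ M) (hℓS : ℓ ∉ S) : aOf θ ℓ = θ (heckeAlgebra1.T hℓ hℓM hℓS) := by
  classical
  unfold aOf
  rw [dif_pos ⟨hℓ, hℓM, hℓS⟩]

/-- The nebentypus `d ↦ θ ⟨d⟩` of the eigensystem `θ`. -/
def chiOf {k0 : Type} [Field k0] (θ : heckeAlgebra1 M 2 S →+* k0) : (ZMod M)ˣ →* k0ˣ :=
  ((θ : heckeAlgebra1 M 2 S →* k0).comp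
    (heckeAlgebra1.DHom : (ZMod M)ˣ →* heckeAlgebra1 M 2 S)).toHomUnits

@[simp]
theorem coe_chiOf {k0 : Type} [Field k0] (θ : heckeAlgebra1 M 2 S →+* k0) (d : (ZMod M)ˣ) :
    ((chiOf θ d : k0ˣ) : k0) = θ (heckeAlgebra1.D d) := rfl

/-- **P3's export (EIG1)** for every mod-`p` eigensystem of the weight-2 Hecke algebra of
`Γ₁(M)` away from `S`. -/
def EIG1All (F₀ : IntermediateField ℚ (LaurentSeries ℚ)) (p : ℕ)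
    (dia : (ZMod M)ˣ → (FL F₀ ≃ₐ[Kb] FL F₀)) (S : Set ℕ) : Prop :=
  ∀ (k0 : Type) [Field k0] [Finite k0] [CharP k0 p] (θ : heckeAlgebra1 M 2 S →+* k0),
    EIG1Rel F₀ p dia k0 (aOf θ) (chiOf θ)

/-- **KUM1**: the mod-`p` Galois representation of every eigensystem `θ` of the weight-2 Hecke
algebra of `Γ₁(M)`, from the named exports of P0–P4 (hypothesis form). -/
theorem exists_rep_of_theta {F₀ : IntermediateField ℚ (LaurentSeries ℚ)} {p : ℕ} [Fact p.Prime]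
    {dia : (ZMod M)ˣ → (FL F₀ ≃ₐ[Kb] FL F₀)}
    (hδ : ∀ u, DiaComm (dia u))
    (hM : ∀ (ℓ : ℕ) (hℓ : ℓ.Prime) (hℓM : ¬ ℓ ∣ M), HNMem1 ℓ (diaP dia hℓ hℓM))
    (hD : ∀ (ℓ : ℕ) (hℓ : ℓ.Prime) (hℓM : ¬ ℓ ∣ M), HNDiv1 p ℓ (diaP dia hℓ hℓM))
    (hI : ∀ ℓ : ℕ, ℓ.Prime → ¬ ℓ ∣ M * p → ESInertia1 F₀ p ℓ)
    (hF : ∀ (ℓ : ℕ) (hℓ : ℓ.Prime) (hℓMp : ¬ ℓ ∣ M * p),
      ESFrob1 p ℓ (diaP dia hℓ (not_dvd_left_of_not_dvd_mul hℓMp)))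
    (hS : ∀ ℓ : ℕ, ℓ.Prime → ¬ ℓ ∣ M * p → ℓ ∉ S)
    (hE : EIG1All F₀ p dia S)
    (k0 : Type) [Field k0] [Finite k0] [CharP k0 p] (θ : heckeAlgebra1 M 2 S →+* k0) :
    ∃ ρ : GQ →* Matrix.GeneralLinearGroup (Fin 2) k0, GaloisFactorsThroughFiniteLevel ρ ∧
      ∀ (ℓ : ℕ) (hℓ : ℓ.Prime) (hℓMp : ¬ ℓ ∣ M * p) (A : ValuationSubring Kb),
        A.LiesOverPrime ℓ →
        (∀ σ ∈ A.inertiaSubgroupIn ℚ, ρ σ = 1) ∧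
        ∀ τ : GQ, A.IsFrobeniusAt τ ℓ →
          ((ρ τ : Matrix.GeneralLinearGroup (Fin 2) k0) : Matrix (Fin 2) (Fin 2) k0).trace =
            θ (heckeAlgebra1.T hℓ (not_dvd_left_of_not_dvd_mul hℓMp) (hS ℓ hℓ hℓMp)) ∧
          ((ρ τ : Matrix.GeneralLinearGroup (Fin 2) k0) : Matrix (Fin 2) (Fin 2) k0).det =
            (ℓ : k0) *
              θ (heckeAlgebra1.D (unitOfPrime hℓ (not_dvd_left_of_not_dvd_mul hℓMp))) := by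
  letI : Algebra (ZMod p) k0 := ZMod.algebra k0 p
  obtain ⟨ρ, hlev, hρ⟩ := exists_rep_of_rel hδ hM hD hI hF k0 (aOf θ) (chiOf θ) (hE k0 θ)
  refine ⟨ρ, hlev, fun ℓ hℓ hℓMp A hA => ⟨(hρ ℓ hℓ hℓMp A hA).1, fun τ hτ => ?_⟩⟩
  obtain ⟨h1, h2⟩ := (hρ ℓ hℓ hℓMp A hA).2 τ hτ
  refine ⟨?_, ?_⟩
  · rw [h1, aOf_eq θ hℓ (not_dvd_left_of_not_dvd_mul hℓMp) (hS ℓ hℓ hℓMp)]
  · rw [h2, coe_chiOf]

end Fermat.Agent.DS.P5.Final
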