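/-
GATE-N / S48-P5 (helper69): KUM1 for the eigenvalues that P3 ACTUALLY delivers (helper42, board
3526 (2); helper22, PORT RULING 1, A3).

P3 (`DS/P3/EigFinalHyp.eig1Rel_of_hyps` at helper42's triple) exports, for an eigensystem
`θ : heckeAlgebra1 M 2 S →+* k0` of the STANDARD operators, the relation
`EIG1Rel F₀ p dia k0 a' χ'` for the MODULI operators `hn1Series ℓ (dia_ℓ)`, `dia d` with
`a' ℓ = θ(T_ℓ) / θ⟨ℓ⟩` and `χ' = (chiOf θ)⁻¹` (because `dia d = ⟨d⟩_std⁻¹` and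
`HN1_ℓ = dia_ℓ ∘ T_ℓ(std)`), NOT with `(θ T_ℓ, θ⟨d⟩)` as `Final.EIG1All` asks.

`KumType1.exists_rep_of_rel` at `(a', χ')` gives `ρ'` with `tr ρ'(Frob_ℓ) = a' ℓ`,
`det ρ'(Frob_ℓ) = ℓ / θ⟨ℓ⟩`; the twist `ρ := dirChar (chiOf θ) ⊗ ρ'` has
`tr ρ(Frob_ℓ) = θ(T_ℓ)`, `det ρ(Frob_ℓ) = ℓ · θ⟨ℓ⟩`: the SAME conclusion as
`Final.exists_rep_of_theta`, from the hypothesis P3 can prove.

* `twistGL c ρ` : the twist of a `GL₂`-representation by a character, with trace, determinant,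
  finite level;
* `exists_rep_of_rel2` : per-eigensystem form (`a' ℓ * χ(ℓ) = a ℓ`, `EIG1Rel … a' χ⁻¹`);
* `aDual θ`, `EIG1All2`, `EIG1All2'`, `exists_rep_of_theta2` : the `heckeAlgebra1 M 2 S` form.
-/
import Mathlib
import Fermat.Agent.DS.P5.Final

set_option autoImplicit false
set_option linter.style.haveILetI false

noncomputable section

open scoped MatrixGroups

namespace Fermat.Agent.DS.P5.Final2

open Fermat.Agent.DS.Hecke Fermat.Agent.DS.P5.KumType1 Fermat.Agent.GJ.KumGroup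
  Fermat.Agent.DS.P5.Final

/-- `ℚ̄`. -/
local notation "Qb" => AlgebraicClosure ℚ
/-- `G_ℚ`. -/
local notation "GQ" => (AlgebraicClosure ℚ ≃ₐ[ℚ] AlgebraicClosure ℚ)

/-! ### Twisting a `GL₂`-representation by a character -/

section Twist

variable {k0 : Type} [Field k0]

/-- Scalar matrices, as a homomorphism `k0ˣ →* GL₂(k0)`. -/
def scalarGL : k0ˣ →* GL (Fin 2) k0 :=
  Units.map ((Matrix.scalar (Fin 2) : k0 →+* Matrix (Fin 2) (Fin 2) k0) : k0 →* _)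

theorem coe_scalarGL (c : k0ˣ) :
    ((scalarGL c : GL (Fin 2) k0) : Matrix (Fin 2) (Fin 2) k0) =
      Matrix.scalar (Fin 2) ((c : k0ˣ) : k0) := rfl

theorem scalarGL_comm (c : k0ˣ) (g : GL (Fin 2) k0) : scalarGL c * g = g * scalarGL c := by
  apply Units.ext
  rw [Units.val_mul, Units.val_mul, coe_scalarGL]
  exact (Matrix.scalar_commute ((c : k0ˣ) : k0) (fun r => Commute.all _ _) _).eq

/-- The twist `c ⊗ ρ` of a `GL₂`-representation by a character. -/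
def twistGL (c : GQ →* k0ˣ) (ρ : GQ →* GL (Fin 2) k0) : GQ →* GL (Fin 2) k0 where
  toFun σ := scalarGL (c σ) * ρ σ
  map_one' := by rw [map_one, map_one, map_one, one_mul]
  map_mul' σ τ := by
    rw [map_mul, map_mul, map_mul, mul_assoc, ← mul_assoc (scalarGL (c τ)),
      scalarGL_comm (c τ) (ρ σ), mul_assoc, ← mul_assoc]

theorem twistGL_apply (c : GQ →* k0ˣ) (ρ : GQ →* GL (Fin 2) k0) (σ : GQ) :
    twistGL c ρ σ = scalarGL (c σ) * ρ σ := rfl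

theorem coe_twistGL (c : GQ →* k0ˣ) (ρ : GQ →* GL (Fin 2) k0) (σ : GQ) :
    ((twistGL c ρ σ : GL (Fin 2) k0) : Matrix (Fin 2) (Fin 2) k0) =
      ((c σ : k0ˣ) : k0) • ((ρ σ : GL (Fin 2) k0) : Matrix (Fin 2) (Fin 2) k0) := by
  rw [twistGL_apply, Units.val_mul, coe_scalarGL, Matrix.scalar_apply,
    ← Matrix.smul_eq_diagonal_mul]

theorem trace_twistGL (c : GQ →* k0ˣ) (ρ : GQ →* GL (Fin 2) k0) (σ : GQ) :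
    ((twistGL c ρ σ : GL (Fin 2) k0) : Matrix (Fin 2) (Fin 2) k0).trace =
      ((c σ : k0ˣ) : k0) * ((ρ σ : GL (Fin 2) k0) : Matrix (Fin 2) (Fin 2) k0).trace := by
  rw [coe_twistGL, Matrix.trace_smul, smul_eq_mul]

theorem det_twistGL (c : GQ →* k0ˣ) (ρ : GQ →* GL (Fin 2) k0) (σ : GQ) :
    ((twistGL c ρ σ : GL (Fin 2) k0) : Matrix (Fin 2) (Fin 2) k0).det =
      ((c σ : k0ˣ) : k0) ^ 2 * ((ρ σ : GL (Fin 2) k0) : Matrix (Fin 2) (Fin 2) k0).det := by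
  rw [coe_twistGL, Matrix.det_smul, Fintype.card_fin]

theorem twistGL_eq_one {c : GQ →* k0ˣ} {ρ : GQ →* GL (Fin 2) k0} {σ : GQ} (h1 : c σ = 1)
    (h2 : ρ σ = 1) : twistGL c ρ σ = 1 := by
  rw [twistGL_apply, h1, h2, map_one, one_mul]

theorem twistGL_finiteLevel {c : GQ →* k0ˣ} {ρ : GQ →* GL (Fin 2) k0}
    (hc : GaloisFactorsThroughFiniteLevel c) (hρ : GaloisFactorsThroughFiniteLevel ρ) :
    GaloisFactorsThroughFiniteLevel (twistGL c ρ) := by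
  obtain ⟨L, hL, h⟩ := hc
  obtain ⟨L', hL', h'⟩ := hρ
  have : FiniteDimensional ℚ L := hL
  have : FiniteDimensional ℚ L' := hL'
  refine ⟨L ⊔ L', IntermediateField.finiteDimensional_sup L L', fun σ hσ => ?_⟩
  exact twistGL_eq_one (h σ fun x hx => hσ x ((le_sup_left : L ≤ L ⊔ L') hx))
    (h' σ fun x hx => hσ x ((le_sup_right : L' ≤ L ⊔ L') hx))

end Twist

/-! ### The per-eigensystem form -/

section Rel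

variable {F₀ : IntermediateField ℚ (LaurentSeries ℚ)} {M : ℕ} [NeZero M] {p : ℕ}
  {dia : (ZMod M)ˣ → (FL F₀ ≃ₐ[Kb] FL F₀)}

/-- **P5 for the dual eigenvalues.**  If the MODULI operators `hn1Series ℓ (dia_ℓ)`, `dia d` act
on a nonzero vector of `k0 ⊗ Kum_p(FL)` through `a' ℓ`, `χ⁻¹ d` with `a' ℓ * χ(ℓ) = a ℓ`
(i.e. the STANDARD operators `T_ℓ`, `⟨d⟩ = dia d⁻¹` act through `a ℓ`, `χ d`), then there is
`ρ` with `tr ρ(Frob_ℓ) = a ℓ`, `det ρ(Frob_ℓ) = ℓ · χ(ℓ)`. -/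
theorem exists_rep_of_rel2 [Fact p.Prime]
    (hδ : ∀ u, DiaComm (dia u))
    (hM : ∀ (ℓ : ℕ) (hℓ : ℓ.Prime) (hℓM : ¬ ℓ ∣ M), HNMem1 ℓ (diaP dia hℓ hℓM))
    (hD : ∀ (ℓ : ℕ) (hℓ : ℓ.Prime) (hℓM : ¬ ℓ ∣ M), HNDiv1 p ℓ (diaP dia hℓ hℓM))
    (hI : ∀ ℓ : ℕ, ℓ.Prime → ¬ ℓ ∣ M * p → ESInertia1 F₀ p ℓ)
    (hF : ∀ (ℓ : ℕ) (hℓ : ℓ.Prime) (hℓMp : ¬ ℓ ∣ M * p),
      ESFrob1 p ℓ (diaP dia hℓ (not_dvd_left_of_not_dvd_mul hℓMp)))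
    (k0 : Type) [Field k0] [Algebra (ZMod p) k0] [Finite k0] [CharP k0 p]
    (a a' : ℕ → k0) (χ : (ZMod M)ˣ →* k0ˣ)
    (ha : ∀ (ℓ : ℕ) (hℓ : ℓ.Prime) (hℓMp : ¬ ℓ ∣ M * p),
      a' ℓ * ((χ (unitOfPrime hℓ (not_dvd_left_of_not_dvd_mul hℓMp)) : k0ˣ) : k0) = a ℓ)
    (h : EIG1Rel F₀ p dia k0 a' χ⁻¹) :
    ∃ ρ : GQ →* GL (Fin 2) k0, GaloisFactorsThroughFiniteLevel ρ ∧
      ∀ (ℓ : ℕ) (hℓ : ℓ.Prime) (hℓMp : ¬ ℓ ∣ M * p) (A : ValuationSubring Qb),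
        A.LiesOverPrime ℓ →
        (∀ σ ∈ A.inertiaSubgroupIn ℚ, ρ σ = 1) ∧
        ∀ τ : GQ, A.IsFrobeniusAt τ ℓ →
          ((ρ τ : GL (Fin 2) k0) : Matrix (Fin 2) (Fin 2) k0).trace = a ℓ ∧
          ((ρ τ : GL (Fin 2) k0) : Matrix (Fin 2) (Fin 2) k0).det =
            (ℓ : k0) * ((χ (unitOfPrime hℓ (not_dvd_left_of_not_dvd_mul hℓMp)) : k0ˣ) : k0) := by
  obtain ⟨ρ', hlev, hρ'⟩ := exists_rep_of_rel hδ hM hD hI hF k0 a' χ⁻¹ h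
  refine ⟨twistGL (dirChar χ) ρ', twistGL_finiteLevel (dirChar_finiteLevel χ) hlev,
    fun ℓ hℓ hℓMp A hA => ⟨fun σ hσ => ?_, fun τ hτ => ?_⟩⟩
  · exact twistGL_eq_one (dirChar_inertia χ hℓ (not_dvd_left_of_not_dvd_mul hℓMp) hA hσ)
      ((hρ' ℓ hℓ hℓMp A hA).1 σ hσ)
  · obtain ⟨h1, h2⟩ := (hρ' ℓ hℓ hℓMp A hA).2 τ hτ
    have hc : dirChar χ τ = χ (unitOfPrime hℓ (not_dvd_left_of_not_dvd_mul hℓMp)) :=
      dirChar_frob χ hℓ (not_dvd_left_of_not_dvd_mul hℓMp) hA hτ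
    refine ⟨?_, ?_⟩
    · rw [trace_twistGL, h1, hc, mul_comm, ha ℓ hℓ hℓMp]
    · rw [det_twistGL, h2, hc, MonoidHom.inv_apply, Units.val_inv_eq_inv_val]
      have hne : ((χ (unitOfPrime hℓ (not_dvd_left_of_not_dvd_mul hℓMp)) : k0ˣ) : k0) ≠ 0 :=
        Units.ne_zero _
      field_simp

end Rel

/-! ### The `heckeAlgebra1 M 2 S` form -/

section Theta

variable {M : ℕ} [NeZero M] {S : Set ℕ}

/-- The eigenvalue of the MODULI Hecke operator `HN1_ℓ = dia_ℓ ∘ T_ℓ(std)` on a `θ`-eigenvector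
of the standard operators: `ℓ ↦ θ(T_ℓ) · θ⟨ℓ⟩⁻¹` (junk `0` unless `ℓ` is a prime with `ℓ ∤ M`,
`ℓ ∉ S`). -/
def aDual {k0 : Type} [Field k0] (θ : heckeAlgebra1 M 2 S →+* k0) (ℓ : ℕ) : k0 := by
  classical
  exact if h : ℓ.Prime ∧ ¬ ℓ ∣ M ∧ ℓ ∉ S then
    θ (heckeAlgebra1.T h.1 h.2.1 h.2.2) * (θ (heckeAlgebra1.D (unitOfPrime h.1 h.2.1)))⁻¹
  else 0

theorem aDual_eq {k0 : Type} [Field k0] (θ : heckeAlgebra1 M 2 S →+* k0) {ℓ : ℕ} (hℓ : ℓ.Prime)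
    (hℓM : ¬ ℓ ∣ M) (hℓS : ℓ ∉ S) :
    aDual θ ℓ = θ (heckeAlgebra1.T hℓ hℓM hℓS) *
      (θ (heckeAlgebra1.D (unitOfPrime hℓ hℓM)))⁻¹ := by
  classical
  unfold aDual
  rw [dif_pos ⟨hℓ, hℓM, hℓS⟩]

theorem aDual_mul {k0 : Type} [Field k0] (θ : heckeAlgebra1 M 2 S →+* k0) {ℓ : ℕ} (hℓ : ℓ.Prime)
    (hℓM : ¬ ℓ ∣ M) (hℓS : ℓ ∉ S) :
    aDual θ ℓ * θ (heckeAlgebra1.D (unitOfPrime hℓ hℓM)) = θ (heckeAlgebra1.T hℓ hℓM hℓS) := by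
  have hne : θ (heckeAlgebra1.D (unitOfPrime hℓ hℓM)) ≠ 0 := by
    rw [← coe_chiOf]
    exact Units.ne_zero _
  rw [aDual_eq θ hℓ hℓM hℓS, mul_assoc, inv_mul_cancel₀ hne, mul_one]

/-- **P3's export, flexible form**: for every mod-`p` eigensystem `θ` of the standard operators,
the moduli operators act on some nonzero vector of `k0 ⊗ Kum_p(FL)` through `(a', (chiOf θ)⁻¹)`
for SOME `a'` with `a' ℓ · θ⟨ℓ⟩ = θ(T_ℓ)` at the good primes. -/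
def EIG1All2 (F₀ : IntermediateField ℚ (LaurentSeries ℚ)) (p : ℕ)
    (dia : (ZMod M)ˣ → (FL F₀ ≃ₐ[Kb] FL F₀)) (S : Set ℕ) : Prop :=
  ∀ (k0 : Type) [Field k0] [Finite k0] [CharP k0 p] (θ : heckeAlgebra1 M 2 S →+* k0),
    ∃ a' : ℕ → k0,
      (∀ (ℓ : ℕ) (hℓ : ℓ.Prime) (hℓM : ¬ ℓ ∣ M) (hℓS : ℓ ∉ S),
        a' ℓ * θ (heckeAlgebra1.D (unitOfPrime hℓ hℓM)) = θ (heckeAlgebra1.T hℓ hℓM hℓS)) ∧
      EIG1Rel F₀ p dia k0 a' (chiOf θ)⁻¹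

/-- **P3's export, canonical form** (helper42, board 3526 (2)): `a' := aDual θ`. -/
def EIG1All2' (F₀ : IntermediateField ℚ (LaurentSeries ℚ)) (p : ℕ)
    (dia : (ZMod M)ˣ → (FL F₀ ≃ₐ[Kb] FL F₀)) (S : Set ℕ) : Prop :=
  ∀ (k0 : Type) [Field k0] [Finite k0] [CharP k0 p] (θ : heckeAlgebra1 M 2 S →+* k0),
    EIG1Rel F₀ p dia k0 (aDual θ) (chiOf θ)⁻¹

theorem EIG1All2_of_canonical {F₀ : IntermediateField ℚ (LaurentSeries ℚ)} {p : ℕ}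
    {dia : (ZMod M)ˣ → (FL F₀ ≃ₐ[Kb] FL F₀)} (h : EIG1All2' F₀ p dia S) :
    EIG1All2 F₀ p dia S := fun k0 _ _ _ θ =>
  ⟨aDual θ, fun _ hℓ hℓM hℓS => aDual_mul θ hℓ hℓM hℓS, h k0 θ⟩

/-- **KUM1, per eigensystem**: the mod-`p` Galois representation of an eigensystem `θ` of the
weight-2 Hecke algebra of `Γ₁(M)`, from the named exports of P0–P4 and P3's relation for the
dual eigenvalues. -/
theorem exists_rep_of_theta_rel2 {F₀ : IntermediateField ℚ (LaurentSeries ℚ)} {p : ℕ}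
    [Fact p.Prime] {dia : (ZMod M)ˣ → (FL F₀ ≃ₐ[Kb] FL F₀)}
    (hδ : ∀ u, DiaComm (dia u))
    (hM : ∀ (ℓ : ℕ) (hℓ : ℓ.Prime) (hℓM : ¬ ℓ ∣ M), HNMem1 ℓ (diaP dia hℓ hℓM))
    (hD : ∀ (ℓ : ℕ) (hℓ : ℓ.Prime) (hℓM : ¬ ℓ ∣ M), HNDiv1 p ℓ (diaP dia hℓ hℓM))
    (hI : ∀ ℓ : ℕ, ℓ.Prime → ¬ ℓ ∣ M * p → ESInertia1 F₀ p ℓ)
    (hF : ∀ (ℓ : ℕ) (hℓ : ℓ.Prime) (hℓMp : ¬ ℓ ∣ M * p),
      ESFrob1 p ℓ (diaP dia hℓ (not_dvd_left_of_not_dvd_mul hℓMp)))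
    (hS : ∀ ℓ : ℕ, ℓ.Prime → ¬ ℓ ∣ M * p → ℓ ∉ S)
    (k0 : Type) [Field k0] [Finite k0] [CharP k0 p] (θ : heckeAlgebra1 M 2 S →+* k0)
    (a' : ℕ → k0)
    (ha' : ∀ (ℓ : ℕ) (hℓ : ℓ.Prime) (hℓM : ¬ ℓ ∣ M) (hℓS : ℓ ∉ S),
      a' ℓ * θ (heckeAlgebra1.D (unitOfPrime hℓ hℓM)) = θ (heckeAlgebra1.T hℓ hℓM hℓS))
    (hE : EIG1Rel F₀ p dia k0 a' (chiOf θ)⁻¹) :
    ∃ ρ : GQ →* GL (Fin 2) k0, GaloisFactorsThroughFiniteLevel ρ ∧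
      ∀ (ℓ : ℕ) (hℓ : ℓ.Prime) (hℓMp : ¬ ℓ ∣ M * p) (A : ValuationSubring Qb),
        A.LiesOverPrime ℓ →
        (∀ σ ∈ A.inertiaSubgroupIn ℚ, ρ σ = 1) ∧
        ∀ τ : GQ, A.IsFrobeniusAt τ ℓ →
          ((ρ τ : GL (Fin 2) k0) : Matrix (Fin 2) (Fin 2) k0).trace =
            θ (heckeAlgebra1.T hℓ (not_dvd_left_of_not_dvd_mul hℓMp) (hS ℓ hℓ hℓMp)) ∧
          ((ρ τ : GL (Fin 2) k0) : Matrix (Fin 2) (Fin 2) k0).det =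
            (ℓ : k0) *
              θ (heckeAlgebra1.D (unitOfPrime hℓ (not_dvd_left_of_not_dvd_mul hℓMp))) := by
  letI : Algebra (ZMod p) k0 := ZMod.algebra k0 p
  obtain ⟨ρ, hlev, hρ⟩ := exists_rep_of_rel2 hδ hM hD hI hF k0 (aOf θ) a' (chiOf θ)
    (fun ℓ hℓ hℓMp => by
      rw [coe_chiOf, ha' ℓ hℓ (not_dvd_left_of_not_dvd_mul hℓMp) (hS ℓ hℓ hℓMp),
        aOf_eq θ hℓ (not_dvd_left_of_not_dvd_mul hℓMp) (hS ℓ hℓ hℓMp)]) hE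
  refine ⟨ρ, hlev, fun ℓ hℓ hℓMp A hA => ⟨(hρ ℓ hℓ hℓMp A hA).1, fun τ hτ => ?_⟩⟩
  obtain ⟨h1, h2⟩ := (hρ ℓ hℓ hℓMp A hA).2 τ hτ
  refine ⟨?_, ?_⟩
  · rw [h1, aOf_eq θ hℓ (not_dvd_left_of_not_dvd_mul hℓMp) (hS ℓ hℓ hℓMp)]
  · rw [h2, coe_chiOf]

/-- **KUM1 (corrected hypothesis)**: same conclusion as `Final.exists_rep_of_theta`, from the
export `EIG1All2` that P3 can prove. -/
theorem exists_rep_of_theta2 {F₀ : IntermediateField ℚ (LaurentSeries ℚ)} {p : ℕ} [Fact p.Prime]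
    {dia : (ZMod M)ˣ → (FL F₀ ≃ₐ[Kb] FL F₀)}
    (hδ : ∀ u, DiaComm (dia u))
    (hM : ∀ (ℓ : ℕ) (hℓ : ℓ.Prime) (hℓM : ¬ ℓ ∣ M), HNMem1 ℓ (diaP dia hℓ hℓM))
    (hD : ∀ (ℓ : ℕ) (hℓ : ℓ.Prime) (hℓM : ¬ ℓ ∣ M), HNDiv1 p ℓ (diaP dia hℓ hℓM))
    (hI : ∀ ℓ : ℕ, ℓ.Prime → ¬ ℓ ∣ M * p → ESInertia1 F₀ p ℓ)
    (hF : ∀ (ℓ : ℕ) (hℓ : ℓ.Prime) (hℓMp : ¬ ℓ ∣ M * p),
      ESFrob1 p ℓ (diaP dia hℓ (not_dvd_left_of_not_dvd_mul hℓMp)))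
    (hS : ∀ ℓ : ℕ, ℓ.Prime → ¬ ℓ ∣ M * p → ℓ ∉ S)
    (hE : EIG1All2 F₀ p dia S)
    (k0 : Type) [Field k0] [Finite k0] [CharP k0 p] (θ : heckeAlgebra1 M 2 S →+* k0) :
    ∃ ρ : GQ →* GL (Fin 2) k0, GaloisFactorsThroughFiniteLevel ρ ∧
      ∀ (ℓ : ℕ) (hℓ : ℓ.Prime) (hℓMp : ¬ ℓ ∣ M * p) (A : ValuationSubring Qb),
        A.LiesOverPrime ℓ →
        (∀ σ ∈ A.inertiaSubgroupIn ℚ, ρ σ = 1) ∧
        ∀ τ : GQ, A.IsFrobeniusAt τ ℓ →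
          ((ρ τ : GL (Fin 2) k0) : Matrix (Fin 2) (Fin 2) k0).trace =
            θ (heckeAlgebra1.T hℓ (not_dvd_left_of_not_dvd_mul hℓMp) (hS ℓ hℓ hℓMp)) ∧
          ((ρ τ : GL (Fin 2) k0) : Matrix (Fin 2) (Fin 2) k0).det =
            (ℓ : k0) *
              θ (heckeAlgebra1.D (unitOfPrime hℓ (not_dvd_left_of_not_dvd_mul hℓMp))) := by
  obtain ⟨a', ha', hrel⟩ := hE k0 θ
  exact exists_rep_of_theta_rel2 hδ hM hD hI hF hS k0 θ a' ha' hrel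

end Theta

end Fermat.Agent.DS.P5.Final2
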