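/-
GATE-N / S48-P5 (helper69): the export of the `Γ₁(M)` port in helper4's shape
(`DS/N3/ThetaGate.PortExport`, board 3495 (iv)) for helper18's Hecke package `heckePkg1 M`
(`𝕋 := heckeAlgebra1 M 2 ∅`).

`portExport_heckePkg1` : from the named exports of P0/P1/P2/P4 (`DiaComm`, `HNMem1`, `HNDiv1`,
`ESInertia1`, `ESFrob1` for the moduli diamond family `dia`) and P3's eigen-relation for every
`θ : heckeAlgebra1 M 2 ∅ →+* ZMod ℓ` (dual eigenvalues, see `DS/P5/Final2.lean`), the property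
`PortExport (heckePkg1 M) ℓ` consumed by `N3.Theta.exists_rhobar_phi` (`GateModL'`).
-/
import Mathlib
import Fermat.Agent.DS.P5.Final2
import Fermat.Agent.DS.Hecke.HeckePkg1
import Fermat.Agent.DS.N3.ThetaGate

set_option autoImplicit false
set_option linter.style.haveILetI false

noncomputable section

open scoped MatrixGroups

namespace Fermat.Agent.DS.P5.PortExport1

open Fermat.Agent.DS.Hecke Fermat.Agent.DS.P5.KumType1 Fermat.Agent.GJ.KumGroup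
  Fermat.Agent.DS.P5.Final Fermat.Agent.DS.P5.Final2

/-- `ℚ̄`. -/
local notation "Qb" => AlgebraicClosure ℚ
/-- `G_ℚ`. -/
local notation "GQ" => (AlgebraicClosure ℚ ≃ₐ[ℚ] AlgebraicClosure ℚ)

theorem unitOf_eq_unitOfPrime {M p : ℕ} (hp : p.Prime) (hpM : ¬ p ∣ M) :
    Fermat.Agent.DS.N3.Theta.unitOf M p = unitOfPrime hp hpM := by
  apply Units.ext
  rw [Fermat.Agent.DS.N3.Theta.coe_unitOf ((Nat.Prime.coprime_iff_not_dvd hp).2 hpM),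
    coe_unitOfPrime]

variable {M : ℕ} [NeZero M]

/-- **P3's export at the prime field** (what `PortExport` needs): for every
`θ : heckeAlgebra1 M 2 ∅ →+* ZMod ℓ` the moduli operators act on some nonzero vector of
`ZMod ℓ ⊗ Kum_ℓ(FL)` through `(a', (chiOf θ)⁻¹)` with `a' q · θ⟨q⟩ = θ(T_q)`. -/
def EIG1Prime (F₀ : IntermediateField ℚ (LaurentSeries ℚ)) (ℓ : ℕ) [Fact ℓ.Prime]
    (dia : (ZMod M)ˣ → (FL F₀ ≃ₐ[Kb] FL F₀)) : Prop :=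
  ∀ θ : heckeAlgebra1 M 2 (∅ : Set ℕ) →+* ZMod ℓ,
    ∃ a' : ℕ → ZMod ℓ,
      (∀ (q : ℕ) (hq : q.Prime) (hqM : ¬ q ∣ M) (hqS : q ∉ (∅ : Set ℕ)),
        a' q * θ (heckeAlgebra1.D (unitOfPrime hq hqM)) = θ (heckeAlgebra1.T hq hqM hqS)) ∧
      EIG1Rel F₀ ℓ dia (ZMod ℓ) a' (chiOf θ)⁻¹

theorem eig1Prime_of_all2 {F₀ : IntermediateField ℚ (LaurentSeries ℚ)} {ℓ : ℕ} [Fact ℓ.Prime]
    {dia : (ZMod M)ˣ → (FL F₀ ≃ₐ[Kb] FL F₀)} (h : EIG1All2 F₀ ℓ dia (∅ : Set ℕ)) :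
    EIG1Prime F₀ ℓ dia := by
  haveI : NeZero ℓ := ⟨(Fact.out : ℓ.Prime).ne_zero⟩
  exact fun θ => h (ZMod ℓ) θ

/-- **`PortExport (heckePkg1 M) ℓ`** from the named exports of P0–P4 (hypothesis form). -/
theorem portExport_heckePkg1 {F₀ : IntermediateField ℚ (LaurentSeries ℚ)} {ℓ : ℕ}
    [Fact ℓ.Prime] {dia : (ZMod M)ˣ → (FL F₀ ≃ₐ[Kb] FL F₀)}
    (hδ : ∀ u, DiaComm (dia u))
    (hM : ∀ (q : ℕ) (hq : q.Prime) (hqM : ¬ q ∣ M), HNMem1 q (diaP dia hq hqM))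
    (hD : ∀ (q : ℕ) (hq : q.Prime) (hqM : ¬ q ∣ M), HNDiv1 ℓ q (diaP dia hq hqM))
    (hI : ∀ q : ℕ, q.Prime → ¬ q ∣ M * ℓ → ESInertia1 F₀ ℓ q)
    (hF : ∀ (q : ℕ) (hq : q.Prime) (hqMℓ : ¬ q ∣ M * ℓ),
      ESFrob1 ℓ q (diaP dia hq (not_dvd_left_of_not_dvd_mul hqMℓ)))
    (hE : EIG1Prime F₀ ℓ dia) :
    Fermat.Agent.DS.N3.Theta.PortExport (heckePkg1 M) ℓ := by
  haveI : NeZero ℓ := ⟨(Fact.out : ℓ.Prime).ne_zero⟩
  intro θ₀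
  let θ : heckeAlgebra1 M 2 (∅ : Set ℕ) →+* ZMod ℓ := θ₀
  obtain ⟨a', ha', hrel⟩ := hE θ
  obtain ⟨ρ, hlev, hρ⟩ := exists_rep_of_theta_rel2 (S := (∅ : Set ℕ)) hδ hM hD hI hF
    (fun q _ _ => Set.notMem_empty q) (ZMod ℓ) θ a' ha' hrel
  refine ⟨ρ, hlev, fun q hq hqMℓ A hA => ⟨(hρ q hq hqMℓ A hA).1, fun τ hτ => ?_⟩⟩
  obtain ⟨h1, h2⟩ := (hρ q hq hqMℓ A hA).2 τ hτ
  have hqM : ¬ q ∣ M := not_dvd_left_of_not_dvd_mul hqMℓ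
  refine ⟨?_, ?_⟩
  · rw [h1, heckePkg1_T M hq hqM]
    rfl
  · rw [h2, unitOf_eq_unitOfPrime hq hqM]
    rfl

end Fermat.Agent.DS.P5.PortExport1
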