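/-
GATE-N / S48-P5 (helper69): the CLASSICAL-convention concrete Kummer model of the `Γ₁(M)` port.

Convention gate (helper42, report 210 §0; helper17, board 3348): P4 proves the Eichler–Shimura
relation `ES1` for the MODULI diamond `[ℓ]` and the moduli Hecke norm
`HN1_ℓ u = u(q^ℓ) · N_ℓ([ℓ] u)`, whereas P3 produces eigenvectors for the CLASSICAL operators
`⟨d⟩ = [d]⁻¹` and `HNcl_ℓ u = N_ℓ(u) · (⟨ℓ⟩u)(q^ℓ)` (`T_ℓ = U_ℓ + ⟨ℓ⟩ V_ℓ`).  Since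
`HN1_ℓ (⟨ℓ⟩ y) = HNcl_ℓ y` holds DEFINITIONALLY, `ES1` at `⟨ℓ⟩u` is the standard relation
`τ² - T_ℓ^{cl} τ + ℓ ⟨ℓ⟩ = 0` for the classical operators, with no commutation between diamond and
Hecke operators and no twist.  Hence:

* `KumModel1W` : the standard Kummer model with `D` a plain function; `KumModel1W.exists_rep`;
* `kumModelCl` : the concrete model with `T ℓ = [HNcl_ℓ]`, `D d = [diaCl d]`, built from P4's outputs
  for `δ := (diaCl_ℓ).symm`;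
* `EIG1RelCl`, `exists_rep_of_relCl` : eigensystem `(a, χ)` of the CLASSICAL operators ⟹
  `ρ` with `tr ρ(Frob_ℓ) = a ℓ`, `det ρ(Frob_ℓ) = ℓ · χ(ℓ)`.
-/
import Mathlib
import Fermat.Agent.DS.P5.KumType1

set_option autoImplicit false
set_option linter.style.haveILetI false

noncomputable section

open scoped TensorProduct MatrixGroups

namespace Fermat.Agent.DS.P5

/-- `ℚ̄`. -/
local notation "Qb" => AlgebraicClosure ℚ
/-- `G_ℚ`. -/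
local notation "GQ" => (AlgebraicClosure ℚ ≃ₐ[ℚ] AlgebraicClosure ℚ)

open Fermat.Agent.GJ Fermat.Agent.GJ.J4Asm Fermat.Agent.GJ.FiniteLevel

/-! ### The standard model with `D` a plain function -/

/-- The abstract Kummer model of `J₁(M)[p]`, standard Eichler–Shimura relation
`τ² - T_ℓ τ + ℓ ⟨ℓ⟩ = 0`, with `D` a plain function (no multiplicativity, no `T`/`D`
commutation). -/
structure KumModel1W (M p : ℕ) [NeZero M] where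
  /-- the `𝔽_p`-vector space -/
  K : Type
  [instAddCommGroup : AddCommGroup K]
  [instModule : Module (ZMod p) K]
  /-- the Galois action -/
  gal : GQ →* Module.End (ZMod p) K
  /-- the Hecke operators -/
  T : ℕ → Module.End (ZMod p) K
  /-- the diamond operators -/
  D : (ZMod M)ˣ → Module.End (ZMod p) K
  T_comm_gal : ∀ (ℓ : ℕ) (σ : GQ), T ℓ * gal σ = gal σ * T ℓ
  D_comm_gal : ∀ (u : (ZMod M)ˣ) (σ : GQ), D u * gal σ = gal σ * D u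
  level : ∀ x : K, HasLevel (fun σ => gal σ x = x)
  inertia : ∀ ℓ : ℕ, ℓ.Prime → ¬ ℓ ∣ M * p → ∀ A : ValuationSubring Qb, A.LiesOverPrime ℓ →
    ∀ σ ∈ A.inertiaSubgroupIn ℚ, gal σ = 1
  frob : ∀ (ℓ : ℕ) (hℓ : ℓ.Prime) (hℓMp : ¬ ℓ ∣ M * p) (A : ValuationSubring Qb),
    A.LiesOverPrime ℓ → ∀ τ : GQ, A.IsFrobeniusAt τ ℓ →
      gal τ * gal τ - T ℓ * gal τ +
        (ℓ : ZMod p) • D (unitOfPrime hℓ (not_dvd_left_of_not_dvd_mul hℓMp)) = 0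

attribute [instance] KumModel1W.instAddCommGroup KumModel1W.instModule

namespace KumModel1W

variable {M p : ℕ} [NeZero M] (Mod : KumModel1W M p)

/-- The underlying Galois module. -/
@[reducible] def toGalMod : GalMod p where
  K := Mod.K
  gal := Mod.gal
  level := Mod.level

/-- (EIG): a simultaneous eigenvector in `k0 ⊗ K`. -/
def HasEigen1 (k0 : Type) [Field k0] [Algebra (ZMod p) k0] (a : ℕ → k0)
    (χ : (ZMod M)ˣ →* k0ˣ) : Prop :=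
  ∃ v : k0 ⊗[ZMod p] Mod.K, v ≠ 0 ∧
    (∀ ℓ : ℕ, ℓ.Prime → ¬ ℓ ∣ M * p → (Mod.T ℓ).baseChange k0 v = a ℓ • v) ∧
    ∀ u : (ZMod M)ˣ, (Mod.D u).baseChange k0 v = ((χ u : k0ˣ) : k0) • v

variable (k0 : Type) [Field k0] [Algebra (ZMod p) k0]

/-- The Eichler–Shimura relation, base-changed to `k0 ⊗ K`. -/
theorem frobB (ℓ : ℕ) (hℓ : ℓ.Prime) (hℓMp : ¬ ℓ ∣ M * p) (A : ValuationSubring Qb)
    (hA : A.LiesOverPrime ℓ) (τ : GQ) (hτ : A.IsFrobeniusAt τ ℓ) (w : k0 ⊗[ZMod p] Mod.K) :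
    Mod.toGalMod.galB k0 τ (Mod.toGalMod.galB k0 τ w) -
      (Mod.T ℓ).baseChange k0 (Mod.toGalMod.galB k0 τ w) +
      (ℓ : k0) • (Mod.D (unitOfPrime hℓ (not_dvd_left_of_not_dvd_mul hℓMp))).baseChange k0 w
        = 0 := by
  have h := Mod.frob ℓ hℓ hℓMp A hA τ hτ
  have h2 := congrArg
    (fun f => (LinearMap.baseChange k0 f : Module.End k0 (k0 ⊗[ZMod p] Mod.K))) h
  simp only [LinearMap.baseChange_add, LinearMap.baseChange_sub, LinearMap.baseChange_mul,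
    LinearMap.baseChange_smul, LinearMap.baseChange_zero] at h2
  have h3 := LinearMap.congr_fun h2 w
  simp only [LinearMap.add_apply, LinearMap.sub_apply, Module.End.mul_apply, LinearMap.smul_apply,
    LinearMap.zero_apply] at h3
  rw [← h3]
  show _ - _ + (ℓ : k0) • _ = _ - _ + (ℓ : ZMod p) • _
  congr 1
  rw [← algebraMap_smul k0 ((ℓ : ZMod p)), map_natCast]

/-- **(ESM) from a standard weak Kummer model with a simultaneous eigenvector.** -/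
theorem hasESModuleD [CharP k0 p] [Fact p.Prime] (a : ℕ → k0) (χ : (ZMod M)ˣ →* k0ˣ)
    (h : Mod.HasEigen1 k0 a χ) : HasESModuleD (M * p) k0 a (KumModel1.detChar k0 χ) := by
  obtain ⟨v, hv0, hvT, hvD⟩ := h
  refine ⟨Mod.toGalMod.orbitSpan k0 v, inferInstance, inferInstance, Mod.toGalMod.orbitRep k0 v,
    Mod.toGalMod.finite_orbitSpan k0 v, Mod.toGalMod.nontrivial_orbitSpan k0 hv0,
    Mod.toGalMod.finiteLevel_orbitRep k0 v, ?_, ?_⟩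
  · intro ℓ hℓ hℓMp A hA σ hσ
    exact Mod.toGalMod.orbitRep_eq_one k0 v (Mod.inertia ℓ hℓ hℓMp A hA σ hσ)
  · intro ℓ hℓ hℓMp A hA τ hτ
    ext w
    have h1 := Mod.frobB k0 ℓ hℓ hℓMp A hA τ hτ (w : k0 ⊗[ZMod p] Mod.toGalMod.K)
    have hw1 : Mod.toGalMod.galB k0 τ (w : k0 ⊗[ZMod p] Mod.toGalMod.K) ∈
        Mod.toGalMod.orbitSpan k0 v :=
      Mod.toGalMod.galB_mem_orbitSpan k0 v τ w.2
    rw [Mod.toGalMod.baseChange_eq_smul k0 (Mod.T ℓ) (Mod.T_comm_gal ℓ) v (a ℓ)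
        (hvT ℓ hℓ hℓMp) hw1,
      Mod.toGalMod.baseChange_eq_smul k0 (Mod.D _) (Mod.D_comm_gal _) v _ (hvD _) w.2, smul_smul,
      ← KumModel1.detChar_frob k0 χ hℓ hℓMp hA hτ] at h1
    exact h1

/-- **The output of the port** for a standard weak model. -/
theorem exists_rep [Finite k0] [CharP k0 p] [Fact p.Prime] (a : ℕ → k0)
    (χ : (ZMod M)ˣ →* k0ˣ) (h : Mod.HasEigen1 k0 a χ) :
    ∃ ρ : GQ →* GL (Fin 2) k0, GaloisFactorsThroughFiniteLevel ρ ∧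
      ∀ (ℓ : ℕ) (hℓ : ℓ.Prime) (hℓMp : ¬ ℓ ∣ M * p) (A : ValuationSubring Qb),
        A.LiesOverPrime ℓ →
        (∀ σ ∈ A.inertiaSubgroupIn ℚ, ρ σ = 1) ∧
        ∀ τ : GQ, A.IsFrobeniusAt τ ℓ →
          ((ρ τ : GL (Fin 2) k0) : Matrix (Fin 2) (Fin 2) k0).trace = a ℓ ∧
          ((ρ τ : GL (Fin 2) k0) : Matrix (Fin 2) (Fin 2) k0).det =
            (ℓ : k0) * ((χ (unitOfPrime hℓ (not_dvd_left_of_not_dvd_mul hℓMp)) : k0ˣ) : k0) := by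
  have hMp : M * p ≠ 0 := Nat.mul_ne_zero (NeZero.ne M) (Fact.out : p.Prime).ne_zero
  obtain ⟨ρ, hlev, hρ⟩ := exists_rep_of_esModuleD hMp (Alg.repTwoStmt_of_finite k0) a
    (KumModel1.detChar k0 χ) (KumModel1.isGoodDet_detChar k0 χ) (Mod.hasESModuleD k0 a χ h)
  refine ⟨ρ, hlev, fun ℓ hℓ hℓMp A hA => ⟨(hρ ℓ hℓ hℓMp A hA).1, fun τ hτ => ?_⟩⟩
  obtain ⟨h1, h2⟩ := (hρ ℓ hℓ hℓMp A hA).2 τ hτ
  exact ⟨h1, by rw [h2, KumModel1.detChar_frob k0 χ hℓ hℓMp hA hτ]⟩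

end KumModel1W

/-! ### The concrete classical model -/

namespace KumTypeCl

open AlgebraicCurve ModularCurve Fermat.Agent.GJ.KumGroup Fermat.Agent.GJ.Kum
  Fermat.Agent.GJ.Kum.KumType Fermat.Agent.DS.P5.KumType1

variable {F₀ : IntermediateField ℚ (LaurentSeries ℚ)}

/-- the CLASSICAL multiplicative Hecke operator on series: `u ↦ N_ℓ(u) · (δ u)(q^ℓ)`, `δ = ⟨ℓ⟩` -/
def hnclSeries (ℓ : ℕ) [NeZero ℓ] (δ : FL F₀ ≃ₐ[Kb] FL F₀) (u : FL F₀) : LaurentSeries Kb :=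
  normL ℓ (u : LaurentSeries Kb) * qExpand Kb ℓ ((δ u : FL F₀) : LaurentSeries Kb)

/-- `HN1_ℓ` for the moduli diamond `δ⁻¹`, evaluated at `δ y`, is `HNcl_ℓ y` for `δ`. -/
theorem hn1Series_symm_apply (ℓ : ℕ) [NeZero ℓ] (δ : FL F₀ ≃ₐ[Kb] FL F₀) (y : FL F₀) :
    hn1Series ℓ δ.symm (δ y) = hnclSeries ℓ δ y := by
  show qExpand Kb ℓ ((δ y : FL F₀) : LaurentSeries Kb) *
      normL ℓ ((δ.symm (δ y) : FL F₀) : LaurentSeries Kb) = _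
  rw [AlgEquiv.symm_apply_apply, mul_comm]
  rfl

theorem diaComm_symm {δ : FL F₀ ≃ₐ[Kb] FL F₀} (hδ : DiaComm δ) : DiaComm δ.symm := by
  intro σ x
  apply δ.injective
  rw [AlgEquiv.apply_symm_apply, hδ, AlgEquiv.apply_symm_apply]

theorem DEnd_symm_mul (p : ℕ) (δ : FL F₀ ≃ₐ[Kb] FL F₀) : DEnd p δ.symm * DEnd p δ = 1 := by
  show kumEnd _ _ * kumEnd _ _ = 1
  rw [kumEnd_mul, ← kumEnd_id]
  refine kumEnd_congr _ _ fun u _ => Units.ext ?_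
  show δ.symm (δ ((u : (FL F₀)ˣ) : FL F₀)) = _
  rw [AlgEquiv.symm_apply_apply]
  rfl

variable {M : ℕ} [NeZero M] (p : ℕ) (diaCl : (ZMod M)ˣ → (FL F₀ ≃ₐ[Kb] FL F₀))

/-- the MODULI diamond family `[d] = ⟨d⟩⁻¹` attached to the classical family -/
def diaMod : (ZMod M)ˣ → (FL F₀ ≃ₐ[Kb] FL F₀) := fun d => (diaCl d).symm

/-- the classical Hecke operator on the Kummer group: `[y] ↦ [HN1_ℓ (⟨ℓ⟩ y)] = [HNcl_ℓ y]` -/
def TCl (hM : ∀ (ℓ : ℕ) (hℓ : ℓ.Prime) (hℓM : ¬ ℓ ∣ M), HNMem1 ℓ (diaP (diaMod diaCl) hℓ hℓM))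
    (hD : ∀ (ℓ : ℕ) (hℓ : ℓ.Prime) (hℓM : ¬ ℓ ∣ M), HNDiv1 p ℓ (diaP (diaMod diaCl) hℓ hℓM))
    (ℓ : ℕ) : Module.End (ZMod p) (Additive (Kum Kb (FL F₀) p)) := by
  classical
  exact if h : ℓ.Prime ∧ ¬ ℓ ∣ M then
    TFam1 p (diaMod diaCl) hM hD ℓ * DEnd p (diaCl (unitOfPrime h.1 h.2))
  else 0

omit [NeZero M] in
theorem TCl_of_prime
    (hM : ∀ (ℓ : ℕ) (hℓ : ℓ.Prime) (hℓM : ¬ ℓ ∣ M), HNMem1 ℓ (diaP (diaMod diaCl) hℓ hℓM))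
    (hD : ∀ (ℓ : ℕ) (hℓ : ℓ.Prime) (hℓM : ¬ ℓ ∣ M), HNDiv1 p ℓ (diaP (diaMod diaCl) hℓ hℓM))
    {ℓ : ℕ} (hℓ : ℓ.Prime) (hℓM : ¬ ℓ ∣ M) :
    TCl p diaCl hM hD ℓ =
      TFam1 p (diaMod diaCl) hM hD ℓ * DEnd p (diaCl (unitOfPrime hℓ hℓM)) := by
  classical
  unfold TCl
  rw [dif_pos ⟨hℓ, hℓM⟩]

theorem TCl_comm_gal (hδ : ∀ u, DiaComm (diaCl u))
    (hM : ∀ (ℓ : ℕ) (hℓ : ℓ.Prime) (hℓM : ¬ ℓ ∣ M), HNMem1 ℓ (diaP (diaMod diaCl) hℓ hℓM))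
    (hD : ∀ (ℓ : ℕ) (hℓ : ℓ.Prime) (hℓM : ¬ ℓ ∣ M), HNDiv1 p ℓ (diaP (diaMod diaCl) hℓ hℓM))
    (ℓ : ℕ) (σ : GQ) :
    TCl p diaCl hM hD ℓ * gal F₀ p σ = gal F₀ p σ * TCl p diaCl hM hD ℓ := by
  classical
  by_cases h : ℓ.Prime ∧ ¬ ℓ ∣ M
  · rw [TCl_of_prime p diaCl hM hD h.1 h.2, mul_assoc, DEnd_comm_gal p (hδ _) σ, ← mul_assoc,
      TFam1_comm_gal p (diaMod diaCl) (fun u => diaComm_symm (hδ u)) hM hD ℓ σ, mul_assoc]
  · unfold TCl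
    rw [dif_neg h, zero_mul, mul_zero]

/-- **the classical Kummer model of the `Γ₁(M)` port**: `T ℓ = [HNcl_ℓ]`, `D d = [⟨d⟩]`, standard
Eichler–Shimura relation, from P4's outputs for the moduli diamonds `(diaCl d).symm`. -/
def kumModelCl (hδ : ∀ u, DiaComm (diaCl u))
    (hM : ∀ (ℓ : ℕ) (hℓ : ℓ.Prime) (hℓM : ¬ ℓ ∣ M), HNMem1 ℓ (diaP (diaMod diaCl) hℓ hℓM))
    (hD : ∀ (ℓ : ℕ) (hℓ : ℓ.Prime) (hℓM : ¬ ℓ ∣ M), HNDiv1 p ℓ (diaP (diaMod diaCl) hℓ hℓM))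
    (hI : ∀ ℓ : ℕ, ℓ.Prime → ¬ ℓ ∣ M * p → ESInertia1 F₀ p ℓ)
    (hF : ∀ (ℓ : ℕ) (hℓ : ℓ.Prime) (hℓMp : ¬ ℓ ∣ M * p),
      ESFrob1 p ℓ (diaP (diaMod diaCl) hℓ (not_dvd_left_of_not_dvd_mul hℓMp))) :
    KumModel1W M p where
  K := Additive (Kum Kb (FL F₀) p)
  gal := gal F₀ p
  T := TCl p diaCl hM hD
  D := fun u => DEnd p (diaCl u)
  T_comm_gal := TCl_comm_gal p diaCl hδ hM hD
  D_comm_gal := fun u σ => DEnd_comm_gal p (hδ u) σ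
  level := gal_level F₀ p
  inertia := fun ℓ hℓ hℓMp A hA σ hσ => gal_eq_one_of_inertia p (hI ℓ hℓ hℓMp) A hA σ hσ
  frob := fun ℓ hℓ hℓMp A hA τ hτ => by
    have hℓM : ¬ ℓ ∣ M := not_dvd_left_of_not_dvd_mul hℓMp
    have h0 := (kumModel1 p (diaMod diaCl) (fun u => diaComm_symm (hδ u)) hM hD hI hF).frob
      ℓ hℓ hℓMp A hA τ hτ
    change DEnd p (diaCl (unitOfPrime hℓ hℓM)).symm * (gal F₀ p τ * gal F₀ p τ) -
      TFam1 p (diaMod diaCl) hM hD ℓ * gal F₀ p τ + (ℓ : ZMod p) • 1 = 0 at h0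
    rw [TCl_of_prime p diaCl hM hD hℓ hℓM]
    set d := DEnd p (diaCl (unitOfPrime hℓ hℓM)) with hd
    set d' := DEnd p (diaCl (unitOfPrime hℓ hℓM)).symm with hd'
    set g := gal F₀ p τ with hg
    set t := TFam1 p (diaMod diaCl) hM hD ℓ with ht
    have hdg : d * g = g * d := DEnd_comm_gal p (hδ _) τ
    have hd'd : d' * d = 1 := DEnd_symm_mul p _
    have e : g * g - t * d * g + (ℓ : ZMod p) • d =
        (d' * (g * g) - t * g + (ℓ : ZMod p) • 1) * d := by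
      have h1 : d' * (g * g) * d = g * g := by
        rw [mul_assoc, mul_assoc, ← hdg, ← mul_assoc g, ← hdg, mul_assoc, ← mul_assoc, hd'd,
          one_mul]
      have h2 : t * g * d = t * d * g := by rw [mul_assoc, ← hdg, mul_assoc]
      rw [add_mul, sub_mul, h1, h2, smul_mul_assoc, one_mul]
    rw [e, h0, zero_mul]

/-! ### API -/

section API

variable {p diaCl}
variable (hδ : ∀ u, DiaComm (diaCl u))
  (hM : ∀ (ℓ : ℕ) (hℓ : ℓ.Prime) (hℓM : ¬ ℓ ∣ M), HNMem1 ℓ (diaP (diaMod diaCl) hℓ hℓM))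
  (hD : ∀ (ℓ : ℕ) (hℓ : ℓ.Prime) (hℓM : ¬ ℓ ∣ M), HNDiv1 p ℓ (diaP (diaMod diaCl) hℓ hℓM))
  (hI : ∀ ℓ : ℕ, ℓ.Prime → ¬ ℓ ∣ M * p → ESInertia1 F₀ p ℓ)
  (hF : ∀ (ℓ : ℕ) (hℓ : ℓ.Prime) (hℓMp : ¬ ℓ ∣ M * p),
    ESFrob1 p ℓ (diaP (diaMod diaCl) hℓ (not_dvd_left_of_not_dvd_mul hℓMp)))

/-- the class of a `p`-divisible unit, as an element of the model -/
def clsCl (u : pDivUnits Kb (FL F₀) p) : (kumModelCl p diaCl hδ hM hD hI hF).K :=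
  Additive.ofMul (Kum.mk u)

/-- **`T_mk`, relational form, classical**: if the series of `u'` is `HNcl_ℓ` of `u`, then
`T ℓ [u] = [u']`. -/
theorem kumModelCl_T_cls_of_eq {ℓ : ℕ} (hℓ : ℓ.Prime) (hℓM : ¬ ℓ ∣ M)
    (u u' : pDivUnits Kb (FL F₀) p)
    (h : ((((u' : pDivUnits Kb (FL F₀) p) : (FL F₀)ˣ) : FL F₀) : LaurentSeries Kb) =
      @hnclSeries F₀ ℓ ⟨hℓ.ne_zero⟩ (diaCl (unitOfPrime hℓ hℓM))
        (((u : pDivUnits Kb (FL F₀) p) : (FL F₀)ˣ) : FL F₀)) :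
    (kumModelCl p diaCl hδ hM hD hI hF).T ℓ (clsCl hδ hM hD hI hF u) =
      clsCl hδ hM hD hI hF u' := by
  have : NeZero ℓ := ⟨hℓ.ne_zero⟩
  show TCl p diaCl hM hD ℓ (Additive.ofMul (Kum.mk u)) = Additive.ofMul (Kum.mk u')
  rw [TCl_of_prime p diaCl hM hD hℓ hℓM, TFam1_of_prime p (diaMod diaCl) hM hD hℓ hℓM,
    Module.End.mul_apply, DEnd_mk, TEnd1_mk]
  refine congrArg (fun v => Additive.ofMul (Kum.mk v)) (Subtype.ext (Units.ext (Subtype.ext ?_)))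
  rw [h, ← hn1Series_symm_apply]
  rfl

/-- **`D_mk`, relational form, classical**. -/
theorem kumModelCl_D_cls_of_eq (d : (ZMod M)ˣ) (u u' : pDivUnits Kb (FL F₀) p)
    (h : (((u' : pDivUnits Kb (FL F₀) p) : (FL F₀)ˣ) : FL F₀) =
      diaCl d (((u : pDivUnits Kb (FL F₀) p) : (FL F₀)ˣ) : FL F₀)) :
    (kumModelCl p diaCl hδ hM hD hI hF).D d (clsCl hδ hM hD hI hF u) =
      clsCl hδ hM hD hI hF u' := by
  show DEnd p (diaCl d) (Additive.ofMul (Kum.mk u)) = Additive.ofMul (Kum.mk u')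
  rw [DEnd_mk]
  refine congrArg (fun v => Additive.ofMul (Kum.mk v)) (Subtype.ext (Units.ext ?_))
  exact h.symm

/-- **(EIG1), relational form, CLASSICAL operators** (what P3's K4 produces): `HNcl_ℓ` acts through
`a ℓ`, the classical diamond `diaCl d` through `χ d`. -/
def EIG1RelCl (F₀ : IntermediateField ℚ (LaurentSeries ℚ)) {M : ℕ} [NeZero M] (p : ℕ)
    (diaCl : (ZMod M)ˣ → (FL F₀ ≃ₐ[Kb] FL F₀)) (k0 : Type) [Field k0] (a : ℕ → k0)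
    (χ : (ZMod M)ˣ →* k0ˣ) : Prop :=
  ∃ (n : ℕ) (c : Fin n → k0) (u : Fin n → pDivUnits Kb (FL F₀) p),
    tens c u ≠ 0 ∧
    (∀ (ℓ : ℕ) (hℓ : ℓ.Prime) (hℓMp : ¬ ℓ ∣ M * p),
      ∃ u' : Fin n → pDivUnits Kb (FL F₀) p,
        (∀ i, ((((u' i : pDivUnits Kb (FL F₀) p) : (FL F₀)ˣ) : FL F₀) : LaurentSeries Kb) =
          @hnclSeries F₀ ℓ ⟨hℓ.ne_zero⟩
            (diaCl (unitOfPrime hℓ (not_dvd_left_of_not_dvd_mul hℓMp)))
            (((u i : pDivUnits Kb (FL F₀) p) : (FL F₀)ˣ) : FL F₀)) ∧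
        tens c u' = a ℓ • tens c u) ∧
    ∀ d : (ZMod M)ˣ, ∃ u' : Fin n → pDivUnits Kb (FL F₀) p,
      (∀ i, (((u' i : pDivUnits Kb (FL F₀) p) : (FL F₀)ˣ) : FL F₀) =
        diaCl d (((u i : pDivUnits Kb (FL F₀) p) : (FL F₀)ˣ) : FL F₀)) ∧
      tens c u' = ((χ d : k0ˣ) : k0) • tens c u

/-- **The (EIG1, classical) → `HasEigen1` adapter.** -/
theorem hasEigen1_of_relCl (k0 : Type) [Field k0] [Algebra (ZMod p) k0] (a : ℕ → k0)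
    (χ : (ZMod M)ˣ →* k0ˣ) (h : EIG1RelCl F₀ p diaCl k0 a χ) :
    (kumModelCl p diaCl hδ hM hD hI hF).HasEigen1 k0 a χ := by
  obtain ⟨n, c, u, hne, hT, hDia⟩ := h
  refine ⟨∑ i, c i ⊗ₜ[ZMod p] clsCl hδ hM hD hI hF (u i),
    EigAdapter.sum_tmul_ne_zero p k0 _ c (fun i => clsCl hδ hM hD hI hF (u i)) hne, ?_, ?_⟩
  · intro ℓ hℓ hℓMp
    obtain ⟨u', hu', hrel⟩ := hT ℓ hℓ hℓMp
    refine EigAdapter.baseChange_eq_smul_of_rel p k0 _ _ (a ℓ) c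
      (fun i => clsCl hδ hM hD hI hF (u i)) ?_
    have h1 : ∀ i, (kumModelCl p diaCl hδ hM hD hI hF).T ℓ (clsCl hδ hM hD hI hF (u i)) =
        clsCl hδ hM hD hI hF (u' i) := fun i =>
      kumModelCl_T_cls_of_eq hδ hM hD hI hF hℓ (not_dvd_left_of_not_dvd_mul hℓMp) (u i) (u' i)
        (hu' i)
    simp only [h1]
    exact hrel
  · intro d
    obtain ⟨u', hu', hrel⟩ := hDia d
    refine EigAdapter.baseChange_eq_smul_of_rel p k0 _ _ _ c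
      (fun i => clsCl hδ hM hD hI hF (u i)) ?_
    have h1 : ∀ i, (kumModelCl p diaCl hδ hM hD hI hF).D d (clsCl hδ hM hD hI hF (u i)) =
        clsCl hδ hM hD hI hF (u' i) := fun i =>
      kumModelCl_D_cls_of_eq hδ hM hD hI hF d (u i) (u' i) (hu' i)
    simp only [h1]
    exact hrel

include hδ hM hD hI hF in
/-- **P5, concrete classical form**: eigensystem `(a, χ)` of the classical operators occurring in
`k0 ⊗ Kum_p(FL)` ⟹ `ρ` with `tr ρ(Frob_ℓ) = a ℓ`, `det ρ(Frob_ℓ) = ℓ · χ(ℓ)`. -/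
theorem exists_rep_of_relCl (k0 : Type) [Field k0] [Algebra (ZMod p) k0] [Finite k0] [CharP k0 p]
    [Fact p.Prime] (a : ℕ → k0) (χ : (ZMod M)ˣ →* k0ˣ) (h : EIG1RelCl F₀ p diaCl k0 a χ) :
    ∃ ρ : GQ →* Matrix.GeneralLinearGroup (Fin 2) k0, GaloisFactorsThroughFiniteLevel ρ ∧
      ∀ (ℓ : ℕ) (hℓ : ℓ.Prime) (hℓMp : ¬ ℓ ∣ M * p) (A : ValuationSubring Kb),
        A.LiesOverPrime ℓ →
        (∀ σ ∈ A.inertiaSubgroupIn ℚ, ρ σ = 1) ∧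
        ∀ τ : GQ, A.IsFrobeniusAt τ ℓ →
          ((ρ τ : Matrix.GeneralLinearGroup (Fin 2) k0) : Matrix (Fin 2) (Fin 2) k0).trace = a ℓ ∧
          ((ρ τ : Matrix.GeneralLinearGroup (Fin 2) k0) : Matrix (Fin 2) (Fin 2) k0).det =
            (ℓ : k0) * ((χ (unitOfPrime hℓ (not_dvd_left_of_not_dvd_mul hℓMp)) : k0ˣ) : k0) :=
  (kumModelCl p diaCl hδ hM hD hI hF).exists_rep k0 a χ
    (hasEigen1_of_relCl hδ hM hD hI hF k0 a χ h)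

end API

end KumTypeCl

end Fermat.Agent.DS.P5
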