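/-
GATE-N / S48-P5 (helper69): the bridge P4 → P5.

helper17's `DS/P4/ESGen.lean` states (HN1-mem), (HN1-div), (DIA-GAL), (ES-i), (ES-ii) with an
instance argument `[NeZero ℓ]` and `FL F₀` as an intermediate field; `DS/P5/KumType1.lean` states
the same properties with the instance quantified inside and `FL F₀` as a type.  The statements are
definitionally the same; this file records the conversions, and the P5 outputs in terms of P4's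
INPUTS (`K18sG`, `GaussFracSeriesG`, `HNMem1`, `HNDiv1`, `DiaInt`, `DiaGal`):

* `diaComm_of_P4`, `hnMem1_of_P4`, `hnDiv1_of_P4`, `esInertia1_of_P4`, `esFrob1_of_P4`;
* `esInertia1_of_k18s`, `esFrob1_of_k18s` : P5's (ES-i), (ES-ii) from (K18s) + (GU) + (HN1) + (DIA).
-/
import Mathlib
import Fermat.Agent.DS.P4.ESGen
import Fermat.Agent.DS.P5.KumType1

set_option autoImplicit false
set_option linter.style.haveILetI false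

noncomputable section

namespace Fermat.Agent.DS.P5.FromP4

open Fermat.Agent.DS.P5.KumType1 Fermat.Agent.GJ.KumGroup

variable {F₀ : IntermediateField ℚ (LaurentSeries ℚ)}

theorem diaComm_of_P4 {δ : FL F₀ ≃ₐ[Kb] FL F₀} (h : Fermat.Agent.DS.P4.DiaGal F₀ δ) :
    DiaComm δ := h

theorem diaGal_of_P5 {δ : FL F₀ ≃ₐ[Kb] FL F₀} (h : DiaComm δ) :
    Fermat.Agent.DS.P4.DiaGal F₀ δ := h

theorem hnMem1_of_P4 {ℓ : ℕ} {δ : FL F₀ ≃ₐ[Kb] FL F₀}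
    (h : ∀ [NeZero ℓ], Fermat.Agent.DS.P4.HNMem1 F₀ ℓ δ) : HNMem1 ℓ δ :=
  fun {_} u => h u

theorem hnMem1_to_P4 {ℓ : ℕ} [NeZero ℓ] {δ : FL F₀ ≃ₐ[Kb] FL F₀} (h : HNMem1 ℓ δ) :
    Fermat.Agent.DS.P4.HNMem1 F₀ ℓ δ :=
  fun u => h u

theorem hnDiv1_of_P4 {p ℓ : ℕ} {δ : FL F₀ ≃ₐ[Kb] FL F₀}
    (h : ∀ [NeZero ℓ], Fermat.Agent.DS.P4.HNDiv1 F₀ p ℓ δ) : HNDiv1 p ℓ δ :=
  fun {_} u x hu hx hdiv => h u x hu hx hdiv

theorem hnDiv1_to_P4 {p ℓ : ℕ} [NeZero ℓ] {δ : FL F₀ ≃ₐ[Kb] FL F₀} (h : HNDiv1 p ℓ δ) :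
    Fermat.Agent.DS.P4.HNDiv1 F₀ p ℓ δ :=
  fun u x hu hx hdiv => h u x hu hx hdiv

theorem esInertia1_of_P4 {p ℓ : ℕ} (h : Fermat.Agent.DS.P4.ESInertia1 F₀ p ℓ) :
    ESInertia1 F₀ p ℓ :=
  fun A hA s hs u hu hdiv => h A hA s hs u hu hdiv

theorem esFrob1_of_P4 {p ℓ : ℕ} {δ : FL F₀ ≃ₐ[Kb] FL F₀}
    (h : ∀ [NeZero ℓ], Fermat.Agent.DS.P4.ESFrob1 F₀ p ℓ δ) : ESFrob1 p ℓ δ :=
  fun {_} A hA s hs u hu hdiv => h A hA s hs u hu hdiv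

/-- **(ES-i) of P5** from (K18s) + (GU) (helper17's `esInertia1_of_k18s`). -/
theorem esInertia1_of_k18s {p ℓ : ℕ} (hp : 0 < p)
    (hK : ∀ A : ValuationSubring Kb, A.LiesOverPrime ℓ → Fermat.Agent.DS.P4.K18sG F₀ A p)
    (hG : ∀ A : ValuationSubring Kb, A.LiesOverPrime ℓ →
      Fermat.Agent.DS.P4.GaussFracSeriesG F₀ A) :
    ESInertia1 F₀ p ℓ :=
  esInertia1_of_P4 (Fermat.Agent.DS.P4.esInertia1_of_k18s hp hK hG)

/-- **(ES-ii) of P5** from (K18s) + (GU) + (HN1) + (DIA) (helper17's `esFrob1_of_k18s`). -/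
theorem esFrob1_of_k18s {p ℓ : ℕ} (hℓ : ℓ.Prime) (hp : 0 < p) {δ : FL F₀ ≃ₐ[Kb] FL F₀}
    (hK : ∀ A : ValuationSubring Kb, A.LiesOverPrime ℓ → Fermat.Agent.DS.P4.K18sG F₀ A p)
    (hG : ∀ A : ValuationSubring Kb, A.LiesOverPrime ℓ →
      Fermat.Agent.DS.P4.GaussFracSeriesG F₀ A)
    (hM : HNMem1 ℓ δ) (hD : HNDiv1 p ℓ δ)
    (hdI : ∀ A : ValuationSubring Kb, A.LiesOverPrime ℓ → Fermat.Agent.DS.P4.DiaInt F₀ δ A)
    (hdG : DiaComm δ) :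
    ESFrob1 p ℓ δ :=
  esFrob1_of_P4 fun {inst} =>
    haveI : Fact ℓ.Prime := ⟨hℓ⟩
    @Fermat.Agent.DS.P4.esFrob1_of_k18s F₀ p ℓ inst _ hp δ hK hG (hnMem1_to_P4 hM)
      (hnDiv1_to_P4 hD) hdI (diaGal_of_P5 hdG)

end Fermat.Agent.DS.P5.FromP4
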