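/-
GATE-N / S48-P5 (helper69): the export of the `Γ₁(M)` port in the shape consumed by helper4's
`DS/N3/Main.exists_rhobar_of_port` (`N3.Theta.PortExport1 M ℓ`, `DS/N3/Pkg1.lean`).

`portExport1_of_hyps` : from the named exports of P0/P1/P2/P4 (`DiaComm`, `HNMem1`, `HNDiv1`,
`ESInertia1`, `ESFrob1` for the moduli diamond family `dia`) and P3's eigen-relation at the prime
field (`PortExport1.EIG1Prime`, dual eigenvalues), the property `N3.Theta.PortExport1 M ℓ`.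
-/
import Mathlib
import Fermat.Agent.DS.P5.PortExport1
import Fermat.Agent.DS.N3.Pkg1

set_option autoImplicit false
set_option linter.style.haveILetI false

noncomputable section

open scoped MatrixGroups

namespace Fermat.Agent.DS.P5.PortExportN3

open Fermat.Agent.DS.Hecke Fermat.Agent.DS.P5.KumType1 Fermat.Agent.GJ.KumGroup
  Fermat.Agent.DS.P5.Final Fermat.Agent.DS.P5.Final2 Fermat.Agent.DS.P5.PortExport1

theorem primeUnit_eq_unitOfPrime {M p : ℕ} (hp : p.Prime) (hpM : ¬ p ∣ M) :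
    primeUnit hp hpM = unitOfPrime hp hpM := by
  apply Units.ext
  rw [coe_primeUnit, coe_unitOfPrime]

variable {M : ℕ} [NeZero M]

/-- **`N3.Theta.PortExport1 M ℓ`** from the named exports of P0–P4 (hypothesis form). -/
theorem portExport1_of_hyps {F₀ : IntermediateField ℚ (LaurentSeries ℚ)} {ℓ : ℕ}
    [Fact ℓ.Prime] {dia : (ZMod M)ˣ → (FL F₀ ≃ₐ[Kb] FL F₀)}
    (hδ : ∀ u, DiaComm (dia u))
    (hM : ∀ (q : ℕ) (hq : q.Prime) (hqM : ¬ q ∣ M), HNMem1 q (diaP dia hq hqM))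
    (hD : ∀ (q : ℕ) (hq : q.Prime) (hqM : ¬ q ∣ M), HNDiv1 ℓ q (diaP dia hq hqM))
    (hI : ∀ q : ℕ, q.Prime → ¬ q ∣ M * ℓ → ESInertia1 F₀ ℓ q)
    (hF : ∀ (q : ℕ) (hq : q.Prime) (hqMℓ : ¬ q ∣ M * ℓ),
      ESFrob1 ℓ q (diaP dia hq (not_dvd_left_of_not_dvd_mul hqMℓ)))
    (hE : EIG1Prime F₀ ℓ dia) :
    Fermat.Agent.DS.N3.Theta.PortExport1 M ℓ := by
  haveI : NeZero ℓ := ⟨(Fact.out : ℓ.Prime).ne_zero⟩
  intro θ
  obtain ⟨a', ha', hrel⟩ := hE θ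
  obtain ⟨ρ, hlev, hρ⟩ := exists_rep_of_theta_rel2 (S := (∅ : Set ℕ)) hδ hM hD hI hF
    (fun q _ _ => Set.notMem_empty q) (ZMod ℓ) θ a' ha' hrel
  refine ⟨ρ, hlev, fun q hq hqMℓ A hA => ⟨(hρ q hq hqMℓ A hA).1, fun τ hτ => ?_⟩⟩
  obtain ⟨h1, h2⟩ := (hρ q hq hqMℓ A hA).2 τ hτ
  refine ⟨h1, ?_⟩
  rw [h2, primeUnit_eq_unitOfPrime]

end Fermat.Agent.DS.P5.PortExportN3
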