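/-
GATE-N / S48-P5 (helper69): the assembly of the `Γ₁(M)` port from the LEAF outputs.

`portExport1_of_leaves` : `N3.Theta.PortExport1 M p` (the hypothesis `hPort` of helper4's
`DS/N3/Main.exists_rhobar_of_port`) from

* (DIA-GAL)  `DiaComm (dia u)`                                     [P1]
* (HN1-mem)  `HNMem1 q (dia_q)`, all primes `q ∤ M`                 [helper62 HN1Q1]
* (HN1-div)  `HNDiv1 p q (dia_q)`, all primes `q ∤ M`               [helper17 ORBITNORM]
* (K18s)     `P4.K18sG F₀ A p`, `A ∣ q`, `q ∤ M p`                  [P2]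
* (GU)       `P4.GaussFracSeriesG F₀ A`, `A ∣ q`, `q ∤ M p`         [P2 GAUSS]
* (DIA-INT)  `P4.DiaInt F₀ (dia_q) A`, `A ∣ q`, `q ∤ M p`           [P2 IG (r4)]
* (EIG1)     `PortExport1.EIG1Prime F₀ p dia`                      [P3]

through helper17's `DS/P4/ESGen` (Eichler–Shimura with nebentypus) and `DS/P5/Final2`.
-/
import Mathlib
import Fermat.Agent.DS.P5.FromP4
import Fermat.Agent.DS.P5.PortExportN3

set_option autoImplicit false
set_option linter.style.haveILetI false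

noncomputable section

open scoped MatrixGroups

namespace Fermat.Agent.DS.P5.PortAsm

open Fermat.Agent.DS.Hecke Fermat.Agent.DS.P5.KumType1 Fermat.Agent.GJ.KumGroup
  Fermat.Agent.DS.P5.Final Fermat.Agent.DS.P5.Final2 Fermat.Agent.DS.P5.PortExport1
  Fermat.Agent.DS.P5.PortExportN3 Fermat.Agent.DS.P5.FromP4

variable {M : ℕ} [NeZero M]

/-- **The port, assembled from its leaves** (hypothesis form). -/
theorem portExport1_of_leaves {F₀ : IntermediateField ℚ (LaurentSeries ℚ)} {p : ℕ}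
    [Fact p.Prime] {dia : (ZMod M)ˣ → (FL F₀ ≃ₐ[Kb] FL F₀)}
    (hdG : ∀ u, DiaComm (dia u))
    (hM : ∀ (q : ℕ) (hq : q.Prime) (hqM : ¬ q ∣ M), HNMem1 q (diaP dia hq hqM))
    (hD : ∀ (q : ℕ) (hq : q.Prime) (hqM : ¬ q ∣ M), HNDiv1 p q (diaP dia hq hqM))
    (hK : ∀ q : ℕ, q.Prime → ¬ q ∣ M * p → ∀ A : ValuationSubring Kb, A.LiesOverPrime q →
      Fermat.Agent.DS.P4.K18sG F₀ A p)
    (hG : ∀ q : ℕ, q.Prime → ¬ q ∣ M * p → ∀ A : ValuationSubring Kb, A.LiesOverPrime q →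
      Fermat.Agent.DS.P4.GaussFracSeriesG F₀ A)
    (hdI : ∀ (q : ℕ) (hq : q.Prime) (hqMp : ¬ q ∣ M * p) (A : ValuationSubring Kb),
      A.LiesOverPrime q →
        Fermat.Agent.DS.P4.DiaInt F₀ (diaP dia hq (not_dvd_left_of_not_dvd_mul hqMp)) A)
    (hE : EIG1Prime F₀ p dia) :
    Fermat.Agent.DS.N3.Theta.PortExport1 M p := by
  have hp : 0 < p := (Fact.out : p.Prime).pos
  refine portExport1_of_hyps hdG hM hD
    (fun q hq hqMp => esInertia1_of_k18s hp (hK q hq hqMp) (hG q hq hqMp))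
    (fun q hq hqMp => esFrob1_of_k18s hq hp (hK q hq hqMp) (hG q hq hqMp)
      (hM q hq (not_dvd_left_of_not_dvd_mul hqMp)) (hD q hq (not_dvd_left_of_not_dvd_mul hqMp))
      (hdI q hq hqMp) (hdG _)) hE

end Fermat.Agent.DS.P5.PortAsm
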