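/-
GATE-N / S48-P5 (helper69): the KUM1 interface in the CLASSICAL convention, on helper18's Hecke
algebra `heckeAlgebra1 M 2 S` (generated by the classical `T_ℓ = U_ℓ + ⟨ℓ⟩V_ℓ` and `⟨d⟩`).

`EIG1AllCl` : P3's export — for every `θ : heckeAlgebra1 M 2 S →+* k0` an eigenvector in
`k0 ⊗ Kum_p(FL)` on which the classical multiplicative Hecke operator `HNcl_ℓ` acts through
`θ (T_ℓ)` and the classical diamond `diaCl d` through `θ ⟨d⟩`.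
`exists_rep_of_thetaCl` : then `ρ : G_ℚ →* GL₂(k0)` with `tr ρ(Frob_ℓ) = θ (T_ℓ)`,
`det ρ(Frob_ℓ) = ℓ · θ ⟨ℓ⟩`, from P4's outputs for the moduli diamonds `(diaCl d).symm`.
-/
import Mathlib
import Fermat.Agent.DS.P5.Final
import Fermat.Agent.DS.P5.ClModel

set_option autoImplicit false
set_option linter.style.haveILetI false

noncomputable section

namespace Fermat.Agent.DS.P5.FinalCl

open Fermat.Agent.DS.Hecke Fermat.Agent.DS.P5.KumType1 Fermat.Agent.DS.P5.KumTypeCl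
  Fermat.Agent.DS.P5.Final Fermat.Agent.GJ.KumGroup

/-- `G_ℚ`. -/
local notation "GQ" => (AlgebraicClosure ℚ ≃ₐ[ℚ] AlgebraicClosure ℚ)

variable {M : ℕ} [NeZero M] {S : Set ℕ}

/-- **P3's export (EIG1), classical convention**, for every mod-`p` eigensystem of the weight-2
Hecke algebra of `Γ₁(M)` away from `S`. -/
def EIG1AllCl (F₀ : IntermediateField ℚ (LaurentSeries ℚ)) (p : ℕ)
    (diaCl : (ZMod M)ˣ → (FL F₀ ≃ₐ[Kb] FL F₀)) (S : Set ℕ) : Prop :=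
  ∀ (k0 : Type) [Field k0] [Finite k0] [CharP k0 p] (θ : heckeAlgebra1 M 2 S →+* k0),
    EIG1RelCl F₀ p diaCl k0 (aOf θ) (chiOf θ)

/-- **KUM1, classical convention**: the mod-`p` Galois representation of every eigensystem `θ` of
the weight-2 Hecke algebra of `Γ₁(M)`. -/
theorem exists_rep_of_thetaCl {F₀ : IntermediateField ℚ (LaurentSeries ℚ)} {p : ℕ}
    [Fact p.Prime] {diaCl : (ZMod M)ˣ → (FL F₀ ≃ₐ[Kb] FL F₀)}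
    (hδ : ∀ u, DiaComm (diaCl u))
    (hM : ∀ (ℓ : ℕ) (hℓ : ℓ.Prime) (hℓM : ¬ ℓ ∣ M), HNMem1 ℓ (diaP (diaMod diaCl) hℓ hℓM))
    (hD : ∀ (ℓ : ℕ) (hℓ : ℓ.Prime) (hℓM : ¬ ℓ ∣ M), HNDiv1 p ℓ (diaP (diaMod diaCl) hℓ hℓM))
    (hI : ∀ ℓ : ℕ, ℓ.Prime → ¬ ℓ ∣ M * p → ESInertia1 F₀ p ℓ)
    (hF : ∀ (ℓ : ℕ) (hℓ : ℓ.Prime) (hℓMp : ¬ ℓ ∣ M * p),
      ESFrob1 p ℓ (diaP (diaMod diaCl) hℓ (not_dvd_left_of_not_dvd_mul hℓMp)))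
    (hS : ∀ ℓ : ℕ, ℓ.Prime → ¬ ℓ ∣ M * p → ℓ ∉ S)
    (hE : EIG1AllCl F₀ p diaCl S)
    (k0 : Type) [Field k0] [Finite k0] [CharP k0 p] (θ : heckeAlgebra1 M 2 S →+* k0) :
    ∃ ρ : GQ →* Matrix.GeneralLinearGroup (Fin 2) k0, GaloisFactorsThroughFiniteLevel ρ ∧
      ∀ (ℓ : ℕ) (hℓ : ℓ.Prime) (hℓMp : ¬ ℓ ∣ M * p) (A : ValuationSubring Kb),
        A.LiesOverPrime ℓ →
        (∀ σ ∈ A.inertiaSubgroupIn ℚ, ρ σ = 1) ∧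
        ∀ τ : GQ, A.IsFrobeniusAt τ ℓ →
          ((ρ τ : Matrix.GeneralLinearGroup (Fin 2) k0) : Matrix (Fin 2) (Fin 2) k0).trace =
            θ (heckeAlgebra1.T hℓ (not_dvd_left_of_not_dvd_mul hℓMp) (hS ℓ hℓ hℓMp)) ∧
          ((ρ τ : Matrix.GeneralLinearGroup (Fin 2) k0) : Matrix (Fin 2) (Fin 2) k0).det =
            (ℓ : k0) *
              θ (heckeAlgebra1.D (unitOfPrime hℓ (not_dvd_left_of_not_dvd_mul hℓMp))) := by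
  letI : Algebra (ZMod p) k0 := ZMod.algebra k0 p
  obtain ⟨ρ, hlev, hρ⟩ := exists_rep_of_relCl hδ hM hD hI hF k0 (aOf θ) (chiOf θ) (hE k0 θ)
  refine ⟨ρ, hlev, fun ℓ hℓ hℓMp A hA => ⟨(hρ ℓ hℓ hℓMp A hA).1, fun τ hτ => ?_⟩⟩
  obtain ⟨h1, h2⟩ := (hρ ℓ hℓ hℓMp A hA).2 τ hτ
  refine ⟨?_, ?_⟩
  · rw [h1, aOf_eq θ hℓ (not_dvd_left_of_not_dvd_mul hℓMp) (hS ℓ hℓ hℓMp)]
  · rw [h2, coe_chiOf]

end Fermat.Agent.DS.P5.FinalCl
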