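/-
GATE-N / S48-P5 (helper69): the assembly of the `Γ₁(M)` port from the LEAF outputs, with the
CORRECTED (DIA-INT) of helper67's `DS/P4/ESGen2.lean` (`DiaInt2`: `dia y = y₁ / y₂`; the series form
`P4.DiaInt` of `DS/P5/PortAsm.lean` is false for nontrivial diamonds, helper92/helper67 board
3680/3686).

* `esFrob1_of_k18s2` : P5's (ES-ii) from (K18s) + (GU) + (HN1) + (DIA-GAL) + `DiaInt2`;
* `portExport1_of_leaves2` : `N3.Theta.PortExport1 M p` from the 7 leaf outputs, `hdI` in the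
  `DiaInt2` form.  Same as `PortAsm.portExport1_of_leaves` otherwise.
-/
import Mathlib
import Fermat.Agent.DS.P4.ESGen2
import Fermat.Agent.DS.P5.PortAsm

set_option autoImplicit false
set_option linter.style.haveILetI false

noncomputable section

open scoped MatrixGroups

namespace Fermat.Agent.DS.P5.PortAsm2

open Fermat.Agent.DS.Hecke Fermat.Agent.DS.P5.KumType1 Fermat.Agent.GJ.KumGroup
  Fermat.Agent.DS.P5.Final Fermat.Agent.DS.P5.Final2 Fermat.Agent.DS.P5.PortExport1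
  Fermat.Agent.DS.P5.PortExportN3 Fermat.Agent.DS.P5.FromP4

/-- **(ES-ii) of P5** from (K18s) + (GU) + (HN1) + (DIA-GAL) + the corrected (DIA-INT)
(helper67's `esFrob1_of_k18s2`). -/
theorem esFrob1_of_k18s2 {F₀ : IntermediateField ℚ (LaurentSeries ℚ)} {p ℓ : ℕ} (hℓ : ℓ.Prime)
    (hp : 0 < p) {δ : FL F₀ ≃ₐ[Kb] FL F₀}
    (hK : ∀ A : ValuationSubring Kb, A.LiesOverPrime ℓ → Fermat.Agent.DS.P4.K18sG F₀ A p)
    (hG : ∀ A : ValuationSubring Kb, A.LiesOverPrime ℓ →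
      Fermat.Agent.DS.P4.GaussFracSeriesG F₀ A)
    (hM : HNMem1 ℓ δ) (hD : HNDiv1 p ℓ δ)
    (hdI : ∀ A : ValuationSubring Kb, A.LiesOverPrime ℓ → Fermat.Agent.DS.P4.DiaInt2 F₀ δ A)
    (hdG : DiaComm δ) :
    ESFrob1 p ℓ δ :=
  esFrob1_of_P4 fun {inst} =>
    haveI : Fact ℓ.Prime := ⟨hℓ⟩
    @Fermat.Agent.DS.P4.esFrob1_of_k18s2 F₀ p ℓ inst _ hp δ hK hG (hnMem1_to_P4 hM)
      (hnDiv1_to_P4 hD) hdI (diaGal_of_P5 hdG)

variable {M : ℕ} [NeZero M]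

/-- **The port, assembled from its leaves** (hypothesis form, corrected (DIA-INT)). -/
theorem portExport1_of_leaves2 {F₀ : IntermediateField ℚ (LaurentSeries ℚ)} {p : ℕ}
    [Fact p.Prime] {dia : (ZMod M)ˣ → (FL F₀ ≃ₐ[Kb] FL F₀)}
    (hdG : ∀ u, DiaComm (dia u))
    (hM : ∀ (q : ℕ) (hq : q.Prime) (hqM : ¬ q ∣ M), HNMem1 q (diaP dia hq hqM))
    (hD : ∀ (q : ℕ) (hq : q.Prime) (hqM : ¬ q ∣ M), HNDiv1 p q (diaP dia hq hqM))
    (hK : ∀ q : ℕ, q.Prime → ¬ q ∣ M * p → ∀ A : ValuationSubring Kb, A.LiesOverPrime q →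
      Fermat.Agent.DS.P4.K18sG F₀ A p)
    (hG : ∀ q : ℕ, q.Prime → ¬ q ∣ M * p → ∀ A : ValuationSubring Kb, A.LiesOverPrime q →
      Fermat.Agent.DS.P4.GaussFracSeriesG F₀ A)
    (hdI : ∀ (q : ℕ) (hq : q.Prime) (hqMp : ¬ q ∣ M * p) (A : ValuationSubring Kb),
      A.LiesOverPrime q →
        Fermat.Agent.DS.P4.DiaInt2 F₀ (diaP dia hq (not_dvd_left_of_not_dvd_mul hqMp)) A)
    (hE : EIG1Prime F₀ p dia) :
    Fermat.Agent.DS.N3.Theta.PortExport1 M p := by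
  have hp : 0 < p := (Fact.out : p.Prime).pos
  refine portExport1_of_hyps hdG hM hD
    (fun q hq hqMp => esInertia1_of_k18s hp (hK q hq hqMp) (hG q hq hqMp))
    (fun q hq hqMp => esFrob1_of_k18s2 hq hp (hK q hq hqMp) (hG q hq hqMp)
      (hM q hq (not_dvd_left_of_not_dvd_mul hqMp)) (hD q hq (not_dvd_left_of_not_dvd_mul hqMp))
      (hdI q hq hqMp) (hdG _)) hE

end Fermat.Agent.DS.P5.PortAsm2
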