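/-
GATE-N / S48-P5 assembly, (DIA) repaired (helper22): the twin of helper69's
`PortAsm.portExport1_of_leaves` with (GU) + (DIA-INT) replaced by the provable fraction form
(DIA-FRAC) `DS.P4.DiaFrac.DiaFracG` (see `DS/P4/ESDiaFrac.lean` for why `DiaInt` is not provable
for a nontrivial diamond, and `DS/P2/DiaFrac.diaFracG_F1` for the proof of (DIA-FRAC) at
`F₀ = F1 M`).
-/
import Mathlib
import Fermat.Agent.DS.P5.PortAsm
import Fermat.Agent.DS.P4.ESDiaFrac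

set_option autoImplicit false
set_option linter.style.haveILetI false

noncomputable section

open scoped MatrixGroups

namespace Fermat.Agent.DS.P5.PortAsmDiaFrac

open Fermat.Agent.DS.Hecke Fermat.Agent.DS.P5.KumType1 Fermat.Agent.GJ.KumGroup
  Fermat.Agent.DS.P5.Final Fermat.Agent.DS.P5.Final2 Fermat.Agent.DS.P5.PortExport1
  Fermat.Agent.DS.P5.PortExportN3 Fermat.Agent.DS.P5.FromP4

variable {F₀ : IntermediateField ℚ (LaurentSeries ℚ)}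

/-- **(ES-i) of P5** from (K18s) + (DIA-FRAC). -/
theorem esInertia1_of_diaFrac {p ℓ : ℕ} (hp : 0 < p) {δ : FL F₀ ≃ₐ[Kb] FL F₀}
    (hK : ∀ A : ValuationSubring Kb, A.LiesOverPrime ℓ → Fermat.Agent.DS.P4.K18sG F₀ A p)
    (hGd : ∀ A : ValuationSubring Kb, A.LiesOverPrime ℓ →
      Fermat.Agent.DS.P4.DiaFrac.DiaFracG F₀ δ A) :
    ESInertia1 F₀ p ℓ :=
  esInertia1_of_P4 (Fermat.Agent.DS.P4.DiaFrac.esInertia1_of_diaFrac hp hK hGd)

/-- **(ES-ii) of P5** from (K18s) + (DIA-FRAC) + (HN1) + (DIA-GAL). -/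
theorem esFrob1_of_diaFrac {p ℓ : ℕ} (hℓ : ℓ.Prime) (hp : 0 < p) {δ : FL F₀ ≃ₐ[Kb] FL F₀}
    (hK : ∀ A : ValuationSubring Kb, A.LiesOverPrime ℓ → Fermat.Agent.DS.P4.K18sG F₀ A p)
    (hGd : ∀ A : ValuationSubring Kb, A.LiesOverPrime ℓ →
      Fermat.Agent.DS.P4.DiaFrac.DiaFracG F₀ δ A)
    (hM : HNMem1 ℓ δ) (hD : HNDiv1 p ℓ δ) (hdG : DiaComm δ) :
    ESFrob1 p ℓ δ :=
  esFrob1_of_P4 fun {inst} =>
    haveI : Fact ℓ.Prime := ⟨hℓ⟩
    @Fermat.Agent.DS.P4.DiaFrac.esFrob1_of_diaFrac F₀ p ℓ inst _ hp δ hK hGd (hnMem1_to_P4 hM)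
      (hnDiv1_to_P4 hD) (diaGal_of_P5 hdG)

variable {M : ℕ} [NeZero M]

/-- **The port, assembled from its leaves** (hypothesis form), with (GU) + (DIA-INT) replaced by
(DIA-FRAC). -/
theorem portExport1_of_leaves_diaFrac {p : ℕ}
    [Fact p.Prime] {dia : (ZMod M)ˣ → (FL F₀ ≃ₐ[Kb] FL F₀)}
    (hdG : ∀ u, DiaComm (dia u))
    (hM : ∀ (q : ℕ) (hq : q.Prime) (hqM : ¬ q ∣ M), HNMem1 q (diaP dia hq hqM))
    (hD : ∀ (q : ℕ) (hq : q.Prime) (hqM : ¬ q ∣ M), HNDiv1 p q (diaP dia hq hqM))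
    (hK : ∀ q : ℕ, q.Prime → ¬ q ∣ M * p → ∀ A : ValuationSubring Kb, A.LiesOverPrime q →
      Fermat.Agent.DS.P4.K18sG F₀ A p)
    (hGd : ∀ (q : ℕ) (hq : q.Prime) (hqMp : ¬ q ∣ M * p) (A : ValuationSubring Kb),
      A.LiesOverPrime q →
        Fermat.Agent.DS.P4.DiaFrac.DiaFracG F₀
          (diaP dia hq (not_dvd_left_of_not_dvd_mul hqMp)) A)
    (hE : EIG1Prime F₀ p dia) :
    Fermat.Agent.DS.N3.Theta.PortExport1 M p := by
  have hp : 0 < p := (Fact.out : p.Prime).pos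
  refine portExport1_of_hyps hdG hM hD
    (fun q hq hqMp => esInertia1_of_diaFrac hp (hK q hq hqMp) (hGd q hq hqMp))
    (fun q hq hqMp => esFrob1_of_diaFrac hq hp (hK q hq hqMp) (hGd q hq hqMp)
      (hM q hq (not_dvd_left_of_not_dvd_mul hqMp)) (hD q hq (not_dvd_left_of_not_dvd_mul hqMp))
      (hdG _)) hE

end Fermat.Agent.DS.P5.PortAsmDiaFrac
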