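/-
GATE-N / S48-P5 (helper69): the DUAL Eichler–Shimura convention.

Depending on the model of `X₁(M)` (`ℤ/M`- versus `μ_M`-level structures) and on the functoriality
(Picard versus Albanese) used for the Hecke correspondences, the Eichler–Shimura relation on the
Kummer module comes out either as `τ² - T_ℓ τ + ℓ ⟨ℓ⟩ = 0` (`KumModel1`, `DS/P5/Asm.lean`) or as
`⟨ℓ⟩ τ² - T_ℓ τ + ℓ = 0` (`KumModel1Dual`, here).  Twisting the Galois action by the diamond
character `σ ↦ ⟨cycM σ⟩` turns a dual model into a standard one with the SAME operators `T`, `D`,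
so both conventions give the same output `KumModel1.exists_rep`.
-/
import Mathlib
import Fermat.Agent.DS.P5.Asm

set_option autoImplicit false
set_option linter.style.haveILetI false

open scoped TensorProduct MatrixGroups

namespace Fermat.Agent.DS.P5

/-- `ℚ̄`. -/
local notation "Qb" => AlgebraicClosure ℚ
/-- `G_ℚ`. -/
local notation "GQ" => (AlgebraicClosure ℚ ≃ₐ[ℚ] AlgebraicClosure ℚ)

open Fermat.Agent.GJ Fermat.Agent.GJ.FiniteLevel

/-- The abstract Kummer model of `J₁(M)[p]` with the DUAL Eichler–Shimura relation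
`⟨ℓ⟩ τ² - T_ℓ τ + ℓ = 0`. -/
structure KumModel1Dual (M p : ℕ) [NeZero M] where
  /-- the `𝔽_p`-vector space -/
  K : Type
  [instAddCommGroup : AddCommGroup K]
  [instModule : Module (ZMod p) K]
  /-- the Galois action -/
  gal : GQ →* Module.End (ZMod p) K
  /-- the Hecke operators -/
  T : ℕ → Module.End (ZMod p) K
  /-- the diamond operators -/
  D : (ZMod M)ˣ →* Module.End (ZMod p) K
  T_comm_gal : ∀ (ℓ : ℕ) (σ : GQ), T ℓ * gal σ = gal σ * T ℓ
  D_comm_gal : ∀ (u : (ZMod M)ˣ) (σ : GQ), D u * gal σ = gal σ * D u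
  T_comm_D : ∀ (ℓ : ℕ) (u : (ZMod M)ˣ), T ℓ * D u = D u * T ℓ
  level : ∀ x : K, HasLevel (fun σ => gal σ x = x)
  inertia : ∀ ℓ : ℕ, ℓ.Prime → ¬ ℓ ∣ M * p → ∀ A : ValuationSubring Qb, A.LiesOverPrime ℓ →
    ∀ σ ∈ A.inertiaSubgroupIn ℚ, gal σ = 1
  frob : ∀ (ℓ : ℕ) (hℓ : ℓ.Prime) (hℓMp : ¬ ℓ ∣ M * p) (A : ValuationSubring Qb),
    A.LiesOverPrime ℓ → ∀ τ : GQ, A.IsFrobeniusAt τ ℓ →
      D (unitOfPrime hℓ (not_dvd_left_of_not_dvd_mul hℓMp)) * (gal τ * gal τ) - T ℓ * gal τ +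
        (ℓ : ZMod p) • 1 = 0

attribute [instance] KumModel1Dual.instAddCommGroup KumModel1Dual.instModule

namespace KumModel1Dual

variable {M p : ℕ} [NeZero M] (Mod : KumModel1Dual M p)

/-- The diamond character `σ ↦ ⟨cycM σ⟩`. -/
noncomputable def diaChar : GQ →* Module.End (ZMod p) Mod.K := Mod.D.comp (cycM M)

theorem diaChar_apply (σ : GQ) : Mod.diaChar σ = Mod.D (cycM M σ) := rfl

theorem diaChar_comm_gal (σ τ : GQ) : Mod.diaChar σ * Mod.gal τ = Mod.gal τ * Mod.diaChar σ :=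
  Mod.D_comm_gal _ _

/-- The twisted Galois action `σ ↦ ⟨cycM σ⟩ ∘ gal σ`. -/
noncomputable def twistGal : GQ →* Module.End (ZMod p) Mod.K where
  toFun σ := Mod.diaChar σ * Mod.gal σ
  map_one' := by rw [map_one, map_one, mul_one]
  map_mul' σ τ := by
    rw [map_mul, map_mul, mul_assoc, ← mul_assoc (Mod.diaChar τ), Mod.diaChar_comm_gal τ σ,
      mul_assoc, mul_assoc]

theorem twistGal_apply (σ : GQ) : Mod.twistGal σ = Mod.D (cycM M σ) * Mod.gal σ := rfl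

/-- **A dual model becomes a standard model after twisting the Galois action.** -/
noncomputable def toStd : KumModel1 M p where
  K := Mod.K
  gal := Mod.twistGal
  T := Mod.T
  D := Mod.D
  T_comm_gal ℓ σ := by
    rw [twistGal_apply, ← mul_assoc, Mod.T_comm_D, mul_assoc, Mod.T_comm_gal, mul_assoc]
  D_comm_gal u σ := by
    rw [twistGal_apply, ← mul_assoc, ← map_mul, mul_comm u, map_mul, mul_assoc, Mod.D_comm_gal,
      mul_assoc]
  level x := by
    obtain ⟨L, hL, h⟩ := cycM_finiteLevel M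
    have hcyc : HasLevel (fun σ : GQ => cycM M σ = 1) := ⟨L, hL, fun σ hσ => h σ hσ⟩
    refine (hcyc.and (Mod.level x)).mono fun σ hσ => ?_
    rw [twistGal_apply, hσ.1, map_one, one_mul]
    exact hσ.2
  inertia ℓ hℓ hℓMp A hA σ hσ := by
    rw [twistGal_apply, cycM_inertia hℓ (not_dvd_left_of_not_dvd_mul hℓMp) hA hσ, map_one, one_mul,
      Mod.inertia ℓ hℓ hℓMp A hA σ hσ]
  frob ℓ hℓ hℓMp A hA τ hτ := by
    have h := Mod.frob ℓ hℓ hℓMp A hA τ hτ
    rw [twistGal_apply, cycM_frob_unit hℓ (not_dvd_left_of_not_dvd_mul hℓMp) hA hτ]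
    set d := Mod.D (unitOfPrime hℓ (not_dvd_left_of_not_dvd_mul hℓMp)) with hd
    set g := Mod.gal τ with hg
    have hdg : d * g = g * d := Mod.D_comm_gal _ _
    have hTd : Mod.T ℓ * d = d * Mod.T ℓ := Mod.T_comm_D _ _
    have e : d * g * (d * g) - Mod.T ℓ * (d * g) + (ℓ : ZMod p) • d
        = d * (d * (g * g) - Mod.T ℓ * g + (ℓ : ZMod p) • 1) := by
      have h1 : d * g * (d * g) = d * (d * (g * g)) := by
        rw [mul_assoc, ← mul_assoc g d g, ← hdg, mul_assoc]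
      have h2 : Mod.T ℓ * (d * g) = d * (Mod.T ℓ * g) := by
        rw [← mul_assoc, hTd, mul_assoc]
      rw [h1, h2, mul_add, mul_sub, mul_smul_comm, mul_one]
    rw [e, h, mul_zero]

@[simp] theorem toStd_K : Mod.toStd.K = Mod.K := rfl
@[simp] theorem toStd_T (ℓ : ℕ) : Mod.toStd.T ℓ = Mod.T ℓ := rfl
@[simp] theorem toStd_D (u : (ZMod M)ˣ) : Mod.toStd.D u = Mod.D u := rfl

/-- (EIG) for a dual model (same notion as for a standard model). -/
def HasEigen1 (k0 : Type) [Field k0] [Algebra (ZMod p) k0] (a : ℕ → k0)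
    (χ : (ZMod M)ˣ →* k0ˣ) : Prop :=
  ∃ v : k0 ⊗[ZMod p] Mod.K, v ≠ 0 ∧
    (∀ ℓ : ℕ, ℓ.Prime → ¬ ℓ ∣ M * p → (Mod.T ℓ).baseChange k0 v = a ℓ • v) ∧
    ∀ u : (ZMod M)ˣ, (Mod.D u).baseChange k0 v = ((χ u : k0ˣ) : k0) • v

theorem hasEigen1_toStd {k0 : Type} [Field k0] [Algebra (ZMod p) k0] {a : ℕ → k0}
    {χ : (ZMod M)ˣ →* k0ˣ} (h : Mod.HasEigen1 k0 a χ) : Mod.toStd.HasEigen1 k0 a χ := h

/-- **The output of the port, dual Eichler–Shimura convention**: same conclusion as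
`KumModel1.exists_rep`. -/
theorem exists_rep (k0 : Type) [Field k0] [Algebra (ZMod p) k0] [Finite k0] [CharP k0 p]
    [Fact p.Prime] (a : ℕ → k0) (χ : (ZMod M)ˣ →* k0ˣ) (h : Mod.HasEigen1 k0 a χ) :
    ∃ ρ : GQ →* GL (Fin 2) k0, GaloisFactorsThroughFiniteLevel ρ ∧
      ∀ (ℓ : ℕ) (hℓ : ℓ.Prime) (hℓMp : ¬ ℓ ∣ M * p) (A : ValuationSubring Qb),
        A.LiesOverPrime ℓ →
        (∀ σ ∈ A.inertiaSubgroupIn ℚ, ρ σ = 1) ∧
        ∀ τ : GQ, A.IsFrobeniusAt τ ℓ →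
          ((ρ τ : GL (Fin 2) k0) : Matrix (Fin 2) (Fin 2) k0).trace = a ℓ ∧
          ((ρ τ : GL (Fin 2) k0) : Matrix (Fin 2) (Fin 2) k0).det =
            (ℓ : k0) * ((χ (unitOfPrime hℓ (not_dvd_left_of_not_dvd_mul hℓMp)) : k0ˣ) : k0) :=
  Mod.toStd.exists_rep k0 a χ (Mod.hasEigen1_toStd h)

end KumModel1Dual

end Fermat.Agent.DS.P5
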